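import Fermat.Agent.S21.Defs
import Fermat.Prelude.Thm_ModularForm_sturm_bound_Gamma0
import Fermat.Prelude.Thm_CongruenceSubgroup_one_mem_strictPeriods_Gamma0

set_option autoImplicit false

/-!
# S21, Part A0 : finite dimensionality, vanishing, division by `Δ`
-/

namespace Fermat.Agent.S21

open UpperHalfPlane ModularForm Filter CongruenceSubgroup
open scoped MatrixGroups Manifold Topology

namespace PartA0

/-- The first `B + 1` `q`-coefficients, as a linear map on bundled forms. -/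
noncomputable def coeffMap (N : ℕ) (k : ℤ) (B : ℕ) :
    ModularForm ((Gamma0 N : Subgroup SL(2, ℤ)) : Subgroup (GL (Fin 2) ℝ)) k →ₗ[ℂ] (Fin (B + 1) → ℂ) where
  toFun f := fun n => (qExpansion 1 f).coeff (n : ℕ)
  map_add' f g := by
    ext n
    have := ModularForm.qExpansion_add one_pos (CongruenceSubgroup.one_mem_strictPeriods_Gamma0 N) f g
    simp only [Pi.add_apply]
    rw [← map_add, ← this]
    rfl
  map_smul' c f := by
    ext n
    have := ModularForm.qExpansion_smul one_pos (CongruenceSubgroup.one_mem_strictPeriods_Gamma0 N) c f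
    simp only [Pi.smul_apply, RingHom.id_apply, smul_eq_mul]
    rw [← smul_eq_mul, ← PowerSeries.coeff_smul, ← this]
    rfl

lemma coeffMap_injective (N : ℕ) [NeZero N] (k : ℤ) :
    Function.Injective (coeffMap N k ((k * (Gamma0 N).index).toNat / 12)) := by
  rw [← LinearMap.ker_eq_bot, LinearMap.ker_eq_bot']
  intro f hf
  apply ModularForm.sturm_bound_Gamma0 N f
  intro n hn
  have := congrFun hf ⟨n, Nat.lt_succ_of_le hn⟩
  simpa [coeffMap] using this

end PartA0

open PartA0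

theorem finiteDimensional_MF (N : ℕ) [NeZero N] (k : ℤ) : FiniteDimensional ℂ (MF (Gamma0 N) k) := by
  have h1 : FiniteDimensional ℂ
      (ModularForm ((Gamma0 N : Subgroup SL(2, ℤ)) : Subgroup (GL (Fin 2) ℝ)) k) :=
    FiniteDimensional.of_injective _ (coeffMap_injective N k)
  exact LinearEquiv.finiteDimensional (mfEquiv (Gamma0 N) k)

/-- Sturm-type dimension bound. -/
theorem finrank_MF_le (N : ℕ) [NeZero N] (k : ℤ) :
    Module.finrank ℂ (MF (Gamma0 N) k) ≤ (k * (Gamma0 N).index).toNat / 12 + 1 := by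
  rw [← (mfEquiv (Gamma0 N) k).finrank_eq]
  have := LinearMap.finrank_le_finrank_of_injective (coeffMap_injective N k)
  simpa using this

theorem isMF_eq_zero_of_neg {Γ : Subgroup SL(2, ℤ)} [Γ.FiniteIndex] {k : ℤ} (hk : k < 0) {f : ℍ → ℂ}
    (hf : IsMF Γ k f) : f = 0 := by
  have := ModularForm.isZero_of_neg_weight hk hf.toModularForm
  have h2 := congrArg (fun F : ModularForm (Γ : Subgroup (GL (Fin 2) ℝ)) k => (F : ℍ → ℂ)) this
  simpa using h2

theorem isMF_const_of_weight_zero {Γ : Subgroup SL(2, ℤ)} [Γ.FiniteIndex] {f : ℍ → ℂ}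
    (hf : IsMF Γ 0 f) : ∃ c : ℂ, f = fun _ => c := by
  obtain ⟨c, hc⟩ := ModularForm.eq_const_of_weight_zero hf.toModularForm
  exact ⟨c, hc⟩

theorem isCF_eq_zero_of_nonpos {Γ : Subgroup SL(2, ℤ)} [Γ.FiniteIndex] {k : ℤ} (hk : k ≤ 0) {f : ℍ → ℂ}
    (hf : IsCF Γ k f) : f = 0 := by
  rcases hk.lt_or_eq with hk | rfl
  · exact isMF_eq_zero_of_neg hk hf.isMF
  · obtain ⟨c, rfl⟩ := isMF_const_of_weight_zero hf.isMF
    have h0 := hf.zero 1
    rw [SlashAction.slash_one] at h0
    have h1 : Tendsto (fun _ : ℍ => c) atImInfty (𝓝 c) := tendsto_const_nhds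
    have : c = 0 := tendsto_nhds_unique h1 h0
    subst this
    rfl

theorem isMF_eq_zero_of_odd {Γ : Subgroup SL(2, ℤ)} (hneg : -1 ∈ Γ) {k : ℤ} (hk : Odd k) {f : ℍ → ℂ}
    (hf : IsMF Γ k f) : f = 0 := by
  funext z
  have h := congrFun (hf.inv (-1) hneg) z
  rw [SL_slash_apply] at h
  have h1 : ((-1 : SL(2, ℤ)) • z) = z := by
    simp
  have h2 : denom ((-1 : SL(2, ℤ)) : GL (Fin 2) ℝ) z = -1 := by
    simp [denom]
  rw [h1, h2, Odd.neg_one_zpow (by simpa using hk.neg)] at h
  have h3 : (2 : ℂ) * f z = 0 := by linear_combination -h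
  simpa using h3

theorem isMF_top_two_eq_zero {f : ℍ → ℂ} (hf : IsMF ⊤ 2 f) : f = 0 := by
  have := rank_zero_iff_forall_zero.mp ModularForm.levelOne_weight_two_rank_zero hf.toLevelOne
  have h2 := congrArg (fun F : ModularForm 𝒮ℒ 2 => (F : ℍ → ℂ)) this
  simpa using h2

/-- division by `Δ` -/
theorem isMF_div_discriminant {Γ : Subgroup SL(2, ℤ)} {k : ℤ} {f : ℍ → ℂ} (hf : IsMF Γ k f)
    (hO : ∀ g : SL(2, ℤ), (f ∣[k] g) =O[atImInfty] fun z : ℍ => Real.exp (-2 * Real.pi * z.im)) :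
    IsMF Γ (k - 12) (fun z => f z / discriminant z) := by
  have hΔ : ∀ g : SL(2, ℤ), discriminant ∣[(12 : ℤ)] g = discriminant :=
    fun g => isCF_Delta.inv g trivial
  have hslash : ∀ g : SL(2, ℤ), (fun z => f z / discriminant z) ∣[k - 12] g
      = fun z => (f ∣[k] g) z / discriminant z := by
    intro g
    have := div_slash_SL2 k 12 g f discriminant
    rw [hΔ g] at this
    exact this
  refine ⟨hf.holo.div isCF_Delta.holo discriminant_ne_zero, fun γ hγ => ?_, fun g => ?_⟩
  · rw [hslash, hf.inv γ hγ]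
  · rw [hslash, IsBoundedAtImInfty, BoundedAtFilter]
    exact (Asymptotics.div_isBoundedUnder_of_isBigO
      ((hO g).trans exp_isBigO_discriminant)).isBigO_one ℝ

end Fermat.Agent.S21
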