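import Fermat.Agent.S21.Defs
import Fermat.Agent.S21.PartA0

set_option autoImplicit false

/-!
# S21, Part A2 : level one facts and the regular sequence `E₄, E₆`
-/

namespace Fermat.Agent.S21

open UpperHalfPlane ModularForm Filter CongruenceSubgroup
open scoped MatrixGroups Manifold Topology

namespace PartA2

lemma isMF_one {Γ : Subgroup SL(2, ℤ)} : IsMF Γ 0 (1 : ℍ → ℂ) :=
  ⟨mdifferentiable_const, fun γ _ => is_invariant_one γ, fun g => by
    rw [is_invariant_one]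
    exact Filter.const_boundedAtFilter _ (1 : ℂ)⟩

lemma IsMF.pow {Γ : Subgroup SL(2, ℤ)} {k : ℤ} {f : ℍ → ℂ} (hf : IsMF Γ k f) (n : ℕ) :
    IsMF Γ (n * k) (f ^ n) := by
  induction n with
  | zero => simpa using isMF_one
  | succ n ih =>
    rw [pow_succ]
    exact (ih.mul hf).congr_wt (by push_cast; ring)

/-- A level one form tends to its constant coefficient. -/
lemma tendsto_levelOne {k : ℤ} (F : ModularForm 𝒮ℒ k) :
    Tendsto F atImInfty (𝓝 ((qExpansion 1 F).coeff 0)) := by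
  have hanal := ModularFormClass.analyticAt_cuspFunction_zero F one_pos one_mem_strictPeriods_SL
  have h0 : (qExpansion 1 F).coeff 0 = cuspFunction 1 F 0 := by
    simp [qExpansion_coeff]
  rw [h0]
  exact (hanal.continuousAt.tendsto.comp (qParam_tendsto_atImInfty one_pos)).congr
    (fun τ ↦ SlashInvariantFormClass.eq_cuspFunction F τ one_mem_strictPeriods_SL one_ne_zero)

lemma exists_tendsto_of_isMF_top {k : ℤ} {a : ℍ → ℂ} (ha : IsMF ⊤ k a) :
    ∃ c : ℂ, Tendsto a atImInfty (𝓝 c) :=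
  ⟨_, tendsto_levelOne ha.toLevelOne⟩

lemma tendsto_E4 : Tendsto (E₄ : ℍ → ℂ) atImInfty (𝓝 1) := by
  have := tendsto_levelOne E₄
  rwa [EisensteinSeries.E_qExpansion_coeff_zero _ ⟨2, rfl⟩] at this

lemma tendsto_E6 : Tendsto (E₆ : ℍ → ℂ) atImInfty (𝓝 1) := by
  have := tendsto_levelOne E₆
  rwa [EisensteinSeries.E_qExpansion_coeff_zero _ ⟨3, rfl⟩] at this

lemma E4_ne_zero_or_E6_ne_zero (z : ℍ) : E₄ z ≠ 0 ∨ E₆ z ≠ 0 := by
  by_contra h
  push Not at h
  have := discriminant_eq_E₄_cube_sub_E₆_sq z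
  rw [h.1, h.2] at this
  exact discriminant_ne_zero z (by simpa using this)

/-- A level one form tending to `0` is a cusp form, hence divisible by `Δ`. -/
lemma exists_eq_discriminant_mul {k : ℤ} {a : ℍ → ℂ} (ha : IsMF ⊤ k a)
    (h0 : Tendsto a atImInfty (𝓝 0)) :
    ∃ b : ℍ → ℂ, IsMF ⊤ (k - 12) b ∧ a = discriminant * b := by
  have hc : IsCF ⊤ k a := ⟨ha.holo, ha.inv, fun g => by rw [ha.inv g trivial]; exact h0⟩
  refine ⟨CuspForm.discriminantEquiv hc.toLevelOne, isMF_top_coe _, ?_⟩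
  have := discriminant_mul_discriminantEquiv hc.toLevelOne
  rw [this]
  rfl

end PartA2

open PartA2

/-- Part A2 (regular sequence `E₄, E₆`): if `E₆ F = E₄ G` then `F` is divisible by `E₄`. -/
theorem exists_div_E4 {Γ : Subgroup SL(2, ℤ)} {k : ℤ} {F G : ℍ → ℂ} (hF : IsMF Γ (k - 6) F)
    (hG : IsMF Γ (k - 4) G)
    (h : (E₆ : ℍ → ℂ) * F = (E₄ : ℍ → ℂ) * G) :
    ∃ H : ℍ → ℂ, IsMF Γ (k - 10) H ∧ F = (E₄ : ℍ → ℂ) * H := by
  classical
  have hpt : ∀ z, E₆ z * F z = E₄ z * G z := fun z => congrFun h z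
  set H : ℍ → ℂ := fun z => if E₄ z ≠ 0 then F z / E₄ z else G z / E₆ z with hH
  have h4 : ∀ z, E₄ z * H z = F z := by
    intro z
    by_cases hz : E₄ z ≠ 0
    · simp only [hH, if_pos hz]; field_simp
    · have hz' : E₄ z = 0 := by simpa using hz
      have h6 : E₆ z ≠ 0 := (E4_ne_zero_or_E6_ne_zero z).resolve_left hz
      have := hpt z
      rw [hz', zero_mul] at this
      rw [hz', zero_mul]
      exact ((mul_eq_zero.mp this).resolve_left h6).symm
  have h6 : ∀ z, E₆ z * H z = G z := by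
    intro z
    by_cases hz : E₄ z ≠ 0
    · simp only [hH, if_pos hz]
      have := hpt z
      field_simp
      linear_combination this
    · have h6 : E₆ z ≠ 0 := (E4_ne_zero_or_E6_ne_zero z).resolve_left hz
      simp only [hH, if_neg hz]; field_simp
  have hF' : F = (E₄ : ℍ → ℂ) * H := funext fun z => (h4 z).symm
  have hG' : G = (E₆ : ℍ → ℂ) * H := funext fun z => (h6 z).symm
  -- uniqueness principle
  have huniq : ∀ H' : ℍ → ℂ, (E₄ : ℍ → ℂ) * H' = F → (E₆ : ℍ → ℂ) * H' = G → H' = H := by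
    intro H' e4 e6
    funext z
    rcases E4_ne_zero_or_E6_ne_zero z with hz | hz
    · exact mul_left_cancel₀ hz ((congrFun e4 z).trans (h4 z).symm)
    · exact mul_left_cancel₀ hz ((congrFun e6 z).trans (h6 z).symm)
  have hs4 : ∀ g : SL(2, ℤ), F ∣[k - 6] g = (E₄ : ℍ → ℂ) * (H ∣[k - 10] g) := by
    intro g
    have := mul_slash_SL2 4 (k - 10) g (E₄ : ℍ → ℂ) H
    rw [isMF_E4.inv g trivial, ← hF', show (4 : ℤ) + (k - 10) = k - 6 by ring] at this
    exact this
  have hs6 : ∀ g : SL(2, ℤ), G ∣[k - 4] g = (E₆ : ℍ → ℂ) * (H ∣[k - 10] g) := by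
    intro g
    have := mul_slash_SL2 6 (k - 10) g (E₆ : ℍ → ℂ) H
    rw [isMF_E6.inv g trivial, ← hG', show (6 : ℤ) + (k - 10) = k - 4 by ring] at this
    exact this
  refine ⟨H, ⟨?_, ?_, ?_⟩, hF'⟩
  · -- holomorphy
    intro z
    rcases E4_ne_zero_or_E6_ne_zero z with hz | hz
    · have hev : ∀ᶠ w in 𝓝 z, E₄ w ≠ 0 :=
        (ModularFormClass.continuous E₄).continuousAt.eventually_ne hz
      have hd : MDiffAt (fun w => F w / E₄ w) z :=
        MDifferentiableAt.div (hF.holo z) (isMF_E4.holo z) hz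
      refine hd.congr_of_eventuallyEq ?_
      filter_upwards [hev] with w hw
      rw [← h4 w]; field_simp
    · have hev : ∀ᶠ w in 𝓝 z, E₆ w ≠ 0 :=
        (ModularFormClass.continuous E₆).continuousAt.eventually_ne hz
      have hd : MDiffAt (fun w => G w / E₆ w) z :=
        MDifferentiableAt.div (hG.holo z) (isMF_E6.holo z) hz
      refine hd.congr_of_eventuallyEq ?_
      filter_upwards [hev] with w hw
      rw [← h6 w]; field_simp
  · intro γ hγ
    apply huniq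
    · rw [← hs4, hF.inv γ hγ]
    · rw [← hs6, hG.inv γ hγ]
  · intro g
    have hb := hF.bdd g
    rw [hs4 g] at hb
    have hev : ∀ᶠ w in atImInfty, ‖(E₄ w)‖ ≥ 1 / 2 := by
      have := tendsto_E4.norm
      simp only [norm_one] at this
      exact this.eventually (eventually_ge_nhds (by norm_num))
    rw [IsBoundedAtImInfty, BoundedAtFilter] at hb ⊢
    refine Asymptotics.IsBigO.trans ?_ hb
    refine Asymptotics.IsBigO.of_bound 2 ?_
    filter_upwards [hev] with w hw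
    rw [Pi.mul_apply, norm_mul]
    nlinarith [norm_nonneg ((H ∣[k - 10] g) w)]

/-- Part A2 (level one): for even `k ≥ 4` or `k = 0` there is a level one form tending to `1`. -/
theorem exists_isMF_top_tendsto_one {k : ℤ} (hk : Even k) (hk' : k = 0 ∨ 4 ≤ k) :
    ∃ e : ℍ → ℂ, IsMF ⊤ k e ∧ Tendsto e atImInfty (𝓝 1) := by
  obtain ⟨x, y, hxy⟩ : ∃ x y : ℕ, (x : ℤ) * 4 + (y : ℤ) * 6 = k := by
    obtain ⟨n, hn⟩ := hk
    rcases Int.even_or_odd' n with ⟨m, hm | hm⟩
    · refine ⟨m.toNat, 0, ?_⟩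
      have : 0 ≤ m := by omega
      rw [Int.toNat_of_nonneg this]; omega
    · refine ⟨(m - 1).toNat, 1, ?_⟩
      have : 0 ≤ m - 1 := by omega
      rw [Int.toNat_of_nonneg this]; omega
  refine ⟨(E₄ : ℍ → ℂ) ^ x * (E₆ : ℍ → ℂ) ^ y, ((IsMF.pow isMF_E4 x).mul (IsMF.pow isMF_E6 y)).congr_wt hxy, ?_⟩
  have := (tendsto_E4.pow x).mul (tendsto_E6.pow y)
  simp only [one_pow, mul_one] at this
  exact this

/-- Part A2 (level one): positive weight forms lie in the ideal `(E₄, E₆)`. -/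
theorem exists_eq_E4_mul_add_E6_mul {k : ℤ} (hk : 0 < k) {a : ℍ → ℂ} (ha : IsMF ⊤ k a) :
    ∃ b c : ℍ → ℂ, IsMF ⊤ (k - 4) b ∧ IsMF ⊤ (k - 6) c ∧
      a = (E₄ : ℍ → ℂ) * b + (E₆ : ℍ → ℂ) * c := by
  rcases Int.even_or_odd k with hev | hodd
  swap
  · have := isMF_eq_zero_of_odd (Γ := ⊤) trivial hodd ha
    exact ⟨0, 0, isMF_zero, isMF_zero, by simp [this]⟩
  by_cases hk2 : k = 2
  · subst hk2
    exact ⟨0, 0, isMF_zero, isMF_zero, by simp [isMF_top_two_eq_zero ha]⟩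
  have hk4 : 4 ≤ k := by
    obtain ⟨n, hn⟩ := hev
    omega
  -- a form `m = E₄ b₀ + E₆ c₀` of weight `k` tending to `1`
  obtain ⟨b₀, c₀, hb₀, hc₀, hm⟩ : ∃ b₀ c₀ : ℍ → ℂ, IsMF ⊤ (k - 4) b₀ ∧ IsMF ⊤ (k - 6) c₀ ∧
      Tendsto ((E₄ : ℍ → ℂ) * b₀ + (E₆ : ℍ → ℂ) * c₀) atImInfty (𝓝 1) := by
    by_cases hk6 : k = 6
    · subst hk6
      refine ⟨0, 1, isMF_zero, isMF_one, ?_⟩
      simpa using tendsto_E6
    · obtain ⟨e, he, het⟩ := exists_isMF_top_tendsto_one (k := k - 4) (by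
        obtain ⟨n, hn⟩ := hev
        exact ⟨n - 2, by omega⟩) (by
        obtain ⟨n, hn⟩ := hev
        omega)
      refine ⟨e, 0, he, isMF_zero, ?_⟩
      have := tendsto_E4.mul het
      simp only [mul_one] at this
      have h0 : ((E₄ : ℍ → ℂ) * e + (E₆ : ℍ → ℂ) * 0) = fun x => E₄ x * e x := by
        funext x
        simp
      rw [h0]
      exact this
  obtain ⟨c, hc⟩ := exists_tendsto_of_isMF_top ha
  have hmMF : IsMF ⊤ k ((E₄ : ℍ → ℂ) * b₀ + (E₆ : ℍ → ℂ) * c₀) :=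
    ((isMF_E4.mul hb₀).congr_wt (by ring)).add ((isMF_E6.mul hc₀).congr_wt (by ring))
  obtain ⟨d, hd, hda⟩ := exists_eq_discriminant_mul (ha.sub (hmMF.smul c)) (by
    have := hc.sub (hm.const_mul c)
    simp only [mul_one, sub_self] at this
    exact this)
  refine ⟨c • b₀ + (1 / 1728 : ℂ) • ((E₄ : ℍ → ℂ) ^ 2 * d),
    c • c₀ - (1 / 1728 : ℂ) • ((E₆ : ℍ → ℂ) * d), ?_, ?_, ?_⟩
  · exact (hb₀.smul c).add ((((IsMF.pow isMF_E4 2).mul hd).congr_wt (by push_cast; ring)).smul _)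
  · exact (hc₀.smul c).sub (((isMF_E6.mul hd).congr_wt (by ring)).smul _)
  · funext z
    have h1 := congrFun hda z
    have h2 := discriminant_eq_E₄_cube_sub_E₆_sq z
    simp only [Pi.sub_apply, Pi.smul_apply, Pi.add_apply, Pi.mul_apply, smul_eq_mul,
      Pi.pow_apply] at h1 ⊢
    rw [h2] at h1
    linear_combination h1

/-- Part A2 (level one): lower bound for the dimension. -/
theorem le_finrank_MF_top {k : ℤ} (hk : Even k) (hk' : 0 ≤ k) :
    (k / 12).toNat ≤ Module.finrank ℂ (MF ⊤ k) := by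
  lift k to ℕ using hk'
  rw [← (mfTopEquiv (k : ℤ)).finrank_eq]
  have h := dimension_level_one k (by exact_mod_cast hk)
  have h2 : Module.finrank ℂ (ModularForm 𝒮ℒ (k : ℤ)) = if k ≡ 2 [MOD 12] then k / 12 else k / 12 + 1 := by
    unfold Module.finrank
    rw [h]
    split_ifs <;> simp
  rw [h2]
  have : ((k : ℤ) / 12).toNat = k / 12 := by
    omega
  rw [this]
  split_ifs <;> omega

end Fermat.Agent.S21
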