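import Fermat.Agent.S21.Defs
import Fermat.Agent.S21.PartA0
import Fermat.Agent.S21.PartA2

set_option autoImplicit false

/-!
# S21, Part A1 : elementary consequences of freeness
-/

namespace Fermat.Agent.S21

open UpperHalfPlane ModularForm Filter CongruenceSubgroup
open scoped MatrixGroups Manifold Topology

section
variable {Γ : Subgroup SL(2, ℤ)} [Γ.FiniteIndex] [Fintype (SL(2, ℤ) ⧸ Γ)]
  [DecidableEq (SL(2, ℤ) ⧸ Γ)]

namespace PartA1

lemma isMF_const {Γ' : Subgroup SL(2, ℤ)} (c : ℂ) : IsMF Γ' 0 (fun _ : ℍ => c) := by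
  have h := (PartA2.isMF_one (Γ := Γ')).smul c
  have h0 : (c • (1 : ℍ → ℂ)) = fun _ : ℍ => c := by
    funext z
    simp
  rwa [h0] at h

omit [Γ.FiniteIndex] in
/-- `ℂ`-linear independence of the generators of a given weight. -/
lemma eq_zero_of_sum (B : FreeBasis Γ) (k : ℤ) (c : SL(2, ℤ) ⧸ Γ → ℂ)
    (hc : ∀ j, B.wt j ≠ k → c j = 0) (h : ∑ j, c j • B.F j = 0) : ∀ j, c j = 0 := by
  have key := B.indep k (fun j _ => c j) (fun j => by
    by_cases hj : B.wt j = k
    · rw [hj, sub_self]
      exact isMF_const _
    · rw [hc j hj]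
      exact isMF_zero) (by
    rw [← h]
    refine Finset.sum_congr rfl fun j _ => ?_
    funext z
    simp)
  intro j
  exact congrFun (key j) I

omit [Γ.FiniteIndex] in
lemma F_ne_zero (B : FreeBasis Γ) (j : SL(2, ℤ) ⧸ Γ) : B.F j ≠ 0 := by
  intro h0
  have := eq_zero_of_sum B (B.wt j) (Pi.single j 1) (fun i hi => by
    have : i ≠ j := fun h => hi (by rw [h])
    simp [this]) (by
    refine Finset.sum_eq_zero fun i _ => ?_
    by_cases hi : i = j
    · subst hi
      simp [h0]
    · simp [hi]) j
  simp at this

end PartA1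

open PartA1

set_option linter.unusedSectionVars false in
theorem FreeBasis.wt_even (B : FreeBasis Γ) (hneg : -1 ∈ Γ) (j : SL(2, ℤ) ⧸ Γ) :
    Even (B.wt j) := by
  by_contra h
  rw [Int.not_even_iff_odd] at h
  exact F_ne_zero B j (isMF_eq_zero_of_odd hneg h (B.mem j))

theorem FreeBasis.wt_nonneg (B : FreeBasis Γ) (j : SL(2, ℤ) ⧸ Γ) : 0 ≤ B.wt j := by
  by_contra h
  push Not at h
  exact F_ne_zero B j (isMF_eq_zero_of_neg h (B.mem j))

theorem FreeBasis.card_wt_zero (B : FreeBasis Γ) :
    (Finset.univ.filter fun j => B.wt j = 0).card = 1 := by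
  apply le_antisymm
  · rw [Finset.card_le_one]
    intro i hi j hj
    simp only [Finset.mem_filter, Finset.mem_univ, true_and] at hi hj
    by_contra hij
    obtain ⟨a, ha⟩ := isMF_const_of_weight_zero ((B.mem i).congr_wt hi)
    obtain ⟨b, hb⟩ := isMF_const_of_weight_zero ((B.mem j).congr_wt hj)
    have hb0 : b ≠ 0 := by
      intro h
      apply F_ne_zero B j
      rw [hb, h]
      rfl
    have := eq_zero_of_sum B 0 (fun l => if l = i then b else if l = j then -a else 0)
      (fun l hl => by
        have h1 : l ≠ i := fun h => hl (by rw [h, hi])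
        have h2 : l ≠ j := fun h => hl (by rw [h, hj])
        simp [h1, h2]) (by
        rw [Finset.sum_eq_add_of_mem i j (Finset.mem_univ _) (Finset.mem_univ _) hij]
        · have hji : j ≠ i := fun h => hij h.symm
          simp only [if_true, hji, if_false]
          rw [ha, hb]
          funext z
          simp only [Pi.add_apply, Pi.smul_apply, smul_eq_mul, Pi.zero_apply]
          ring
        · intro l _ hl
          simp [hl.1, hl.2]) i
    simp only [if_true] at this
    exact hb0 this
  · rw [Nat.succ_le_iff, Finset.card_pos]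
    by_contra hne
    rw [Finset.not_nonempty_iff_eq_empty, Finset.filter_eq_empty_iff] at hne
    obtain ⟨a, ha, h1⟩ := B.span 0 1 PartA2.isMF_one
    have ha0 : ∀ j, a j = 0 := fun j => by
      have h0 := B.wt_nonneg j
      have h2 := hne (Finset.mem_univ j)
      exact isMF_eq_zero_of_neg (Γ := ⊤) (by omega) (ha j)
    have : (1 : ℍ → ℂ) = 0 := by
      rw [h1]
      exact Finset.sum_eq_zero fun j _ => by rw [ha0 j, zero_mul]
    exact one_ne_zero (congrFun this I)

set_option linter.unusedSectionVars false in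
/-- the generators of weight `k` are linearly independent elements of `M_k(Γ)` -/
theorem FreeBasis.linearIndependent_wt (B : FreeBasis Γ) (k : ℤ) :
    LinearIndependent ℂ (fun j : {j // B.wt j = k} => B.F j.1) := by
  rw [Fintype.linearIndependent_iff]
  intro g hg i
  have := eq_zero_of_sum B k (fun j => if h : B.wt j = k then g ⟨j, h⟩ else 0)
    (fun j hj => by simp [hj]) (by
    have h1 := Finset.sum_subtype (Finset.univ.filter fun j => B.wt j = k) (p := fun j => B.wt j = k) (F := inferInstance)
      (by simp) (fun j => (if h : B.wt j = k then g ⟨j, h⟩ else 0) • B.F j)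
    have h2 : ∑ a : {j // B.wt j = k}, (if h : B.wt a.1 = k then g ⟨a.1, h⟩ else 0) • B.F a.1
        = ∑ i, g i • B.F i.1 := by
      refine Finset.sum_congr rfl fun j _ => ?_
      simp [j.2]
    rw [← hg, ← h2, ← h1, Finset.sum_filter]
    refine Finset.sum_congr rfl fun j _ => ?_
    by_cases hj : B.wt j = k
    · simp [hj]
    · simp [hj]) i.1
  simpa [i.2] using this

end

end Fermat.Agent.S21
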