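import Fermat.Agent.S21.Defs

set_option autoImplicit false

/-!
# S21, Part B: the fundamental matrix of a free basis is everywhere invertible

The Serre derivative preserves modular forms, so the fundamental matrix `X` satisfies a linear
differential equation `X' = X M` with `M` holomorphic on the upper half plane.  If `u X(z₀) = 0`
then `u X` is a solution vanishing at `z₀`, hence it vanishes identically (Grönwall along a
segment), contradicting `det X ≢ 0`.
-/

namespace Fermat.Agent.S21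

open UpperHalfPlane ModularForm Filter CongruenceSubgroup
open scoped MatrixGroups Manifold Topology

namespace PartB

open Derivative

/-- Cauchy estimate: the derivative of a holomorphic function bounded at `i∞` is bounded
at `i∞`. -/
lemma isBoundedAtImInfty_normalizedDeriv {h : ℍ → ℂ} (hh : MDiff h)
    (hb : IsBoundedAtImInfty h) : IsBoundedAtImInfty (normalizedDerivOfComplex h) := by
  rw [UpperHalfPlane.isBoundedAtImInfty_iff] at hb ⊢
  obtain ⟨M, A, hMA⟩ := hb
  refine ⟨‖(2 * Real.pi * Complex.I : ℂ)⁻¹‖ * M, max A 1 + 1, fun z hz => ?_⟩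
  have hsub : ∀ w ∈ Metric.closedBall (z : ℂ) 1, max A 1 ≤ w.im := by
    intro w hw
    have h1 : |(w - z).im| ≤ ‖w - z‖ := Complex.abs_im_le_norm _
    have h2 : ‖w - z‖ ≤ 1 := by simpa [dist_eq_norm] using hw
    have h3 := abs_le.mp (h1.trans h2)
    have h4 : (w - z).im = w.im - z.im := by simp
    have h5 : max A 1 + 1 ≤ z.im := hz
    linarith [h3.1]
  have hpos : ∀ w ∈ Metric.closedBall (z : ℂ) 1, w ∈ upperHalfPlaneSet := by
    intro w hw
    have := hsub w hw
    have h1 : (1 : ℝ) ≤ max A 1 := le_max_right _ _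
    show 0 < w.im
    linarith
  have hd : DiffContOnCl ℂ (h ∘ ofComplex) (Metric.ball (z : ℂ) 1) := by
    apply DifferentiableOn.diffContOnCl
    refine (UpperHalfPlane.mdifferentiable_iff.mp hh).mono ?_
    intro w hw
    exact hpos w (Metric.closure_ball_subset_closedBall hw)
  have hC : ∀ w ∈ Metric.sphere (z : ℂ) 1, ‖(h ∘ ofComplex) w‖ ≤ M := by
    intro w hw
    have hw' := Metric.sphere_subset_closedBall hw
    have := hMA (ofComplex w) (by
      rw [ofComplex_apply_of_im_pos (hpos w hw')]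
      exact (le_max_left _ _).trans (hsub w hw'))
    simpa using this
  have := Complex.norm_deriv_le_of_forall_mem_sphere_norm_le one_pos hd hC
  unfold normalizedDerivOfComplex
  rw [norm_mul]
  gcongr
  simpa using this

/-- The Serre derivative maps `M_k(Γ)` to `M_{k+2}(Γ)`. -/
lemma isMF_serreDerivative {Γ : Subgroup SL(2, ℤ)} {k : ℤ} {f : ℍ → ℂ} (hf : IsMF Γ k f) :
    IsMF Γ (k + 2) (serreDerivative k f) where
  holo := serreDerivative_mdifferentiable _ hf.holo
  inv γ hγ := serreDerivative_slash_invariant hf.holo (hf.inv γ hγ)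
  bdd g := by
    rw [serreDerivative_slash_equivariant hf.holo]
    have hh : MDiff (f ∣[k] g) := by rw [SL_slash]; exact hf.holo.slash _ _
    have hb := hf.bdd g
    have h1 := isBoundedAtImInfty_normalizedDeriv hh hb
    have h2 : IsBoundedAtImInfty (((k : ℂ) * 12⁻¹) • (EisensteinSeries.E2 * (f ∣[k] g))) :=
      (EisensteinSeries.isBoundedAtImInfty_E2.mul hb).const_smul_left _
    have h3 : serreDerivative k (f ∣[k] g) = normalizedDerivOfComplex (f ∣[k] g) -
        ((k : ℂ) * 12⁻¹) • (EisensteinSeries.E2 * (f ∣[k] g)) := by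
      ext z
      simp [serreDerivative, mul_assoc]
    rw [h3]
    exact h1.sub h2

/-- Uniqueness for linear differential systems on the upper half plane. -/
lemma ode_unique {ι : Type*} [Fintype ι] (y : ι → ℂ → ℂ) (N : ι → ι → ℂ → ℂ)
    (hN : ∀ j l, ContinuousOn (N j l) upperHalfPlaneSet)
    (hy : ∀ j, ∀ z ∈ upperHalfPlaneSet, HasDerivAt (y j) (∑ l, N j l z * y l z) z)
    {z0 : ℂ} (hz0 : z0 ∈ upperHalfPlaneSet) (h0 : ∀ j, y j z0 = 0)
    {z1 : ℂ} (hz1 : z1 ∈ upperHalfPlaneSet) (j : ι) : y j z1 = 0 := by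
  set γ : ℝ → ℂ := fun t => z0 + t * (z1 - z0) with hγ
  have hγmem : ∀ t ∈ Set.Icc (0 : ℝ) 1, γ t ∈ upperHalfPlaneSet := by
    intro t ht
    have hconv : Convex ℝ upperHalfPlaneSet := convex_halfSpace_im_gt 0
    have := hconv.add_smul_sub_mem hz0 hz1 ht
    simpa [hγ] using this
  have hγd : ∀ t : ℝ, HasDerivAt γ (z1 - z0) t := by
    intro t
    have h1 : HasDerivAt (fun t : ℝ => (t : ℂ)) 1 t := Complex.ofRealCLM.hasDerivAt
    simpa [hγ] using (h1.mul_const (z1 - z0)).const_add z0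
  have hγc : Continuous γ := continuous_iff_continuousAt.mpr fun t => (hγd t).continuousAt
  have hbd : ∀ j l, ∃ C, ∀ t ∈ Set.Icc (0 : ℝ) 1, ‖N j l (γ t)‖ ≤ C := by
    intro j l
    have hc : ContinuousOn (fun t => N j l (γ t)) (Set.Icc (0 : ℝ) 1) :=
      (hN j l).comp hγc.continuousOn hγmem
    exact isCompact_Icc.exists_bound_of_continuousOn hc
  choose C hC using hbd
  have hC0 : ∀ j l, 0 ≤ C j l := fun j l =>
    (norm_nonneg _).trans (hC j l 0 (by simp))
  set φ : ℝ → ι → ℂ := fun t j => y j (γ t) with hφ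
  set φ' : ℝ → ι → ℂ := fun t j => (z1 - z0) * (∑ l, N j l (γ t) * y l (γ t)) with hφ'
  have hφd : ∀ t ∈ Set.Icc (0 : ℝ) 1, HasDerivAt φ (φ' t) t := by
    intro t ht
    rw [hasDerivAt_pi]
    intro j
    exact (hy j (γ t) (hγmem t ht)).scomp t (hγd t)
  set K : ℝ := ‖z1 - z0‖ * ∑ j, ∑ l, C j l with hK
  have hbound : ∀ t ∈ Set.Ico (0 : ℝ) 1, ‖φ' t‖ ≤ K * ‖φ t‖ := by
    intro t ht
    have ht' : t ∈ Set.Icc (0 : ℝ) 1 := Set.Ico_subset_Icc_self ht
    have hK0 : 0 ≤ K := mul_nonneg (norm_nonneg _)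
      (Finset.sum_nonneg fun j _ => Finset.sum_nonneg fun l _ => hC0 j l)
    rw [pi_norm_le_iff_of_nonneg (mul_nonneg hK0 (norm_nonneg _))]
    intro j
    calc ‖φ' t j‖ = ‖z1 - z0‖ * ‖∑ l, N j l (γ t) * y l (γ t)‖ := norm_mul _ _
      _ ≤ ‖z1 - z0‖ * ∑ l, C j l * ‖φ t‖ := by
          gcongr
          refine (norm_sum_le _ _).trans (Finset.sum_le_sum fun l _ => ?_)
          rw [norm_mul]
          exact mul_le_mul (hC j l t ht') (norm_le_pi_norm (φ t) l) (norm_nonneg _) (hC0 j l)
      _ = ‖z1 - z0‖ * (∑ l, C j l) * ‖φ t‖ := by rw [← Finset.sum_mul, mul_assoc]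
      _ ≤ K * ‖φ t‖ := by
          refine mul_le_mul_of_nonneg_right ?_ (norm_nonneg _)
          refine mul_le_mul_of_nonneg_left ?_ (norm_nonneg _)
          exact Finset.single_le_sum (f := fun j => ∑ l, C j l)
            (fun j _ => Finset.sum_nonneg fun l _ => hC0 j l) (Finset.mem_univ j)
  have hzero := eq_zero_of_abs_deriv_le_mul_abs_self_of_eq_zero_right (f := φ) (f' := φ') (K := K)
    (a := 0) (b := 1) (fun t ht => (hφd t ht).continuousAt.continuousWithinAt)
    (fun t ht => (hφd t (Set.Ico_subset_Icc_self ht)).hasDerivWithinAt)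
    (by ext j; simpa [hφ, hγ] using h0 j) hbound 1 (by simp)
  have := congrFun hzero j
  simpa [hφ, hγ] using this

variable {Γ : Subgroup SL(2, ℤ)} [Fintype (SL(2, ℤ) ⧸ Γ)] [DecidableEq (SL(2, ℤ) ⧸ Γ)]

/-- The Serre derivatives of the components of the basis elements are combinations, with level
one coefficients, of the components of the basis elements. -/
lemma exists_connection (B : FreeBasis Γ) :
    ∃ a : SL(2, ℤ) ⧸ Γ → SL(2, ℤ) ⧸ Γ → ℍ → ℂ, (∀ j l, MDiff (a j l)) ∧
      ∀ j x, serreDerivative (B.wt j) (comp Γ (B.wt j) (B.F j) x) =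
        ∑ l, a j l * comp Γ (B.wt l) (B.F l) x := by
  have h := fun j => B.span (B.wt j + 2) _ (isMF_serreDerivative (B.mem j))
  choose a ha hsum using h
  refine ⟨a, fun j l => (ha j l).holo, fun j x => ?_⟩
  unfold comp
  rw [← serreDerivative_slash_equivariant (B.mem j).holo, hsum j, SlashAction.sum_slash]
  refine Finset.sum_congr rfl fun l _ => ?_
  have hw : B.wt j + 2 = (B.wt j + 2 - B.wt l) + B.wt l := by ring
  rw [hw, mul_slash_SL2, (ha j l).inv _ trivial]

end PartB

variable {Γ : Subgroup SL(2, ℤ)} [Γ.FiniteIndex] [Fintype (SL(2, ℤ) ⧸ Γ)]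
  [DecidableEq (SL(2, ℤ) ⧸ Γ)]

open Derivative in
theorem FreeBasis.det_ne_zero (B : FreeBasis Γ) (z : ℍ) : (B.mat z).det ≠ 0 := by
  intro hdet
  obtain ⟨u, hu0, hu⟩ := Matrix.exists_vecMul_eq_zero_iff.mpr hdet
  obtain ⟨a, ha, hconn⟩ := PartB.exists_connection B
  obtain ⟨z1, hz1⟩ := B.det_ne
  apply hz1
  apply Matrix.exists_vecMul_eq_zero_iff.mp
  refine ⟨u, hu0, ?_⟩
  set y : SL(2, ℤ) ⧸ Γ → ℂ → ℂ := fun j w =>
    ∑ x, u x * (comp Γ (B.wt j) (B.F j) x ∘ ofComplex) w with hy
  set N : SL(2, ℤ) ⧸ Γ → SL(2, ℤ) ⧸ Γ → ℂ → ℂ := fun j l w =>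
    (2 * Real.pi * Complex.I) * ((a j l ∘ ofComplex) w +
      if l = j then (B.wt j : ℂ) * 12⁻¹ * (EisensteinSeries.E2 ∘ ofComplex) w else 0) with hN
  have hNc : ∀ j l, ContinuousOn (N j l) upperHalfPlaneSet := by
    intro j l
    have h1 : ContinuousOn (a j l ∘ ofComplex) upperHalfPlaneSet :=
      (UpperHalfPlane.mdifferentiable_iff.mp (ha j l)).continuousOn
    have h2 : ContinuousOn (EisensteinSeries.E2 ∘ ofComplex) upperHalfPlaneSet :=
      (UpperHalfPlane.mdifferentiable_iff.mp E2_mdifferentiable).continuousOn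
    by_cases hlj : l = j
    · simp only [hN, hlj, if_true]
      exact continuousOn_const.mul ((hlj ▸ h1).add (continuousOn_const.mul h2))
    · simp only [hN, hlj, if_false, add_zero]
      exact continuousOn_const.mul h1
  have hyd : ∀ j, ∀ w ∈ upperHalfPlaneSet, HasDerivAt (y j) (∑ l, N j l w * y l w) w := by
    intro j w hw
    set τ : ℍ := ⟨w, hw⟩ with hτ
    have hoc : ofComplex w = τ := ofComplex_apply_of_im_pos hw
    have hd : ∀ x, HasDerivAt (comp Γ (B.wt j) (B.F j) x ∘ ofComplex)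
        ((2 * Real.pi * Complex.I) * (∑ l, a j l τ * comp Γ (B.wt l) (B.F l) x τ +
          (B.wt j : ℂ) * 12⁻¹ * EisensteinSeries.E2 τ * comp Γ (B.wt j) (B.F j) x τ)) w := by
      intro x
      have h1 : HasDerivAt (comp Γ (B.wt j) (B.F j) x ∘ ofComplex)
          (deriv (comp Γ (B.wt j) (B.F j) x ∘ ofComplex) (τ : ℂ)) (τ : ℂ) :=
        (UpperHalfPlane.mdifferentiableAt_iff.mp ((B.mem j).comp_holo x τ)).hasDerivAt
      have h2 := congrFun (hconn j x) τ
      simp only [serreDerivative_apply, normalizedDerivOfComplex, Finset.sum_apply,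
        Pi.mul_apply] at h2
      have h3 : (2 * Real.pi * Complex.I : ℂ) ≠ 0 := Complex.two_pi_I_ne_zero
      have h4 : deriv (comp Γ (B.wt j) (B.F j) x ∘ ofComplex) (τ : ℂ) =
          (2 * Real.pi * Complex.I) * (∑ l, a j l τ * comp Γ (B.wt l) (B.F l) x τ +
          (B.wt j : ℂ) * 12⁻¹ * EisensteinSeries.E2 τ * comp Γ (B.wt j) (B.F j) x τ) := by
        rw [← h2]
        field_simp
        ring
      rw [h4] at h1
      exact h1
    have hsum : HasDerivAt (y j) (∑ x, u x * ((2 * Real.pi * Complex.I) *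
        (∑ l, a j l τ * comp Γ (B.wt l) (B.F l) x τ +
          (B.wt j : ℂ) * 12⁻¹ * EisensteinSeries.E2 τ * comp Γ (B.wt j) (B.F j) x τ))) w :=
      HasDerivAt.fun_sum fun x _ => (hd x).const_mul (u x)
    convert hsum using 1
    have e1 : ∑ l, N j l w * y l w = (2 * Real.pi * Complex.I) * (∑ l, a j l τ * y l w) +
        (2 * Real.pi * Complex.I) * ((B.wt j : ℂ) * 12⁻¹ * EisensteinSeries.E2 τ) * y j w := by
      simp only [hN, Function.comp_apply, hoc, mul_add, add_mul, mul_ite, ite_mul, mul_zero,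
        zero_mul, Finset.sum_add_distrib, Finset.sum_ite_eq', Finset.mem_univ, if_true,
        Finset.mul_sum, mul_assoc]
    rw [e1]
    simp only [hy, Function.comp_apply, hoc, mul_add, Finset.sum_add_distrib, Finset.mul_sum]
    congr 1
    · rw [Finset.sum_comm]
      refine Finset.sum_congr rfl fun x _ => Finset.sum_congr rfl fun l _ => ?_
      ring
    · refine Finset.sum_congr rfl fun x _ => ?_
      ring
  ext j
  have := PartB.ode_unique y N hNc hyd z.2 (fun j => by
    have := congrFun hu j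
    simpa [hy, Matrix.vecMul, dotProduct, FreeBasis.mat_apply] using this) z1.2 j
  simpa [hy, Matrix.vecMul, dotProduct] using this

end Fermat.Agent.S21
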