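import Mathlib

set_option autoImplicit false

/-!
# S21 (Eichler–Shimura, weight 2): shared definitions and basic API

Function-level modular forms: we work with plain functions `ℍ → ℂ` and membership predicates,
so that weights never need casts.
-/

namespace Fermat.Agent.S21

open UpperHalfPlane ModularForm Filter
open scoped MatrixGroups Manifold Topology

/-- `f` is a (holomorphic) modular form of weight `k` for `Γ ≤ SL(2,ℤ)`, at the level of functions. -/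
structure IsMF (Γ : Subgroup SL(2, ℤ)) (k : ℤ) (f : ℍ → ℂ) : Prop where
  holo : MDiff f
  inv : ∀ γ ∈ Γ, f ∣[k] γ = f
  bdd : ∀ g : SL(2, ℤ), IsBoundedAtImInfty (f ∣[k] g)

/-- `f` is a cusp form of weight `k` for `Γ ≤ SL(2,ℤ)`, at the level of functions. -/
structure IsCF (Γ : Subgroup SL(2, ℤ)) (k : ℤ) (f : ℍ → ℂ) : Prop where
  holo : MDiff f
  inv : ∀ γ ∈ Γ, f ∣[k] γ = f
  zero : ∀ g : SL(2, ℤ), IsZeroAtImInfty (f ∣[k] g)

variable {Γ Γ' : Subgroup SL(2, ℤ)} {k l : ℤ} {f g : ℍ → ℂ}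

lemma IsCF.isMF (h : IsCF Γ k f) : IsMF Γ k f :=
  ⟨h.holo, h.inv, fun g => (h.zero g).boundedAtFilter⟩

lemma IsMF.mono (hΓ : Γ' ≤ Γ) (h : IsMF Γ k f) : IsMF Γ' k f :=
  ⟨h.holo, fun γ hγ => h.inv γ (hΓ hγ), h.bdd⟩

lemma IsCF.mono (hΓ : Γ' ≤ Γ) (h : IsCF Γ k f) : IsCF Γ' k f :=
  ⟨h.holo, fun γ hγ => h.inv γ (hΓ hγ), h.zero⟩

lemma IsMF.of_top (h : IsMF ⊤ k f) : IsMF Γ k f := h.mono le_top

lemma IsCF.of_top (h : IsCF ⊤ k f) : IsCF Γ k f := h.mono le_top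

lemma IsMF.congr_wt (hk : k = l) (h : IsMF Γ k f) : IsMF Γ l f := hk ▸ h

lemma IsCF.congr_wt (hk : k = l) (h : IsCF Γ k f) : IsCF Γ l f := hk ▸ h

lemma isMF_zero : IsMF Γ k 0 :=
  ⟨mdifferentiable_const, fun _ _ => SlashAction.zero_slash _ _, fun g => by
    rw [SlashAction.zero_slash]; exact zero_form_isBoundedAtImInfty⟩

lemma isCF_zero : IsCF Γ k 0 :=
  ⟨mdifferentiable_const, fun _ _ => SlashAction.zero_slash _ _, fun g => by
    rw [SlashAction.zero_slash]; exact zero_zeroAtFilter _⟩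

lemma IsMF.add (hf : IsMF Γ k f) (hg : IsMF Γ k g) : IsMF Γ k (f + g) :=
  ⟨hf.holo.add hg.holo, fun γ hγ => by rw [SlashAction.add_slash, hf.inv γ hγ, hg.inv γ hγ],
    fun a => by rw [SlashAction.add_slash]; exact (hf.bdd a).add (hg.bdd a)⟩

lemma IsCF.add (hf : IsCF Γ k f) (hg : IsCF Γ k g) : IsCF Γ k (f + g) :=
  ⟨hf.holo.add hg.holo, fun γ hγ => by rw [SlashAction.add_slash, hf.inv γ hγ, hg.inv γ hγ],
    fun a => by rw [SlashAction.add_slash]; exact (hf.zero a).add (hg.zero a)⟩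

lemma IsMF.smul (c : ℂ) (hf : IsMF Γ k f) : IsMF Γ k (c • f) :=
  ⟨hf.holo.const_smul c, fun γ hγ => by rw [SL_smul_slash, hf.inv γ hγ],
    fun a => by rw [SL_smul_slash]; exact (hf.bdd a).const_smul_left c⟩

lemma IsCF.smul (c : ℂ) (hf : IsCF Γ k f) : IsCF Γ k (c • f) :=
  ⟨hf.holo.const_smul c, fun γ hγ => by rw [SL_smul_slash, hf.inv γ hγ],
    fun a => by rw [SL_smul_slash]; exact (hf.zero a).smul c⟩

lemma IsMF.neg (hf : IsMF Γ k f) : IsMF Γ k (-f) := by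
  simpa using hf.smul (-1)

lemma IsCF.neg (hf : IsCF Γ k f) : IsCF Γ k (-f) := by
  simpa using hf.smul (-1)

lemma IsMF.sub (hf : IsMF Γ k f) (hg : IsMF Γ k g) : IsMF Γ k (f - g) := by
  simpa [sub_eq_add_neg] using hf.add hg.neg

lemma IsCF.sub (hf : IsCF Γ k f) (hg : IsCF Γ k g) : IsCF Γ k (f - g) := by
  simpa [sub_eq_add_neg] using hf.add hg.neg

lemma IsMF.mul (hf : IsMF Γ k f) (hg : IsMF Γ l g) : IsMF Γ (k + l) (f * g) :=
  ⟨hf.holo.mul hg.holo, fun γ hγ => by rw [mul_slash_SL2, hf.inv γ hγ, hg.inv γ hγ],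
    fun a => by rw [mul_slash_SL2]; exact (hf.bdd a).mul (hg.bdd a)⟩

lemma IsCF.mul_isMF (hf : IsCF Γ k f) (hg : IsMF Γ l g) : IsCF Γ (k + l) (f * g) :=
  ⟨hf.holo.mul hg.holo, fun γ hγ => by rw [mul_slash_SL2, hf.inv γ hγ, hg.inv γ hγ],
    fun a => by
      rw [mul_slash_SL2]
      exact (hf.zero a).zero_mul_isBoundedUnder_le (hg.bdd a).isBoundedUnder_le⟩

lemma IsMF.sum {ι : Type*} (s : Finset ι) {F : ι → ℍ → ℂ} (h : ∀ i ∈ s, IsMF Γ k (F i)) :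
    IsMF Γ k (∑ i ∈ s, F i) := by
  classical
  induction s using Finset.induction_on with
  | empty => simpa using isMF_zero
  | insert a s ha ih =>
    rw [Finset.sum_insert ha]
    exact (h a (Finset.mem_insert_self a s)).add
      (ih fun i hi => h i (Finset.mem_insert_of_mem hi))

lemma IsCF.sum {ι : Type*} (s : Finset ι) {F : ι → ℍ → ℂ} (h : ∀ i ∈ s, IsCF Γ k (F i)) :
    IsCF Γ k (∑ i ∈ s, F i) := by
  classical
  induction s using Finset.induction_on with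
  | empty => simpa using isCF_zero
  | insert a s ha ih =>
    rw [Finset.sum_insert ha]
    exact (h a (Finset.mem_insert_self a s)).add
      (ih fun i hi => h i (Finset.mem_insert_of_mem hi))

/-- The space of modular forms as a submodule of all functions. -/
def MF (Γ : Subgroup SL(2, ℤ)) (k : ℤ) : Submodule ℂ (ℍ → ℂ) where
  carrier := {f | IsMF Γ k f}
  add_mem' := IsMF.add
  zero_mem' := isMF_zero
  smul_mem' c _ h := h.smul c

/-- The space of cusp forms as a submodule of all functions. -/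
def CF (Γ : Subgroup SL(2, ℤ)) (k : ℤ) : Submodule ℂ (ℍ → ℂ) where
  carrier := {f | IsCF Γ k f}
  add_mem' := IsCF.add
  zero_mem' := isCF_zero
  smul_mem' c _ h := h.smul c

@[simp] lemma mem_MF : f ∈ MF Γ k ↔ IsMF Γ k f := Iff.rfl
@[simp] lemma mem_CF : f ∈ CF Γ k ↔ IsCF Γ k f := Iff.rfl

/-! ## Bridges to Mathlib's bundled forms -/

lemma isMF_coe [Γ.FiniteIndex] (F : ModularForm (Γ : Subgroup (GL (Fin 2) ℝ)) k) : IsMF Γ k F :=
  ⟨F.holo', fun γ hγ => by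
      rw [SL_slash]
      exact SlashInvariantFormClass.slash_action_eq F _ ⟨γ, hγ, rfl⟩,
    fun g => ModularFormClass.bdd_at_infty_slash F g⟩

lemma isCF_coe [Γ.FiniteIndex] (F : CuspForm (Γ : Subgroup (GL (Fin 2) ℝ)) k) : IsCF Γ k F :=
  ⟨F.holo', fun γ hγ => by
      rw [SL_slash]
      exact SlashInvariantFormClass.slash_action_eq F _ ⟨γ, hγ, rfl⟩,
    fun g => CuspFormClass.zero_at_infty_slash F g⟩

/-- Bundle a function-level modular form. -/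
def IsMF.toModularForm [Γ.FiniteIndex] (h : IsMF Γ k f) : ModularForm (Γ : Subgroup (GL (Fin 2) ℝ)) k where
  toFun := f
  slash_action_eq' := by
    rintro _ ⟨γ, hγ, rfl⟩
    exact h.inv γ hγ
  holo' := h.holo
  bdd_at_cusps' := fun {c} hc => by
    rw [Subgroup.IsArithmetic.isCusp_iff_isCusp_SL2Z] at hc
    rw [OnePoint.isBoundedAt_iff_forall_SL2Z hc]
    exact fun γ _ => h.bdd γ

def IsCF.toCuspForm [Γ.FiniteIndex] (h : IsCF Γ k f) : CuspForm (Γ : Subgroup (GL (Fin 2) ℝ)) k where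
  toFun := f
  slash_action_eq' := by
    rintro _ ⟨γ, hγ, rfl⟩
    exact h.inv γ hγ
  holo' := h.holo
  zero_at_cusps' := fun {c} hc => by
    rw [Subgroup.IsArithmetic.isCusp_iff_isCusp_SL2Z] at hc
    rw [OnePoint.isZeroAt_iff_forall_SL2Z hc]
    exact fun γ _ => h.zero γ

@[simp] lemma IsMF.coe_toModularForm [Γ.FiniteIndex] (h : IsMF Γ k f) : ⇑h.toModularForm = f := rfl
@[simp] lemma IsCF.coe_toCuspForm [Γ.FiniteIndex] (h : IsCF Γ k f) : ⇑h.toCuspForm = f := rfl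

/-- Linear equivalence between Mathlib's bundled modular forms and the function-level space. -/
noncomputable def mfEquiv (Γ : Subgroup SL(2, ℤ)) [Γ.FiniteIndex] (k : ℤ) :
    ModularForm (Γ : Subgroup (GL (Fin 2) ℝ)) k ≃ₗ[ℂ] MF Γ k where
  toFun F := ⟨F, isMF_coe F⟩
  map_add' _ _ := rfl
  map_smul' _ _ := rfl
  invFun f := IsMF.toModularForm f.2
  left_inv _ := rfl
  right_inv _ := rfl

noncomputable def cfEquiv (Γ : Subgroup SL(2, ℤ)) [Γ.FiniteIndex] (k : ℤ) :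
    CuspForm (Γ : Subgroup (GL (Fin 2) ℝ)) k ≃ₗ[ℂ] CF Γ k where
  toFun F := ⟨F, isCF_coe F⟩
  map_add' _ _ := rfl
  map_smul' _ _ := rfl
  invFun f := IsCF.toCuspForm f.2
  left_inv _ := rfl
  right_inv _ := rfl

/-- level one -/
lemma isMF_top_coe (F : ModularForm 𝒮ℒ k) : IsMF ⊤ k F :=
  ⟨F.holo', fun γ _ => by
      rw [SL_slash]
      exact SlashInvariantFormClass.slash_action_eq F _ ⟨γ, rfl⟩,
    fun g => ModularFormClass.bdd_at_infty_slash F g⟩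

lemma isCF_top_coe (F : CuspForm 𝒮ℒ k) : IsCF ⊤ k F :=
  ⟨F.holo', fun γ _ => by
      rw [SL_slash]
      exact SlashInvariantFormClass.slash_action_eq F _ ⟨γ, rfl⟩,
    fun g => CuspFormClass.zero_at_infty_slash F g⟩

def IsMF.toLevelOne (h : IsMF ⊤ k f) : ModularForm 𝒮ℒ k where
  toFun := f
  slash_action_eq' := by
    rintro _ ⟨γ, rfl⟩
    exact h.inv γ trivial
  holo' := h.holo
  bdd_at_cusps' := fun {c} hc => by
    rw [OnePoint.isBoundedAt_iff_forall_SL2Z hc]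
    exact fun γ _ => h.bdd γ

def IsCF.toLevelOne (h : IsCF ⊤ k f) : CuspForm 𝒮ℒ k where
  toFun := f
  slash_action_eq' := by
    rintro _ ⟨γ, rfl⟩
    exact h.inv γ trivial
  holo' := h.holo
  zero_at_cusps' := fun {c} hc => by
    rw [OnePoint.isZeroAt_iff_forall_SL2Z hc]
    exact fun γ _ => h.zero γ

@[simp] lemma IsMF.coe_toLevelOne (h : IsMF ⊤ k f) : ⇑h.toLevelOne = f := rfl
@[simp] lemma IsCF.coe_toLevelOne (h : IsCF ⊤ k f) : ⇑h.toLevelOne = f := rfl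

noncomputable def mfTopEquiv (k : ℤ) : ModularForm 𝒮ℒ k ≃ₗ[ℂ] MF ⊤ k where
  toFun F := ⟨F, isMF_top_coe F⟩
  map_add' _ _ := rfl
  map_smul' _ _ := rfl
  invFun f := IsMF.toLevelOne f.2
  left_inv _ := rfl
  right_inv _ := rfl

noncomputable def cfTopEquiv (k : ℤ) : CuspForm 𝒮ℒ k ≃ₗ[ℂ] CF ⊤ k where
  toFun F := ⟨F, isCF_top_coe F⟩
  map_add' _ _ := rfl
  map_smul' _ _ := rfl
  invFun f := IsCF.toLevelOne f.2
  left_inv _ := rfl
  right_inv _ := rfl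


/-! ## Level one forms `E₄`, `E₆`, `Δ` -/

open EisensteinSeries in
lemma isMF_E4 : IsMF ⊤ 4 (E₄ : ℍ → ℂ) := isMF_top_coe E₄
open EisensteinSeries in
lemma isMF_E6 : IsMF ⊤ 6 (E₆ : ℍ → ℂ) := isMF_top_coe E₆

lemma isCF_Delta : IsCF ⊤ 12 ModularForm.discriminant := isCF_top_coe CuspForm.discriminant

/-! ## Components along cosets -/

/-- The component of `f` at the coset `x = gΓ`, namely `f ∣[k] g⁻¹`. -/
noncomputable def comp (Γ : Subgroup SL(2, ℤ)) (k : ℤ) (f : ℍ → ℂ) (x : SL(2, ℤ) ⧸ Γ) : ℍ → ℂ :=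
  f ∣[k] (x.out)⁻¹

lemma comp_mk (hf : ∀ γ ∈ Γ, f ∣[k] γ = f) (g : SL(2, ℤ)) :
    comp Γ k f (g : SL(2, ℤ) ⧸ Γ) = f ∣[k] g⁻¹ := by
  unfold comp
  obtain ⟨γ, hγ⟩ := QuotientGroup.mk_out_eq_mul Γ g
  rw [hγ, mul_inv_rev, SlashAction.slash_mul, hf _ (Γ.inv_mem γ.2)]

lemma comp_slash (hf : ∀ γ ∈ Γ, f ∣[k] γ = f) (x : SL(2, ℤ) ⧸ Γ) (g : SL(2, ℤ)) :
    comp Γ k f x ∣[k] g = comp Γ k f (g⁻¹ • x) := by
  induction x using QuotientGroup.induction_on with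
  | H a =>
    rw [MulAction.Quotient.smul_mk, comp_mk hf, comp_mk hf, ← SlashAction.slash_mul]
    simp [mul_inv_rev]

lemma comp_one (hf : ∀ γ ∈ Γ, f ∣[k] γ = f) : comp Γ k f ((1 : SL(2, ℤ)) : SL(2, ℤ) ⧸ Γ) = f := by
  rw [comp_mk hf]; simp

lemma comp_add (f g : ℍ → ℂ) (x : SL(2, ℤ) ⧸ Γ) :
    comp Γ k (f + g) x = comp Γ k f x + comp Γ k g x := SlashAction.add_slash _ _ _ _

lemma comp_smul (c : ℂ) (f : ℍ → ℂ) (x : SL(2, ℤ) ⧸ Γ) :
    comp Γ k (c • f) x = c • comp Γ k f x := SL_smul_slash _ _ _ _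

lemma comp_mul (f g : ℍ → ℂ) (x : SL(2, ℤ) ⧸ Γ) :
    comp Γ (k + l) (f * g) x = comp Γ k f x * comp Γ l g x := mul_slash_SL2 _ _ _ _ _

/-- Components of a level one form are the form itself. -/
lemma comp_of_top (hf : IsMF ⊤ k f) (x : SL(2, ℤ) ⧸ Γ) : comp Γ k f x = f := hf.inv _ trivial

lemma IsMF.comp_holo (hf : IsMF Γ k f) (x : SL(2, ℤ) ⧸ Γ) : MDiff (comp Γ k f x) := by
  unfold comp; rw [SL_slash]; exact hf.holo.slash _ _

lemma IsMF.comp_bdd (hf : IsMF Γ k f) (x : SL(2, ℤ) ⧸ Γ) : IsBoundedAtImInfty (comp Γ k f x) :=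
  hf.bdd _

lemma IsCF.comp_zero (hf : IsCF Γ k f) (x : SL(2, ℤ) ⧸ Γ) : IsZeroAtImInfty (comp Γ k f x) :=
  hf.zero _

/-- value of a component at `g • z` -/
lemma comp_smul_apply (hf : ∀ γ ∈ Γ, f ∣[k] γ = f) (x : SL(2, ℤ) ⧸ Γ) (g : SL(2, ℤ)) (z : ℍ) :
    comp Γ k f x (g • z) = denom g z ^ k * comp Γ k f (g⁻¹ • x) z := by
  rw [← comp_slash hf, SL_slash_apply]
  have : denom g z ≠ 0 := denom_ne_zero g z
  rw [mul_comm, mul_assoc, ← zpow_add₀ this]; simp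


/-! ## Free bases and the fundamental matrix -/

section FreeBasis

variable (Γ : Subgroup SL(2, ℤ)) [Fintype (SL(2, ℤ) ⧸ Γ)] [DecidableEq (SL(2, ℤ) ⧸ Γ)]

/-- A homogeneous free basis of `⨁ₖ M_k(Γ)` over `⨁ₖ M_k(SL₂(ℤ))`, indexed by the cosets,
whose fundamental matrix has a determinant which is not identically zero. -/
structure FreeBasis where
  wt : SL(2, ℤ) ⧸ Γ → ℤ
  F : SL(2, ℤ) ⧸ Γ → ℍ → ℂ
  mem : ∀ j, IsMF Γ (wt j) (F j)
  span : ∀ (k : ℤ) (f : ℍ → ℂ), IsMF Γ k f →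
    ∃ a : SL(2, ℤ) ⧸ Γ → ℍ → ℂ, (∀ j, IsMF ⊤ (k - wt j) (a j)) ∧ f = ∑ j, a j * F j
  indep : ∀ (k : ℤ) (a : SL(2, ℤ) ⧸ Γ → ℍ → ℂ), (∀ j, IsMF ⊤ (k - wt j) (a j)) →
    ∑ j, a j * F j = 0 → ∀ j, a j = 0
  det_ne : ∃ z : ℍ, (Matrix.of fun x j => comp Γ (wt j) (F j) x z).det ≠ 0

variable {Γ}

/-- The fundamental matrix: rows = cosets `x`, columns = basis elements `j`,
entry `(F j ∣[wt j] x⁻¹) z`. -/
noncomputable def FreeBasis.mat (B : FreeBasis Γ) (z : ℍ) :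
    Matrix (SL(2, ℤ) ⧸ Γ) (SL(2, ℤ) ⧸ Γ) ℂ :=
  Matrix.of fun x j => comp Γ (B.wt j) (B.F j) x z

lemma FreeBasis.mat_apply (B : FreeBasis Γ) (z : ℍ) (x j : SL(2, ℤ) ⧸ Γ) :
    B.mat z x j = comp Γ (B.wt j) (B.F j) x z := rfl

end FreeBasis

/-! ## The spaces `A_S`, `A_U` of anti-invariant functions on cosets -/

/-- `U = S * T`, of order 6, fixing `ρ = e^{2πi/3}`. -/
def Umat : SL(2, ℤ) := ModularGroup.S * ModularGroup.T

/-- functions `u` on cosets with `u(Sx) + u(x) = 0`. -/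
def AS (Γ : Subgroup SL(2, ℤ)) : Submodule ℂ ((SL(2, ℤ) ⧸ Γ) → ℂ) where
  carrier := {u | ∀ x, u (ModularGroup.S • x) + u x = 0}
  add_mem' := by
    intro a b ha hb x
    have := ha x; have := hb x
    simp only [Pi.add_apply]; linear_combination ha x + hb x
  zero_mem' := by intro x; simp
  smul_mem' := by
    intro c a ha x
    simp only [Pi.smul_apply, smul_eq_mul]; linear_combination c * ha x

/-- functions `u` on cosets with `u(U²x) + u(Ux) + u(x) = 0`. -/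
def AU (Γ : Subgroup SL(2, ℤ)) : Submodule ℂ ((SL(2, ℤ) ⧸ Γ) → ℂ) where
  carrier := {u | ∀ x, u (Umat • Umat • x) + u (Umat • x) + u x = 0}
  add_mem' := by
    intro a b ha hb x
    simp only [Pi.add_apply]; linear_combination ha x + hb x
  zero_mem' := by intro x; simp
  smul_mem' := by
    intro c a ha x
    simp only [Pi.smul_apply, smul_eq_mul]; linear_combination c * ha x

/-! ## Primitives -/

/-- `F` is a holomorphic primitive of `f` on the upper half plane. -/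
def IsPrim (f F : ℍ → ℂ) : Prop := ∀ τ : ℍ, HasDerivAt (F ∘ ofComplex) (f τ) ↑τ

end Fermat.Agent.S21
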