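import Fermat.Agent.S21.Defs

set_option autoImplicit false

/-!
# S21, Part F : group theory (Shapiro-type bound)
-/

namespace Fermat.Agent.S21

open scoped MatrixGroups

namespace PartF

variable (Γ : Subgroup SL(2, ℤ))

/-- the `Γ`-valued cocycle attached to the section `x ↦ x.out`. -/
noncomputable def gam (g : SL(2, ℤ)) (x : SL(2, ℤ) ⧸ Γ) : Γ :=
  ⟨(g • x).out⁻¹ * (g * x.out), by
    rw [← QuotientGroup.eq, QuotientGroup.out_eq']
    conv_lhs => rw [← QuotientGroup.out_eq' x]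
    rfl⟩

lemma gam_mul (g h : SL(2, ℤ)) (x : SL(2, ℤ) ⧸ Γ) :
    gam Γ (g * h) x = gam Γ g (h • x) * gam Γ h x := by
  apply Subtype.ext
  simp only [gam, mul_smul, Subgroup.coe_mul]
  group

variable {Γ}

/-- the twisted cocycle `d(g)(x) = φ(γ(g,x)) + w(gx) - w(x)`. -/
noncomputable def dd (φ : Additive Γ →+ ℂ) (w : (SL(2, ℤ) ⧸ Γ) → ℂ) (g : SL(2, ℤ))
    (x : SL(2, ℤ) ⧸ Γ) : ℂ :=
  φ (Additive.ofMul (gam Γ g x)) + w (g • x) - w x

lemma dd_mul (φ : Additive Γ →+ ℂ) (w : (SL(2, ℤ) ⧸ Γ) → ℂ) (g h : SL(2, ℤ))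
    (x : SL(2, ℤ) ⧸ Γ) : dd φ w (g * h) x = dd φ w g (h • x) + dd φ w h x := by
  simp only [dd, gam_mul, ofMul_mul, map_add, mul_smul]
  ring

lemma dd_one (φ : Additive Γ →+ ℂ) (w : (SL(2, ℤ) ⧸ Γ) → ℂ) (x : SL(2, ℤ) ⧸ Γ) :
    dd φ w 1 x = 0 := by
  have h := dd_mul φ w 1 1 x
  rw [one_mul, one_smul] at h
  linear_combination -h

/-- the subgroup on which the cocycle vanishes. -/
noncomputable def vanish (φ : Additive Γ →+ ℂ) (w : (SL(2, ℤ) ⧸ Γ) → ℂ) : Subgroup SL(2, ℤ) where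
  carrier := {g | ∀ x, dd φ w g x = 0}
  mul_mem' := by
    intro a b ha hb x
    rw [dd_mul, ha, hb, add_zero]
  one_mem' := dd_one φ w
  inv_mem' := by
    intro a ha x
    have h := dd_mul φ w a⁻¹ a (a⁻¹ • x)
    rw [inv_mul_cancel, dd_one, smul_inv_smul, ha, add_zero] at h
    exact h.symm

lemma dd_eq_zero_of_S_T (φ : Additive Γ →+ ℂ) (w : (SL(2, ℤ) ⧸ Γ) → ℂ)
    (hS : ∀ x, dd φ w ModularGroup.S x = 0) (hT : ∀ x, dd φ w ModularGroup.T x = 0)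
    (g : SL(2, ℤ)) (x : SL(2, ℤ) ⧸ Γ) : dd φ w g x = 0 := by
  have hle : Subgroup.closure {ModularGroup.S, ModularGroup.T} ≤ vanish φ w := by
    rw [Subgroup.closure_le]
    rintro a (rfl | rfl)
    · exact hS
    · exact hT
  rw [SpecialLinearGroup.SL2Z_generators] at hle
  exact hle (Subgroup.mem_top g) x

lemma dd_eq_zero_of_S_U (φ : Additive Γ →+ ℂ) (w : (SL(2, ℤ) ⧸ Γ) → ℂ)
    (hS : ∀ x, dd φ w ModularGroup.S x = 0) (hU : ∀ x, dd φ w Umat x = 0)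
    (g : SL(2, ℤ)) (x : SL(2, ℤ) ⧸ Γ) : dd φ w g x = 0 := by
  refine dd_eq_zero_of_S_T φ w hS ?_ g x
  have hT : ModularGroup.T = ModularGroup.S⁻¹ * Umat := by simp [Umat]
  have hmem : ModularGroup.S⁻¹ * Umat ∈ vanish φ w :=
    (vanish φ w).mul_mem ((vanish φ w).inv_mem hS) hU
  rw [hT]
  exact hmem

/-- if the cocycle vanishes identically, then `φ = 0` and `w` is constant. -/
lemma eq_zero_of_dd_eq_zero (φ : Additive Γ →+ ℂ) (w : (SL(2, ℤ) ⧸ Γ) → ℂ)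
    (h : ∀ g x, dd φ w g x = 0) :
    φ = 0 ∧ ∀ x, w x = w ((1 : SL(2, ℤ)) : SL(2, ℤ) ⧸ Γ) := by
  set x₀ : SL(2, ℤ) ⧸ Γ := ((1 : SL(2, ℤ)) : SL(2, ℤ) ⧸ Γ) with hx₀
  have hφ : φ = 0 := by
    refine AddMonoidHom.ext fun γ' => ?_
    obtain ⟨γ, rfl⟩ := Additive.ofMul.surjective γ'
    set g : SL(2, ℤ) := x₀.out * γ * x₀.out⁻¹ with hg
    have hgx : g • x₀ = x₀ := by
      conv_lhs => rw [← QuotientGroup.out_eq' x₀]
      rw [MulAction.Quotient.smul_mk, hg]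
      have : x₀.out * (γ : SL(2, ℤ)) * x₀.out⁻¹ * x₀.out = x₀.out * γ := by group
      rw [smul_eq_mul, this]
      conv_rhs => rw [← QuotientGroup.out_eq' x₀]
      rw [QuotientGroup.eq]
      simp
    have hgam : gam Γ g x₀ = γ := by
      apply Subtype.ext
      show (g • x₀).out⁻¹ * (g * x₀.out) = γ
      rw [hgx, hg]
      group
    have := h g x₀
    rw [dd, hgam, hgx] at this
    simpa using this
  refine ⟨hφ, fun x => ?_⟩
  induction x using QuotientGroup.induction_on with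
  | H a =>
    have := h a x₀
    rw [dd, hφ] at this
    have hax : a • x₀ = (a : SL(2, ℤ) ⧸ Γ) := by
      rw [hx₀, MulAction.Quotient.smul_mk, smul_eq_mul, mul_one]
    rw [hax] at this
    simp only [AddMonoidHom.zero_apply, zero_add] at this
    linear_combination this

lemma dd_add (φ φ' : Additive Γ →+ ℂ) (w w' : (SL(2, ℤ) ⧸ Γ) → ℂ) (g : SL(2, ℤ)) :
    dd (φ + φ') (w + w') g = dd φ w g + dd φ' w' g := by
  funext x
  simp only [dd, AddMonoidHom.add_apply, Pi.add_apply]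
  ring

lemma dd_smul (c : ℂ) (φ : Additive Γ →+ ℂ) (w : (SL(2, ℤ) ⧸ Γ) → ℂ) (g : SL(2, ℤ)) :
    dd (c • φ) (c • w) g = c • dd φ w g := by
  funext x
  simp only [dd, AddMonoidHom.smul_apply, Pi.smul_apply, smul_eq_mul]
  ring

/-- `dd` as a linear map in `(φ, w)`. -/
noncomputable def ddLin (Γ : Subgroup SL(2, ℤ)) (g : SL(2, ℤ)) :
    ((Additive Γ →+ ℂ) × ((SL(2, ℤ) ⧸ Γ) → ℂ)) →ₗ[ℂ] ((SL(2, ℤ) ⧸ Γ) → ℂ) where
  toFun p := dd p.1 p.2 g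
  map_add' p q := dd_add p.1 q.1 p.2 q.2 g
  map_smul' c p := dd_smul c p.1 p.2 g

lemma neg_one_inv : (-1 : SL(2, ℤ))⁻¹ = -1 := by
  rw [inv_eq_iff_mul_eq_one]; simp

lemma neg_one_smul_coset (hneg : -1 ∈ Γ) (x : SL(2, ℤ) ⧸ Γ) : (-1 : SL(2, ℤ)) • x = x := by
  induction x using QuotientGroup.induction_on with
  | H a =>
    rw [MulAction.Quotient.smul_mk, smul_eq_mul, QuotientGroup.eq]
    have : (-1 * a)⁻¹ * a = -1 := by
      rw [mul_inv_rev, neg_one_inv]; simp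
    rw [this]; exact hneg

lemma dd_neg_one (hneg : -1 ∈ Γ) (φ : Additive Γ →+ ℂ) (w : (SL(2, ℤ) ⧸ Γ) → ℂ)
    (x : SL(2, ℤ) ⧸ Γ) : dd φ w (-1) x = 0 := by
  have hgam : gam Γ (-1) x = ⟨-1, hneg⟩ := by
    apply Subtype.ext
    show ((-1 : SL(2, ℤ)) • x).out⁻¹ * (-1 * x.out) = -1
    rw [neg_one_smul_coset hneg]
    simp
  have hφ : φ (Additive.ofMul (⟨-1, hneg⟩ : Γ)) = 0 := by
    have h2 : φ (Additive.ofMul ((⟨-1, hneg⟩ : Γ) * ⟨-1, hneg⟩)) = 0 := by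
      have : ((⟨-1, hneg⟩ : Γ) * ⟨-1, hneg⟩) = 1 := by
        apply Subtype.ext
        simp
      rw [this]
      exact map_zero φ
    rw [ofMul_mul, map_add] at h2
    linear_combination h2 / 2
  rw [dd, hgam, hφ, neg_one_smul_coset hneg]
  ring

lemma dd_S_mem_AS (hneg : -1 ∈ Γ) (φ : Additive Γ →+ ℂ) (w : (SL(2, ℤ) ⧸ Γ) → ℂ) :
    dd φ w ModularGroup.S ∈ AS Γ := by
  intro x
  have h := dd_mul φ w ModularGroup.S ModularGroup.S x
  have hSS : ModularGroup.S * ModularGroup.S = -1 := by decide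
  rw [hSS, dd_neg_one hneg] at h
  exact h.symm

lemma dd_U_mem_AU (hneg : -1 ∈ Γ) (φ : Additive Γ →+ ℂ) (w : (SL(2, ℤ) ⧸ Γ) → ℂ) :
    dd φ w Umat ∈ AU Γ := by
  intro x
  have h := dd_mul φ w Umat (Umat * Umat) x
  have h' := dd_mul φ w Umat Umat x
  have hU : Umat * (Umat * Umat) = -1 := by decide
  rw [hU, dd_neg_one hneg, h', mul_smul] at h
  linear_combination -h

/-- the comparison map `(φ, w) ↦ (d(S), d(U))`. -/
noncomputable def Psi (hneg : -1 ∈ Γ) :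
    ((Additive Γ →+ ℂ) × ((SL(2, ℤ) ⧸ Γ) → ℂ)) →ₗ[ℂ] (AS Γ × AU Γ) :=
  LinearMap.prod
    ((ddLin Γ ModularGroup.S).codRestrict (AS Γ) fun p => dd_S_mem_AS hneg p.1 p.2)
    ((ddLin Γ Umat).codRestrict (AU Γ) fun p => dd_U_mem_AU hneg p.1 p.2)

lemma mem_ker_Psi (hneg : -1 ∈ Γ) (p : (Additive Γ →+ ℂ) × ((SL(2, ℤ) ⧸ Γ) → ℂ))
    (hp : p ∈ LinearMap.ker (Psi hneg)) :
    p.1 = 0 ∧ ∀ x, p.2 x = p.2 ((1 : SL(2, ℤ)) : SL(2, ℤ) ⧸ Γ) := by
  rw [LinearMap.mem_ker] at hp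
  have h1 : dd p.1 p.2 ModularGroup.S = 0 := congrArg (fun q => (q.1 : (SL(2, ℤ) ⧸ Γ) → ℂ)) hp
  have h2 : dd p.1 p.2 Umat = 0 := congrArg (fun q => (q.2 : (SL(2, ℤ) ⧸ Γ) → ℂ)) hp
  exact eq_zero_of_dd_eq_zero p.1 p.2
    (dd_eq_zero_of_S_U p.1 p.2 (fun x => congrFun h1 x) (fun x => congrFun h2 x))

lemma finrank_ker_Psi_le (hneg : -1 ∈ Γ) : Module.finrank ℂ (LinearMap.ker (Psi hneg)) ≤ 1 := by
  let ev : LinearMap.ker (Psi hneg) →ₗ[ℂ] ℂ :=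
    ((LinearMap.proj ((1 : SL(2, ℤ)) : SL(2, ℤ) ⧸ Γ)).comp (LinearMap.snd ℂ _ _)).comp
      (LinearMap.ker (Psi hneg)).subtype
  have hinj : Function.Injective ev := by
    rw [← LinearMap.ker_eq_bot, LinearMap.ker_eq_bot']
    intro p hp
    obtain ⟨h1, h2⟩ := mem_ker_Psi hneg p.1 p.2
    apply Subtype.ext
    refine Prod.ext h1 (funext fun x => ?_)
    rw [h2 x]
    exact hp
  have := LinearMap.finrank_le_finrank_of_injective hinj
  simpa using this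

/-- the map `φ ↦ (c_φ(S), c_φ(T))`. -/
noncomputable def emb (Γ : Subgroup SL(2, ℤ)) :
    (Additive Γ →+ ℂ) →ₗ[ℂ] (((SL(2, ℤ) ⧸ Γ) → ℂ) × ((SL(2, ℤ) ⧸ Γ) → ℂ)) :=
  (LinearMap.prod (ddLin Γ ModularGroup.S) (ddLin Γ ModularGroup.T)).comp (LinearMap.inl ℂ _ _)

lemma emb_injective (Γ : Subgroup SL(2, ℤ)) : Function.Injective (emb Γ) := by
  rw [← LinearMap.ker_eq_bot, LinearMap.ker_eq_bot']
  intro φ hφ
  have h1 : dd φ 0 ModularGroup.S = 0 := congrArg Prod.fst hφ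
  have h2 : dd φ 0 ModularGroup.T = 0 := congrArg Prod.snd hφ
  exact (eq_zero_of_dd_eq_zero φ 0
    (dd_eq_zero_of_S_T φ 0 (fun x => congrFun h1 x) (fun x => congrFun h2 x))).1

end PartF

theorem finiteDimensional_hom (Γ : Subgroup SL(2, ℤ)) [Γ.FiniteIndex] :
    FiniteDimensional ℂ (Additive Γ →+ ℂ) :=
  FiniteDimensional.of_injective (PartF.emb Γ) (PartF.emb_injective Γ)

section

variable {Γ : Subgroup SL(2, ℤ)} [Γ.FiniteIndex] [Fintype (SL(2, ℤ) ⧸ Γ)]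
  [DecidableEq (SL(2, ℤ) ⧸ Γ)]

theorem finrank_hom_add_card_le (hneg : -1 ∈ Γ) :
    Module.finrank ℂ (Additive Γ →+ ℂ) + Fintype.card (SL(2, ℤ) ⧸ Γ)
      ≤ Module.finrank ℂ (AS Γ) + Module.finrank ℂ (AU Γ) + 1 := by
  have := finiteDimensional_hom Γ
  have h1 := LinearMap.finrank_range_add_finrank_ker (PartF.Psi hneg)
  have h2 : Module.finrank ℂ (LinearMap.range (PartF.Psi hneg)) ≤
      Module.finrank ℂ (AS Γ × AU Γ) := Submodule.finrank_le _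
  have h3 := PartF.finrank_ker_Psi_le hneg
  rw [Module.finrank_prod, Module.finrank_fintype_fun_eq_card] at h1
  rw [Module.finrank_prod] at h2
  omega

end

end Fermat.Agent.S21
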