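import Fermat.Agent.S21.Defs

set_option autoImplicit false

/-!
# S21, Part G2: primitives of periodic holomorphic functions bounded at `i∞`
-/

namespace Fermat.Agent.S21

open UpperHalfPlane hiding I
open ModularForm Filter Function Complex
open scoped MatrixGroups Manifold Topology Real

namespace PartG2

lemma periodic_comp_ofComplex {f : ℍ → ℂ} {h : ℝ} (hper : ∀ z : ℍ, f (h +ᵥ z) = f z) :
    Periodic (f ∘ ofComplex) h := by
  intro w
  by_cases! hw : 0 < im w
  · have : 0 < im (w + h) := by simp [hw]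
    simp only [comp_apply, ofComplex_apply_of_im_pos this, ofComplex_apply_of_im_pos hw]
    rw [← hper ⟨w, hw⟩]
    congr 1
    ext
    simp [add_comm]
  · have : im (w + h) ≤ 0 := by simpa using hw
    simp [ofComplex_apply_of_im_nonpos this, ofComplex_apply_of_im_nonpos hw]

lemma hasDerivAt_qParam (h : ℝ) (w : ℂ) :
    HasDerivAt (Periodic.qParam h) (2 * π * I / h * Periodic.qParam h w) w := by
  unfold Periodic.qParam
  have h1 : HasDerivAt (fun z : ℂ => 2 * π * I * z / h) (2 * π * I / h) w := by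
    have := ((hasDerivAt_id w).const_mul (2 * π * I)).div_const (h : ℂ)
    simpa using this
  have := h1.cexp
  rwa [mul_comm (cexp _)] at this

lemma qParam_vadd {h : ℕ} (hh : 0 < h) (z : ℍ) :
    Periodic.qParam (h : ℝ) (((h : ℝ) +ᵥ z : ℍ) : ℂ) = Periodic.qParam (h : ℝ) (z : ℂ) := by
  have hh' : (h : ℂ) ≠ 0 := by exact_mod_cast hh.ne'
  unfold Periodic.qParam
  rw [coe_vadd]
  have : 2 * (π : ℂ) * I * (((h : ℝ) : ℂ) + (z : ℂ)) / ((h : ℝ) : ℂ)
      = 2 * π * I * z / ((h : ℝ) : ℂ) + 2 * π * I := by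
    push_cast
    field_simp
    ring
  rw [this, Complex.exp_add, Complex.exp_two_pi_mul_I, mul_one]

end PartG2

/-- G2: a periodic holomorphic function bounded at `i∞` has a limit `a₀` there and
`f - a₀` has a primitive tending to `0` at `i∞`. -/
theorem exists_isPrim_tendsto {f : ℍ → ℂ} (hf : MDiff f) {h : ℕ} (hh : 0 < h)
    (hper : ∀ z : ℍ, f ((h : ℝ) +ᵥ z) = f z) (hb : IsBoundedAtImInfty f) :
    ∃ (a₀ : ℂ) (F : ℍ → ℂ), Tendsto f atImInfty (𝓝 a₀) ∧
      IsPrim f (fun z => a₀ * (z : ℂ) + F z) ∧ Tendsto F atImInfty (𝓝 0) ∧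
      ∀ z : ℍ, F ((h : ℝ) +ᵥ z) = F z := by
  have hh' : (0 : ℝ) < h := by exact_mod_cast hh
  have hhC : (h : ℂ) ≠ 0 := by exact_mod_cast hh.ne'
  have hP := PartG2.periodic_comp_ofComplex hper
  set c := cuspFunction (h : ℝ) f with hc
  have hcd : DifferentiableOn ℂ c (Metric.ball 0 1) :=
    differentiableOn_cuspFunction_ball hh' hP hf hb
  have hd : DifferentiableOn ℂ (dslope c 0) (Metric.ball 0 1) :=
    (Complex.differentiableOn_dslope (Metric.ball_mem_nhds 0 one_pos)).mpr hcd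
  obtain ⟨G, hG0, hG⟩ := hd.isExactOn_ball.with_val_at 0 0
  have hq0 : Tendsto (fun τ : ℍ ↦ Periodic.qParam (h : ℝ) τ) atImInfty (𝓝 0) :=
    qParam_tendsto_atImInfty hh'
  refine ⟨c 0, fun z => (h / (2 * π * I)) * G (Periodic.qParam (h : ℝ) z), ?_, ?_, ?_, ?_⟩
  · have hcont : ContinuousAt c 0 :=
      (hcd.differentiableAt (Metric.ball_mem_nhds 0 one_pos)).continuousAt
    have : (c ∘ fun τ : ℍ ↦ Periodic.qParam (h : ℝ) τ) = f := by
      funext τ
      simpa using eq_cuspFunction τ hh'.ne' hP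
    simpa [this] using hcont.tendsto.comp hq0
  · intro τ
    have hq1 : Periodic.qParam (h : ℝ) (τ : ℂ) ∈ Metric.ball (0 : ℂ) 1 := by
      rw [mem_ball_zero_iff]
      exact Periodic.norm_qParam_lt_one hh' τ.2
    have h1 : HasDerivAt (fun w : ℂ => G (Periodic.qParam (h : ℝ) w))
        (dslope c 0 (Periodic.qParam (h : ℝ) τ) *
          (2 * π * I / (h : ℝ) * Periodic.qParam (h : ℝ) τ)) (τ : ℂ) :=
      (hG _ hq1).comp (τ : ℂ) (PartG2.hasDerivAt_qParam (h : ℝ) τ)
    have h2 : HasDerivAt (fun w : ℂ => c 0 * w + (h / (2 * π * I)) * G (Periodic.qParam (h : ℝ) w))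
        (c 0 * 1 + (h / (2 * π * I)) * (dslope c 0 (Periodic.qParam (h : ℝ) τ) *
          (2 * π * I / (h : ℝ) * Periodic.qParam (h : ℝ) τ))) (τ : ℂ) :=
      ((hasDerivAt_id (τ : ℂ)).const_mul (c 0)).add (h1.const_mul _)
    have hval : c 0 * 1 + (h / (2 * π * I)) * (dslope c 0 (Periodic.qParam (h : ℝ) τ) *
          (2 * π * I / (h : ℝ) * Periodic.qParam (h : ℝ) τ)) = f τ := by
      have h3 := sub_smul_dslope c 0 (Periodic.qParam (h : ℝ) τ)
      rw [sub_zero, smul_eq_mul] at h3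
      have h4 : c (Periodic.qParam (h : ℝ) τ) = f τ := eq_cuspFunction τ hh'.ne' hP
      rw [h4] at h3
      have hpi : (2 * π * I : ℂ) ≠ 0 := Complex.two_pi_I_ne_zero
      push_cast
      field_simp
      linear_combination h3
    rw [hval] at h2
    refine h2.congr_of_eventuallyEq ?_
    filter_upwards [isOpen_upperHalfPlaneSet.mem_nhds τ.2] with w hw
    simp only [comp_apply, ofComplex_apply_of_im_pos hw]
  · have hcont : ContinuousAt G 0 := (hG 0 (Metric.mem_ball_self one_pos)).continuousAt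
    have := (hcont.tendsto.comp hq0).const_mul ((h : ℂ) / (2 * π * I))
    rw [hG0, mul_zero] at this
    exact this
  · intro z
    simp only [PartG2.qParam_vadd hh z]

end Fermat.Agent.S21
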