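import Fermat.Agent.S21.Defs
import Fermat.Agent.S21.PartA0
import Fermat.Agent.S21.PartA2

set_option autoImplicit false

/-!
# S21, Part A3: homogeneous generators of `⨁ M_k(Γ)` which are independent over level one forms

Abstract graded-algebra statement first, then the specialisation to modular forms.
-/

namespace Fermat.Agent.S21.PartA3

open Module

section Abstract

variable {K : Type} [Field K] {𝔸 : Type} [CommRing 𝔸] [Algebra K 𝔸]

/-- The abstract hypotheses: `M` is a "graded module" over the "graded ring" `R`, inside a common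
commutative `K`-algebra, `R₊ = (x, y)` and `x, y` is an `M`-regular sequence. -/
structure Hyp (M R : ℤ → Submodule K 𝔸) (x y : 𝔸) : Prop where
  mulRM : ∀ (k l : ℤ) (a f : 𝔸), a ∈ R k → f ∈ M l → a * f ∈ M (k + l)
  mulRR : ∀ (k l : ℤ) (a b : 𝔸), a ∈ R k → b ∈ R l → a * b ∈ R (k + l)
  x_mem : x ∈ R 4
  y_mem : y ∈ R 6
  one_mem : (1 : 𝔸) ∈ R 0
  M_neg : ∀ k : ℤ, k < 0 → ∀ f ∈ M k, f = 0
  R_neg : ∀ k : ℤ, k < 0 → ∀ f ∈ R k, f = 0
  R_zero : ∀ f ∈ R 0, ∃ c : K, f = c • (1 : 𝔸)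
  R_pos : ∀ k : ℤ, 0 < k → ∀ a ∈ R k, ∃ b ∈ R (k - 4), ∃ c ∈ R (k - 6), a = x * b + y * c
  reg : ∀ k : ℤ, ∀ F ∈ M (k - 6), ∀ G ∈ M (k - 4), y * F = x * G → ∃ H ∈ M (k - 10), F = x * H
  x_inj : ∀ k : ℤ, ∀ f ∈ M k, x * f = 0 → f = 0

variable (M R : ℤ → Submodule K 𝔸) (x y : 𝔸)

/-- the decomposable part `x M_{k-4} + y M_{k-6}` of `M_k` -/
def dec (k : ℤ) : Submodule K 𝔸 :=
  (M (k - 4)).map (LinearMap.mulLeft K x) ⊔ (M (k - 6)).map (LinearMap.mulLeft K y)

/-- a complement of `dec k` in the ambient algebra -/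
noncomputable def bigCpl (k : ℤ) : Submodule K 𝔸 :=
  Classical.choose (Submodule.exists_isCompl (dec M x y k))

lemma isCompl_bigCpl (k : ℤ) : IsCompl (dec M x y k) (bigCpl M x y k) :=
  Classical.choose_spec (Submodule.exists_isCompl (dec M x y k))

/-- a complement of `dec k` in `M k` -/
noncomputable def cpl (k : ℤ) : Submodule K 𝔸 := bigCpl M x y k ⊓ M k

/-- index set of the generators of weight `k` -/
abbrev Idx (k : ℤ) : Type := ↥(Basis.ofVectorSpaceIndex K (cpl M x y k))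

/-- index set of all generators -/
abbrev JJ : Type := Σ k : ℤ, Idx M x y k

/-- the generators -/
noncomputable def gen (j : JJ M x y) : 𝔸 :=
  ((Basis.ofVectorSpace K (cpl M x y j.1) j.2 : cpl M x y j.1) : 𝔸)

variable {M R x y}

lemma mem_dec {k : ℤ} {f : 𝔸} :
    f ∈ dec M x y k ↔ ∃ f₁ ∈ M (k - 4), ∃ f₂ ∈ M (k - 6), f = x * f₁ + y * f₂ := by
  unfold dec
  rw [Submodule.mem_sup]
  constructor
  · rintro ⟨_, ⟨f₁, h₁, rfl⟩, _, ⟨f₂, h₂, rfl⟩, rfl⟩
    exact ⟨f₁, h₁, f₂, h₂, rfl⟩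
  · rintro ⟨f₁, h₁, f₂, h₂, rfl⟩
    exact ⟨_, ⟨f₁, h₁, rfl⟩, _, ⟨f₂, h₂, rfl⟩, rfl⟩

lemma mem_congr {P : ℤ → Submodule K 𝔸} {k l : ℤ} (h : k = l) {f : 𝔸} (hf : f ∈ P k) : f ∈ P l :=
  h ▸ hf

lemma dec_le (H : Hyp M R x y) (k : ℤ) : dec M x y k ≤ M k := by
  intro f hf
  obtain ⟨f₁, h₁, f₂, h₂, rfl⟩ := mem_dec.1 hf
  exact (M k).add_mem (mem_congr (by ring) (H.mulRM 4 (k - 4) x f₁ H.x_mem h₁))
    (mem_congr (by ring) (H.mulRM 6 (k - 6) y f₂ H.y_mem h₂))

lemma gen_mem_cpl (j : JJ M x y) : gen M x y j ∈ cpl M x y j.1 := Subtype.property _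

lemma gen_mem (j : JJ M x y) : gen M x y j ∈ M j.1 := (gen_mem_cpl j).2

/-- every element of `M k` is the sum of an element of `cpl k` and one of `dec k`. -/
lemma exists_decomp (H : Hyp M R x y) {k : ℤ} {f : 𝔸} (hf : f ∈ M k) :
    ∃ c ∈ cpl M x y k, ∃ d ∈ dec M x y k, f = c + d := by
  have htop : f ∈ dec M x y k ⊔ bigCpl M x y k := by
    rw [(isCompl_bigCpl M x y k).sup_eq_top]; trivial
  obtain ⟨d, hd, c, hc, rfl⟩ := Submodule.mem_sup.1 htop
  refine ⟨c, ⟨hc, ?_⟩, d, hd, add_comm _ _⟩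
  have := (M k).sub_mem hf (dec_le H k hd)
  simpa using this

/-- coordinate functionals, vanishing on the decomposable part -/
lemma exists_coord (k : ℤ) (i₀ : Idx M x y k) :
    ∃ lam : 𝔸 →ₗ[K] K, (∀ v ∈ dec M x y k, lam v = 0) ∧ lam (gen M x y ⟨k, i₀⟩) = 1 ∧
      ∀ i : Idx M x y k, i ≠ i₀ → lam (gen M x y ⟨k, i⟩) = 0 := by
  classical
  obtain ⟨g, hg⟩ := LinearMap.exists_extend ((Basis.ofVectorSpace K (cpl M x y k)).coord i₀)
  have hc := (isCompl_bigCpl M x y k).symm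
  have main : ∀ i : Idx M x y k, (g ∘ₗ (bigCpl M x y k).subtype ∘ₗ
      (bigCpl M x y k).projectionOnto (dec M x y k) hc) (gen M x y ⟨k, i⟩)
        = if i = i₀ then 1 else 0 := by
    intro i
    have hmem : gen M x y ⟨k, i⟩ ∈ bigCpl M x y k := (gen_mem_cpl (⟨k, i⟩ : JJ M x y)).1
    have h1 : (bigCpl M x y k).projectionOnto (dec M x y k) hc (gen M x y ⟨k, i⟩)
        = ⟨gen M x y ⟨k, i⟩, hmem⟩ :=
      Submodule.projectionOnto_apply_left hc ⟨gen M x y ⟨k, i⟩, hmem⟩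
    have h2 : g (gen M x y ⟨k, i⟩) = (Basis.ofVectorSpace K (cpl M x y k)).coord i₀
        (Basis.ofVectorSpace K (cpl M x y k) i) := by
      rw [← hg]; rfl
    simp only [LinearMap.comp_apply, h1, Submodule.subtype_apply, h2, Basis.coord_apply,
      Basis.repr_self, Finsupp.single_apply]
  refine ⟨g ∘ₗ (bigCpl M x y k).subtype ∘ₗ
    (bigCpl M x y k).projectionOnto (dec M x y k) hc, ?_, ?_, ?_⟩
  · intro v hv
    have : (bigCpl M x y k).projectionOnto (dec M x y k) hc v = 0 :=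
      (Submodule.projectionOnto_apply_eq_zero_iff hc).2 hv
    simp [this]
  · rw [main, if_pos rfl]
  · intro i hi
    rw [main, if_neg hi]

/-- the `𝔸`-linear combination map -/
noncomputable abbrev Phi (M : ℤ → Submodule K 𝔸) (x y : 𝔸) : (JJ M x y →₀ 𝔸) →ₗ[𝔸] 𝔸 :=
  Finsupp.linearCombination 𝔸 (gen M x y)

/-- homogeneous coefficient vectors of weight `k` -/
def IsHom (R : ℤ → Submodule K 𝔸) (k : ℤ) (a : JJ M x y →₀ 𝔸) : Prop :=
  ∀ j, a j ∈ R (k - j.1)

lemma IsHom.add {k : ℤ} {a b : JJ M x y →₀ 𝔸} (ha : IsHom R k a) (hb : IsHom R k b) :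
    IsHom R k (a + b) := fun j => by
  rw [Finsupp.add_apply]; exact (R _).add_mem (ha j) (hb j)

lemma IsHom.sub {k : ℤ} {a b : JJ M x y →₀ 𝔸} (ha : IsHom R k a) (hb : IsHom R k b) :
    IsHom R k (a - b) := fun j => by
  rw [Finsupp.sub_apply]; exact (R _).sub_mem (ha j) (hb j)

lemma isHom_zero {k : ℤ} : IsHom R k (0 : JJ M x y →₀ 𝔸) := fun j => by
  rw [Finsupp.zero_apply]; exact (R _).zero_mem

lemma IsHom.ksmul {k : ℤ} {a : JJ M x y →₀ 𝔸} (c : K) (ha : IsHom R k a) :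
    IsHom R k (c • a) := fun j => by
  rw [Finsupp.smul_apply]; exact (R _).smul_mem c (ha j)

lemma IsHom.smul (H : Hyp M R x y) {k l m : ℤ} {a : JJ M x y →₀ 𝔸} {r : 𝔸} (hr : r ∈ R l)
    (ha : IsHom R k a) (hm : m = l + k) : IsHom R m (r • a) := fun j => by
  rw [Finsupp.smul_apply, smul_eq_mul]
  exact mem_congr (by rw [hm]; ring) (H.mulRR l (k - j.1) r (a j) hr (ha j))

lemma Phi_mem (H : Hyp M R x y) {k : ℤ} {a : JJ M x y →₀ 𝔸} (ha : IsHom R k a) :
    Phi M x y a ∈ M k := by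
  rw [Finsupp.linearCombination_apply, Finsupp.sum]
  refine Submodule.sum_mem _ fun j _ => ?_
  rw [smul_eq_mul]
  exact mem_congr (by ring) (H.mulRM (k - j.1) j.1 (a j) _ (ha j) (gen_mem j))

/-- elements of `cpl k` are combinations of the generators -/
lemma exists_rep_cpl (H : Hyp M R x y) {k : ℤ} {c : 𝔸} (hc : c ∈ cpl M x y k) :
    ∃ a : JJ M x y →₀ 𝔸, IsHom R k a ∧ Phi M x y a = c := by
  have hspan : (⟨c, hc⟩ : cpl M x y k) ∈
      Submodule.span K (Set.range (Basis.ofVectorSpace K (cpl M x y k))) := by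
    rw [Basis.span_eq]; trivial
  have key : ∀ v : cpl M x y k,
      v ∈ Submodule.span K (Set.range (Basis.ofVectorSpace K (cpl M x y k))) →
      ∃ a : JJ M x y →₀ 𝔸, IsHom R k a ∧ Phi M x y a = (v : 𝔸) := by
    intro v hv
    induction hv using Submodule.span_induction with
    | mem v hv =>
      obtain ⟨i, rfl⟩ := hv
      classical
      refine ⟨Finsupp.single ⟨k, i⟩ 1, fun j => ?_, ?_⟩
      · rw [Finsupp.single_apply]
        split_ifs with h
        · subst h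
          exact mem_congr (by simp) H.one_mem
        · exact (R _).zero_mem
      · rw [Finsupp.linearCombination_single, one_smul]; rfl
    | zero => exact ⟨0, isHom_zero, by simp⟩
    | add u v _ _ hu hv =>
      obtain ⟨a, ha, ha'⟩ := hu
      obtain ⟨b, hb, hb'⟩ := hv
      exact ⟨a + b, ha.add hb, by rw [map_add, ha', hb']; rfl⟩
    | smul c v _ hv =>
      obtain ⟨a, ha, ha'⟩ := hv
      refine ⟨c • a, ha.ksmul c, ?_⟩
      have : c • a = (algebraMap K 𝔸 c) • a := by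
        ext j; simp [Algebra.smul_def]
      rw [this, map_smul, ha', smul_eq_mul, ← Algebra.smul_def]; rfl
  exact key ⟨c, hc⟩ hspan

/-- **Generation.** -/
theorem generation (H : Hyp M R x y) (k : ℤ) (f : 𝔸) (hf : f ∈ M k) :
    ∃ a : JJ M x y →₀ 𝔸, IsHom R k a ∧ Phi M x y a = f := by
  have key : ∀ n : ℕ, ∀ k : ℤ, k < n → ∀ f ∈ M k,
      ∃ a : JJ M x y →₀ 𝔸, IsHom R k a ∧ Phi M x y a = f := by
    intro n
    induction n with
    | zero =>
      intro k hk f hf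
      exact ⟨0, isHom_zero, by rw [H.M_neg k (by simpa using hk) f hf, map_zero]⟩
    | succ n ih =>
      intro k hk f hf
      obtain ⟨c, hc, d, hd, rfl⟩ := exists_decomp H hf
      obtain ⟨f₁, h₁, f₂, h₂, rfl⟩ := mem_dec.1 hd
      obtain ⟨a₀, ha₀, e₀⟩ := exists_rep_cpl H hc
      obtain ⟨a₁, ha₁, e₁⟩ := ih (k - 4) (by push_cast at hk; omega) f₁ h₁
      obtain ⟨a₂, ha₂, e₂⟩ := ih (k - 6) (by push_cast at hk; omega) f₂ h₂
      refine ⟨a₀ + (x • a₁ + y • a₂),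
        ha₀.add ((ha₁.smul H H.x_mem (by ring)).add (ha₂.smul H H.y_mem (by ring))), ?_⟩
      simp only [map_add, map_smul, e₀, e₁, e₂, smul_eq_mul]
  exact key (k + 1).toNat k (by omega) f hf

/-- Step 1 of independence: the coefficients of the generators of weight `≥ k` vanish. -/
lemma coeff_eq_zero_of_le (H : Hyp M R x y) {k : ℤ} {a : JJ M x y →₀ 𝔸} (ha : IsHom R k a)
    (h0 : Phi M x y a = 0) (j : JJ M x y) (hj : k ≤ j.1) : a j = 0 := by
  classical
  rcases hj.lt_or_eq with hlt | heq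
  · exact H.R_neg _ (by omega) _ (ha j)
  obtain ⟨k', i₀⟩ := j
  simp only at heq
  subst heq
  obtain ⟨lam, hdec, h1, hne⟩ := exists_coord (M := M) (x := x) (y := y) k i₀
  obtain ⟨c, hc⟩ := H.R_zero _ (mem_congr (by simp) (ha ⟨k, i₀⟩))
  have hsum : lam (Phi M x y a) = lam (a ⟨k, i₀⟩ * gen M x y ⟨k, i₀⟩) := by
    rw [Finsupp.linearCombination_apply, Finsupp.sum, map_sum]
    refine Finset.sum_eq_single (⟨k, i₀⟩ : JJ M x y) ?_ ?_
    · rintro ⟨k', i⟩ _ hne'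
      rw [smul_eq_mul]
      rcases lt_trichotomy k' k with hlt | heq | hgt
      · obtain ⟨b, hb, c', hc', e⟩ := H.R_pos (k - k') (by omega) _ (ha ⟨k', i⟩)
        apply hdec
        rw [mem_dec]
        refine ⟨b * gen M x y ⟨k', i⟩, ?_, c' * gen M x y ⟨k', i⟩, ?_, ?_⟩
        · exact mem_congr (by ring) (H.mulRM _ _ _ _ hb (gen_mem (⟨k', i⟩ : JJ M x y)))
        · exact mem_congr (by ring) (H.mulRM _ _ _ _ hc' (gen_mem (⟨k', i⟩ : JJ M x y)))
        · rw [e]; ring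
      · subst heq
        obtain ⟨c', hc'⟩ := H.R_zero _ (mem_congr (by simp) (ha ⟨k', i⟩))
        have hi : i ≠ i₀ := fun h => hne' (by rw [h])
        rw [hc', smul_mul_assoc, one_mul, map_smul, hne i hi, smul_zero]
      · rw [H.R_neg _ (by simp only; omega) _ (ha ⟨k', i⟩), zero_mul, map_zero]
    · intro hns
      rw [Finsupp.notMem_support_iff.1 hns, zero_smul, map_zero]
  rw [h0, map_zero, hc, smul_mul_assoc, one_mul, map_smul, h1, smul_eq_mul, mul_one] at hsum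
  rw [hc, ← hsum, zero_smul]

/-- Step 2 of independence: splitting the coefficients. -/
lemma exists_split (H : Hyp M R x y) {k : ℤ} {a : JJ M x y →₀ 𝔸} (ha : IsHom R k a)
    (h0 : ∀ j : JJ M x y, k ≤ j.1 → a j = 0) :
    ∃ b c : JJ M x y →₀ 𝔸, IsHom R (k - 4) b ∧ IsHom R (k - 6) c ∧ a = x • b + y • c := by
  classical
  have hex : ∀ j : JJ M x y, ∃ p : 𝔸 × 𝔸, p.1 ∈ R (k - 4 - j.1) ∧ p.2 ∈ R (k - 6 - j.1) ∧
      a j = x * p.1 + y * p.2 ∧ (a j = 0 → p = 0) := by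
    intro j
    by_cases hz : a j = 0
    · exact ⟨0, (R _).zero_mem, (R _).zero_mem, by simp [hz], fun _ => rfl⟩
    · have hlt : j.1 < k := by
        by_contra hcon
        exact hz (h0 j (not_lt.1 hcon))
      obtain ⟨b, hb, c, hc, e⟩ := H.R_pos (k - j.1) (by omega) _ (ha j)
      exact ⟨(b, c), mem_congr (by ring) hb, mem_congr (by ring) hc, e, fun h => absurd h hz⟩
  choose p hp1 hp2 hp3 hp4 using hex
  refine ⟨Finsupp.onFinset a.support (fun j => (p j).1) ?_,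
    Finsupp.onFinset a.support (fun j => (p j).2) ?_, fun j => hp1 j, fun j => hp2 j, ?_⟩
  · intro j hj
    rw [Finsupp.mem_support_iff]
    intro hz
    exact hj (by rw [hp4 j hz]; rfl)
  · intro j hj
    rw [Finsupp.mem_support_iff]
    intro hz
    exact hj (by rw [hp4 j hz]; rfl)
  · ext j
    simp only [Finsupp.add_apply, Finsupp.smul_apply, Finsupp.onFinset_apply, smul_eq_mul]
    exact hp3 j

/-- **Independence.** -/
theorem independence (H : Hyp M R x y) (k : ℤ) (a : JJ M x y →₀ 𝔸) (ha : IsHom R k a)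
    (h0 : Phi M x y a = 0) : a = 0 := by
  have key : ∀ n : ℕ, ∀ k : ℤ, k < n → ∀ a : JJ M x y →₀ 𝔸, IsHom R k a →
      Phi M x y a = 0 → a = 0 := by
    intro n
    induction n with
    | zero =>
      intro k hk a ha _
      ext j
      rw [Finsupp.zero_apply]
      by_cases hj : 0 ≤ j.1
      · exact H.R_neg _ (by simp only [Nat.cast_zero] at hk; omega) _ (ha j)
      · exfalso
        -- there is no generator of negative weight
        have hz : gen M x y j = 0 := H.M_neg _ (not_le.1 hj) _ (gen_mem j)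
        exact (Basis.ofVectorSpace K (cpl M x y j.1)).ne_zero j.2 (Subtype.ext hz)
    | succ n ih =>
      intro k hk a ha h0
      obtain ⟨b, c, hb, hc, rfl⟩ := exists_split H ha (coeff_eq_zero_of_le H ha h0)
      have e1 : y * Phi M x y c = x * (- Phi M x y b) := by
        simp only [map_add, map_smul, smul_eq_mul] at h0
        linear_combination h0
      obtain ⟨Hh, hHh, eH⟩ := H.reg k _ (Phi_mem H hc) _ ((M _).neg_mem (Phi_mem H hb)) e1
      obtain ⟨h, hh, eh⟩ := generation H (k - 10) Hh hHh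
      have hc' : c - x • h = 0 := by
        refine ih (k - 6) (by push_cast at hk; omega) _
          (hc.sub (hh.smul H H.x_mem (by ring))) ?_
        rw [map_sub, map_smul, eh, smul_eq_mul, eH, sub_self]
      have hc'' : c = x • h := sub_eq_zero.1 hc'
      have hbh : IsHom R (k - 4) (b + y • h) := hb.add (hh.smul H H.y_mem (by ring))
      have e2 : x * Phi M x y (b + y • h) = 0 := by
        simp only [map_add, map_smul, smul_eq_mul] at h0 ⊢
        rw [hc'', map_smul, smul_eq_mul] at h0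
        linear_combination h0
      have e3 : b + y • h = 0 :=
        ih (k - 4) (by push_cast at hk; omega) _ hbh (H.x_inj _ _ (Phi_mem H hbh) e2)
      rw [hc'', smul_smul, mul_comm y x, ← smul_smul, ← smul_add, e3, smul_zero]
  exact key (k + 1).toNat k (by omega) a ha h0

end Abstract

section Forms

open UpperHalfPlane ModularForm Filter EisensteinSeries
open scoped MatrixGroups Manifold Topology

lemma isMF_one : IsMF ⊤ 0 (1 : ℍ → ℂ) := by
  have := isMF_top_coe (ModularForm.const (Γ := 𝒮ℒ) 1)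
  have h1 : (⇑(ModularForm.const (Γ := 𝒮ℒ) 1) : ℍ → ℂ) = 1 := by
    ext z; simp [ModularForm.const_apply]
  rwa [h1] at this

lemma E4_ne_zero : (E₄ : ℍ → ℂ) ≠ 0 := by
  intro h
  have h1 : (E₄ : ModularForm 𝒮ℒ 4) = 0 := DFunLike.coe_injective h
  have h2 := E₄_qExpansion_coeff_one
  rw [h1] at h2
  simp [qExpansion_zero] at h2

/-- The hypotheses of the abstract theorem, from the statements of parts A0 and A2. -/
lemma hyp_of (Γ : Subgroup SL(2, ℤ))
    (hneg : ∀ (k : ℤ), k < 0 → ∀ f : ℍ → ℂ, IsMF Γ k f → f = 0)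
    (hnegTop : ∀ (k : ℤ), k < 0 → ∀ f : ℍ → ℂ, IsMF ⊤ k f → f = 0)
    (hconst : ∀ f : ℍ → ℂ, IsMF ⊤ 0 f → ∃ c : ℂ, f = fun _ => c)
    (hpos : ∀ (k : ℤ), 0 < k → ∀ a : ℍ → ℂ, IsMF ⊤ k a →
      ∃ b c : ℍ → ℂ, IsMF ⊤ (k - 4) b ∧ IsMF ⊤ (k - 6) c ∧
        a = (E₄ : ℍ → ℂ) * b + (E₆ : ℍ → ℂ) * c)
    (hreg : ∀ (k : ℤ) (F G : ℍ → ℂ), IsMF Γ (k - 6) F → IsMF Γ (k - 4) G →
      (E₆ : ℍ → ℂ) * F = (E₄ : ℍ → ℂ) * G → ∃ H : ℍ → ℂ, IsMF Γ (k - 10) H ∧
        F = (E₄ : ℍ → ℂ) * H) :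
    Hyp (MF Γ) (MF ⊤) (E₄ : ℍ → ℂ) (E₆ : ℍ → ℂ) where
  mulRM k l a f ha hf := (IsMF.of_top ha).mul hf
  mulRR k l a b ha hb := IsMF.mul ha hb
  x_mem := isMF_E4
  y_mem := isMF_E6
  one_mem := isMF_one
  M_neg k hk f hf := hneg k hk f hf
  R_neg k hk f hf := hnegTop k hk f hf
  R_zero f hf := by
    obtain ⟨c, rfl⟩ := hconst f hf
    exact ⟨c, by ext z; simp⟩
  R_pos k hk a ha := by
    obtain ⟨b, c, hb, hc, e⟩ := hpos k hk a ha
    exact ⟨b, hb, c, hc, e⟩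
  reg k F hF G hG e := hreg k F G hF hG e
  x_inj k f hf e :=
    ((UpperHalfPlane.mul_eq_zero_iff isMF_E4.holo (IsMF.holo hf)).1 e).resolve_left E4_ne_zero

/-- Part A3 with the needed statements of parts A0, A2 as hypotheses. -/
theorem exists_preBasis_aux (Γ : Subgroup SL(2, ℤ))
    (hneg : ∀ (k : ℤ), k < 0 → ∀ f : ℍ → ℂ, IsMF Γ k f → f = 0)
    (hnegTop : ∀ (k : ℤ), k < 0 → ∀ f : ℍ → ℂ, IsMF ⊤ k f → f = 0)
    (hconst : ∀ f : ℍ → ℂ, IsMF ⊤ 0 f → ∃ c : ℂ, f = fun _ => c)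
    (hpos : ∀ (k : ℤ), 0 < k → ∀ a : ℍ → ℂ, IsMF ⊤ k a →
      ∃ b c : ℍ → ℂ, IsMF ⊤ (k - 4) b ∧ IsMF ⊤ (k - 6) c ∧
        a = (E₄ : ℍ → ℂ) * b + (E₆ : ℍ → ℂ) * c)
    (hreg : ∀ (k : ℤ) (F G : ℍ → ℂ), IsMF Γ (k - 6) F → IsMF Γ (k - 4) G →
      (E₆ : ℍ → ℂ) * F = (E₄ : ℍ → ℂ) * G → ∃ H : ℍ → ℂ, IsMF Γ (k - 10) H ∧
        F = (E₄ : ℍ → ℂ) * H) :
    ∃ (J : Type) (wt : J → ℤ) (F : J → ℍ → ℂ), (∀ j, IsMF Γ (wt j) (F j)) ∧
      (∀ (k : ℤ) (f : ℍ → ℂ), IsMF Γ k f → ∃ (s : Finset J) (a : J → ℍ → ℂ),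
        (∀ j, IsMF ⊤ (k - wt j) (a j)) ∧ f = ∑ j ∈ s, a j * F j) ∧
      (∀ (k : ℤ) (s : Finset J) (a : J → ℍ → ℂ), (∀ j, IsMF ⊤ (k - wt j) (a j)) →
        ∑ j ∈ s, a j * F j = 0 → ∀ j ∈ s, a j = 0) := by
  classical
  have H := hyp_of Γ hneg hnegTop hconst hpos hreg
  refine ⟨JJ (MF Γ) (E₄ : ℍ → ℂ) (E₆ : ℍ → ℂ), fun j => j.1,
    gen (MF Γ) (E₄ : ℍ → ℂ) (E₆ : ℍ → ℂ), fun j => gen_mem j, ?_, ?_⟩
  · intro k f hf
    obtain ⟨a, ha, e⟩ := generation H k f hf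
    refine ⟨a.support, a, fun j => ha j, ?_⟩
    rw [← e, Finsupp.linearCombination_apply, Finsupp.sum]
    rfl
  · intro k s a ha h0 j hj
    have hz := independence H k (Finsupp.onFinset s (fun j => if j ∈ s then a j else 0)
      (fun j hj => by by_contra hn; exact hj (if_neg hn))) (fun j => by
        rw [Finsupp.onFinset_apply]
        split_ifs
        · exact ha j
        · exact isMF_zero) (by
        rw [Finsupp.linearCombination_apply, Finsupp.sum_of_support_subset _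
          Finsupp.support_onFinset_subset (fun i c => c • gen (MF Γ) (E₄ : ℍ → ℂ) (E₆ : ℍ → ℂ) i)
          (fun i _ => zero_smul _ _)]
        refine Eq.trans (Finset.sum_congr rfl fun i hi => ?_) h0
        rw [Finsupp.onFinset_apply, if_pos hi, smul_eq_mul])
    have := DFunLike.congr_fun hz j
    rwa [Finsupp.onFinset_apply, if_pos hj] at this

end Forms

end Fermat.Agent.S21.PartA3

namespace Fermat.Agent.S21

open UpperHalfPlane ModularForm Filter CongruenceSubgroup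
open scoped MatrixGroups Manifold Topology

/-- Part A3 : homogeneous generators which are independent over level one forms
(index type possibly infinite at this stage). -/
theorem exists_preBasis (Γ : Subgroup SL(2, ℤ)) [Γ.FiniteIndex]
    (hfin : ∀ k, FiniteDimensional ℂ (MF Γ k)) :
    ∃ (J : Type) (wt : J → ℤ) (F : J → ℍ → ℂ), (∀ j, IsMF Γ (wt j) (F j)) ∧
      (∀ (k : ℤ) (f : ℍ → ℂ), IsMF Γ k f → ∃ (s : Finset J) (a : J → ℍ → ℂ),
        (∀ j, IsMF ⊤ (k - wt j) (a j)) ∧ f = ∑ j ∈ s, a j * F j) ∧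
      (∀ (k : ℤ) (s : Finset J) (a : J → ℍ → ℂ), (∀ j, IsMF ⊤ (k - wt j) (a j)) →
        ∑ j ∈ s, a j * F j = 0 → ∀ j ∈ s, a j = 0) :=
  PartA3.exists_preBasis_aux Γ (fun _ hk _ hf => isMF_eq_zero_of_neg hk hf)
    (fun _ hk _ hf => isMF_eq_zero_of_neg hk hf)
    (fun _ hf => isMF_const_of_weight_zero hf)
    (fun _ hk _ ha => exists_eq_E4_mul_add_E6_mul hk ha)
    (fun _ _ _ hF hG h => exists_div_E4 hF hG h)

end Fermat.Agent.S21
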