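import Fermat.Agent.S21.Defs
import Fermat.Agent.S21.PartA0
import Fermat.Agent.S21.PartA2

set_option autoImplicit false

/-!
# S21, Part A4: a family of forms which is independent over level one forms has at most
`index` elements (dimension count in weight `12 t`, `t → ∞`).
-/

namespace Fermat.Agent.S21.PartA4

open UpperHalfPlane ModularForm Filter
open scoped MatrixGroups Manifold Topology

instance finiteDimensional_MF_top (k : ℤ) : FiniteDimensional ℂ (MF ⊤ k) :=
  (mfTopEquiv k).finiteDimensional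

lemma isMF_one : IsMF ⊤ 0 (1 : ℍ → ℂ) := by
  have := isMF_top_coe (ModularForm.const (Γ := 𝒮ℒ) 1)
  have h1 : (⇑(ModularForm.const (Γ := 𝒮ℒ) 1) : ℍ → ℂ) = 1 := by
    ext z; simp [ModularForm.const_apply]
  rwa [h1] at this

variable {Γ : Subgroup SL(2, ℤ)} {J : Type} (wt : J → ℤ) (F : J → ℍ → ℂ)

/-- the linear map `(a_j) ↦ ∑ a_j F_j` -/
noncomputable def comb (hmem : ∀ j, IsMF Γ (wt j) (F j)) (s : Finset J) (k : ℤ) :
    (∀ j : s, MF ⊤ (k - wt j)) →ₗ[ℂ] MF Γ k where
  toFun a := ⟨∑ j : s, (a j : ℍ → ℂ) * F j, IsMF.sum _ fun j _ =>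
    (((a j).2 : IsMF ⊤ _ _).of_top.mul (hmem j)).congr_wt (by ring)⟩
  map_add' a b := by
    ext1
    simp [add_mul, Finset.sum_add_distrib]
  map_smul' c a := by
    ext1
    simp [Finset.smul_sum]

lemma comb_injective (hmem : ∀ j, IsMF Γ (wt j) (F j))
    (hind : ∀ (k : ℤ) (s : Finset J) (a : J → ℍ → ℂ), (∀ j, IsMF ⊤ (k - wt j) (a j)) →
        ∑ j ∈ s, a j * F j = 0 → ∀ j ∈ s, a j = 0) (s : Finset J) (k : ℤ) :
    Function.Injective (comb wt F hmem s k) := by
  classical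
  rw [← LinearMap.ker_eq_bot, LinearMap.ker_eq_bot']
  intro a ha
  have h0 : ∑ j : s, (a j : ℍ → ℂ) * F j = 0 := congrArg Subtype.val ha
  have h1 := hind k s (fun j => if h : j ∈ s then (a ⟨j, h⟩ : ℍ → ℂ) else 0) (fun j => by
    split_ifs with h
    · exact (a ⟨j, h⟩).2
    · exact isMF_zero) (by
    rw [← Finset.sum_coe_sort s]
    refine Eq.trans (Finset.sum_congr rfl fun j _ => ?_) h0
    rw [dif_pos j.2])
  funext j
  have := h1 j j.2
  rw [dif_pos j.2] at this
  exact Subtype.ext this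

theorem card_le_aux (μ : ℕ)
    (h1 : ∀ k, FiniteDimensional ℂ (MF Γ k))
    (h2 : ∀ k : ℤ, Module.finrank ℂ (MF Γ k) ≤ (k * μ).toNat / 12 + 1)
    (h3 : ∀ k : ℤ, Even k → 0 ≤ k → (k / 12).toNat ≤ Module.finrank ℂ (MF ⊤ k))
    (h4 : ∀ k : ℤ, Odd k → ∀ f : ℍ → ℂ, IsMF Γ k f → f = 0)
    (hmem : ∀ j, IsMF Γ (wt j) (F j))
    (hind : ∀ (k : ℤ) (s : Finset J) (a : J → ℍ → ℂ), (∀ j, IsMF ⊤ (k - wt j) (a j)) →
        ∑ j ∈ s, a j * F j = 0 → ∀ j ∈ s, a j = 0) (s : Finset J) :
    s.card ≤ μ := by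
  classical
  -- the weights are even
  have hne : ∀ j, F j ≠ 0 := by
    intro j hj
    have := hind (wt j) {j} (fun i => if i = j then 1 else 0) (fun i => by
      split_ifs with h
      · subst h; exact isMF_one.congr_wt (by ring)
      · exact isMF_zero) (by simp [hj]) j (by simp)
    simp at this
  have heven : ∀ j, Even (wt j) := by
    intro j
    by_contra hodd
    exact hne j (h4 _ (Int.not_even_iff_odd.1 hodd) _ (hmem j))
  -- a bound for the weights
  obtain ⟨t₀, ht₀⟩ : ∃ t₀ : ℕ, ∀ j ∈ s, wt j ≤ 12 * t₀ := by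
    refine ⟨∑ j ∈ s, (wt j).toNat, fun j hj => ?_⟩
    have h := Finset.single_le_sum (f := fun j => (wt j).toNat) (fun _ _ => Nat.zero_le _) hj
    have h' : ((wt j).toNat : ℤ) ≤ ((∑ j ∈ s, (wt j).toNat : ℕ) : ℤ) := by exact_mod_cast h
    have := Int.self_le_toNat (wt j)
    omega
  by_contra hcon
  have hcard : μ + 1 ≤ s.card := by omega
  set t : ℕ := (μ + 1) * t₀ + 2 with ht
  have hinj := comb_injective wt F hmem hind s (12 * t)
  have := h1 (12 * t)
  have hle := LinearMap.finrank_le_finrank_of_injective hinj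
  rw [Module.finrank_pi_fintype] at hle
  have hlow : ∀ j : s, t - t₀ ≤ Module.finrank ℂ (MF ⊤ (12 * (t : ℤ) - wt j)) := by
    intro j
    have hj := ht₀ j j.2
    have htt : (t₀ : ℤ) ≤ t := by
      have : t₀ ≤ t := by
        rw [ht]; nlinarith [Nat.zero_le (μ * t₀)]
      exact_mod_cast this
    have he : Even (12 * (t : ℤ)) := ⟨6 * t, by ring⟩
    refine le_trans ?_ (h3 _ (he.sub (heven j)) (by omega))
    omega
  have hsum : s.card * (t - t₀) ≤ ∑ j : s, Module.finrank ℂ (MF ⊤ (12 * (t : ℤ) - wt j)) := by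
    have := Finset.card_nsmul_le_sum (Finset.univ : Finset s)
      (fun j => Module.finrank ℂ (MF ⊤ (12 * (t : ℤ) - wt j))) (t - t₀) (fun j _ => hlow j)
    simpa using this
  have hup := h2 (12 * t)
  have hup' : (12 * (t : ℤ) * μ).toNat / 12 + 1 = t * μ + 1 := by
    have : (12 * (t : ℤ) * μ).toNat = 12 * (t * μ) := by
      have : (12 * (t : ℤ) * μ) = ((12 * (t * μ) : ℕ) : ℤ) := by push_cast; ring
      rw [this, Int.toNat_natCast]
    rw [this, Nat.mul_div_cancel_left _ (by norm_num)]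
  rw [hup'] at hup
  have hfin : s.card * (t - t₀) ≤ t * μ + 1 := hsum.trans (hle.trans hup)
  have hfin2 : (μ + 1) * (t - t₀) ≤ t * μ + 1 := le_trans (Nat.mul_le_mul_right _ hcard) hfin
  have htsub : t - t₀ = μ * t₀ + 2 := by rw [ht]; ring_nf; omega
  rw [htsub, ht] at hfin2
  nlinarith [hfin2]

end Fermat.Agent.S21.PartA4

namespace Fermat.Agent.S21

open UpperHalfPlane ModularForm Filter CongruenceSubgroup
open scoped MatrixGroups Manifold Topology

/-- Part A4 : (Sturm bound asymptotics) an independent family has at most `index` elements. -/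
theorem card_le_index_of_indep (N : ℕ) [NeZero N] {J : Type} (wt : J → ℤ) (F : J → ℍ → ℂ)
    (hmem : ∀ j, IsMF (Gamma0 N) (wt j) (F j))
    (hind : ∀ (k : ℤ) (s : Finset J) (a : J → ℍ → ℂ), (∀ j, IsMF ⊤ (k - wt j) (a j)) →
        ∑ j ∈ s, a j * F j = 0 → ∀ j ∈ s, a j = 0) (s : Finset J) :
    s.card ≤ (Gamma0 N).index :=
  PartA4.card_le_aux wt F (Gamma0 N).index (finiteDimensional_MF N) (finrank_MF_le N)
    (fun _ hk hk' => le_finrank_MF_top hk hk')
    (fun _ hk _ hf => isMF_eq_zero_of_odd (by simp [Gamma0_mem]) hk hf) hmem hind s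

end Fermat.Agent.S21
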