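import Fermat.Agent.S21.Defs

set_option autoImplicit false

/-!
# S21, Part A5 : the Vandermonde argument

A finite generating family of `⨁ M_k(Γ)` over the level one forms has at least `[SL₂(ℤ) : Γ]`
elements, and if it has exactly that many, then its fundamental matrix has a determinant
which does not vanish identically.
-/

namespace Fermat.Agent.S21

open UpperHalfPlane ModularForm Filter CongruenceSubgroup
open scoped MatrixGroups Manifold Topology

namespace PartA5

variable {Γ : Subgroup SL(2, ℤ)}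

lemma isMF_one' : IsMF Γ 0 (1 : ℍ → ℂ) :=
  ⟨mdifferentiable_const, fun γ _ => is_invariant_one γ, fun g => by
    rw [is_invariant_one]
    exact Filter.const_boundedAtFilter _ (1 : ℂ)⟩

lemma isMF_pow {k : ℤ} {f : ℍ → ℂ} (hf : IsMF Γ k f) (n : ℕ) :
    IsMF Γ (n * k) (f ^ n) := by
  induction n with
  | zero => simpa using isMF_one'
  | succ n ih =>
    rw [pow_succ]
    exact (ih.mul hf).congr_wt (by push_cast; ring)

lemma comp_mul' {k k₁ k₂ : ℤ} (h : k = k₁ + k₂) (f g : ℍ → ℂ) (x : SL(2, ℤ) ⧸ Γ) :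
    comp Γ k (f * g) x = comp Γ k₁ f x * comp Γ k₂ g x := by
  subst h; exact comp_mul f g x

lemma comp_pow (k : ℤ) (f : ℍ → ℂ) (x : SL(2, ℤ) ⧸ Γ) (n : ℕ) :
    comp Γ (n * k) (f ^ n) x = (comp Γ k f x) ^ n := by
  induction n with
  | zero =>
    simp only [Nat.cast_zero, zero_mul, pow_zero]
    exact is_invariant_one _
  | succ n ih =>
    rw [pow_succ, pow_succ, comp_mul' (k₁ := n * k) (k₂ := k) (by push_cast; ring), ih]

lemma comp_sum {ι : Type*} (s : Finset ι) (k : ℤ) (f : ι → ℍ → ℂ) (x : SL(2, ℤ) ⧸ Γ) :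
    comp Γ k (∑ i ∈ s, f i) x = ∑ i ∈ s, comp Γ k (f i) x := by
  classical
  induction s using Finset.induction_on with
  | empty =>
    simp only [Finset.sum_empty]
    exact SlashAction.zero_slash _ _
  | insert a s ha ih => rw [Finset.sum_insert ha, Finset.sum_insert ha, comp_add, ih]

/-- there is a point at which all the components of a separating form are distinct -/
lemma exists_injective [Fintype (SL(2, ℤ) ⧸ Γ)] [DecidableEq (SL(2, ℤ) ⧸ Γ)] {k : ℤ} {g : ℍ → ℂ}
    (hg : IsMF Γ k g) (hinj : Function.Injective (comp Γ k g)) :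
    ∃ z : ℍ, Function.Injective fun x => comp Γ k g x z := by
  by_contra hcon
  push Not at hcon
  have hprod : ∏ p ∈ (Finset.univ : Finset ((SL(2, ℤ) ⧸ Γ) × (SL(2, ℤ) ⧸ Γ))).filter
      (fun p => p.1 ≠ p.2), (comp Γ k g p.1 - comp Γ k g p.2) = 0 := by
    funext z
    have hz := hcon z
    rw [Function.Injective] at hz
    push Not at hz
    obtain ⟨x, y, hxy, hne⟩ := hz
    rw [Finset.prod_apply]
    refine Finset.prod_eq_zero (i := (x, y)) (by simpa using hne) ?_
    simpa [sub_eq_zero] using hxy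
  rw [UpperHalfPlane.prod_eq_zero_iff
    (fun p _ => (hg.comp_holo p.1).sub (hg.comp_holo p.2))] at hprod
  obtain ⟨p, hp, hp0⟩ := hprod
  exact (Finset.mem_filter.1 hp).2 (hinj (sub_eq_zero.1 hp0))

end PartA5

open PartA5 in
/-- Part A5 : (Vandermonde) a finite generating family has at least `index` elements, and if it has
exactly that many (bijection `e`), the determinant of the fundamental matrix is not identically 0. -/
theorem exists_det_ne_zero_of_span {Γ : Subgroup SL(2, ℤ)} [Γ.FiniteIndex]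
    [Fintype (SL(2, ℤ) ⧸ Γ)] [DecidableEq (SL(2, ℤ) ⧸ Γ)]
    (hsep : ∃ (k : ℤ) (g : ℍ → ℂ), IsMF Γ k g ∧ Function.Injective (comp Γ k g))
    {J : Type} [Fintype J] (wt : J → ℤ) (F : J → ℍ → ℂ)
    (hmem : ∀ j, IsMF Γ (wt j) (F j))
    (hspan : ∀ (k : ℤ) (f : ℍ → ℂ), IsMF Γ k f → ∃ (a : J → ℍ → ℂ),
        (∀ j, IsMF ⊤ (k - wt j) (a j)) ∧ f = ∑ j, a j * F j) :
    Fintype.card (SL(2, ℤ) ⧸ Γ) ≤ Fintype.card J ∧
    ∀ e : (SL(2, ℤ) ⧸ Γ) ≃ J,
      ∃ z : ℍ, (Matrix.of fun x j => comp Γ (wt (e j)) (F (e j)) x z).det ≠ 0 := by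
  classical
  obtain ⟨k, g, hg, hinj⟩ := hsep
  obtain ⟨z, hz⟩ := exists_injective hg hinj
  -- the coefficients of the powers of `g`
  choose a ha hga using fun m : ℕ => hspan (m * k) (g ^ m) (isMF_pow hg m)
  have key : ∀ (m : ℕ) (x : SL(2, ℤ) ⧸ Γ),
      (comp Γ k g x z) ^ m = ∑ j, comp Γ (wt j) (F j) x z * a m j z := by
    intro m x
    have h1 : comp Γ (m * k) (g ^ m) x = ∑ j, a m j * comp Γ (wt j) (F j) x := by
      conv_lhs => rw [hga m]
      rw [comp_sum]
      refine Finset.sum_congr rfl fun j _ => ?_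
      rw [comp_mul' (k₁ := m * k - wt j) (k₂ := wt j) (by ring), comp_of_top (ha m j)]
    rw [comp_pow] at h1
    have h2 := congrFun h1 z
    rw [Pi.pow_apply, Finset.sum_apply] at h2
    rw [h2]
    exact Finset.sum_congr rfl fun j _ => by rw [Pi.mul_apply, mul_comm]
  -- the Vandermonde matrix
  let eqv := Fintype.equivFin (SL(2, ℤ) ⧸ Γ)
  let W : Matrix (SL(2, ℤ) ⧸ Γ) (SL(2, ℤ) ⧸ Γ) ℂ := fun x y => (comp Γ k g x z) ^ (eqv y : ℕ)
  have hW : W.det ≠ 0 := by
    have h1 : W = (Matrix.vandermonde fun i => comp Γ k g (eqv.symm i) z).submatrix eqv eqv := by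
      ext x y
      simp [W, Matrix.vandermonde_apply]
    rw [h1, Matrix.det_submatrix_equiv_self, Matrix.det_vandermonde_ne_zero_iff]
    exact hz.comp eqv.symm.injective
  refine ⟨?_, fun e => ⟨z, ?_⟩⟩
  · have h1 : W = (Matrix.of fun x j => comp Γ (wt j) (F j) x z : Matrix (SL(2, ℤ) ⧸ Γ) J ℂ) *
        (Matrix.of fun j y => a (eqv y : ℕ) j z : Matrix J (SL(2, ℤ) ⧸ Γ) ℂ) := by
      ext x y
      simp only [W, Matrix.mul_apply, Matrix.of_apply]
      exact key _ x
    have h2 : W.rank = Fintype.card (SL(2, ℤ) ⧸ Γ) :=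
      Matrix.rank_of_isUnit W ((Matrix.isUnit_iff_isUnit_det W).2 (isUnit_iff_ne_zero.2 hW))
    rw [← h2, h1]
    exact (Matrix.rank_mul_le_left _ _).trans (Matrix.rank_le_card_width _)
  · have h1 : W = (Matrix.of fun x j => comp Γ (wt (e j)) (F (e j)) x z) *
        (Matrix.of fun j y => a (eqv y : ℕ) (e j) z : Matrix (SL(2, ℤ) ⧸ Γ) (SL(2, ℤ) ⧸ Γ) ℂ) := by
      ext x y
      simp only [W, Matrix.mul_apply, Matrix.of_apply]
      rw [key _ x]
      exact (Equiv.sum_comp e fun j => comp Γ (wt j) (F j) x z * a (eqv y : ℕ) j z).symm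
    intro h0
    apply hW
    rw [h1, Matrix.det_mul, h0, zero_mul]

end Fermat.Agent.S21
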