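import Fermat.Agent.S21.Defs
import Fermat.Agent.S23.Primitive

set_option autoImplicit false

/-!
# S21, Part A' : a separating form for `Γ₀(N)` (namely `E₄(Nz)`, from `S23/Primitive.lean`).
-/

namespace Fermat.Agent.S21

open UpperHalfPlane ModularForm Filter CongruenceSubgroup
open scoped MatrixGroups Manifold Topology

/-- Part A' : a separating form. -/
theorem exists_separating (N : ℕ) [NeZero N] :
    ∃ (k : ℤ) (g : ℍ → ℂ), IsMF (Gamma0 N) k g ∧ Function.Injective (comp (Gamma0 N) k g) := by
  obtain ⟨u, -, hu⟩ := Fermat.Agent.S23.exists_primitive N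
  have hmf : IsMF (Gamma0 N) 4 u := isMF_coe u
  refine ⟨4, u, hmf, ?_⟩
  intro x x' hxx
  induction x using QuotientGroup.induction_on with
  | H a =>
    induction x' using QuotientGroup.induction_on with
    | H b =>
      rw [comp_mk hmf.inv, comp_mk hmf.inv] at hxx
      rw [QuotientGroup.eq]
      apply hu
      have h1 := congrArg (fun f => f ∣[(4 : ℤ)] b) hxx
      simp only [← SlashAction.slash_mul] at h1
      simpa using h1

end Fermat.Agent.S21
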