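import Fermat.Agent.S21.Defs
import Fermat.Agent.S21.PartA0
import Fermat.Agent.S21.PartA3
import Fermat.Agent.S21.PartA4
import Fermat.Agent.S21.PartA5
import Fermat.Agent.S21.PartAsep

set_option autoImplicit false

/-!
# S21, Part A6: assembly of the free basis
-/

namespace Fermat.Agent.S21.PartA6

open UpperHalfPlane ModularForm Filter
open scoped MatrixGroups Manifold Topology

theorem exists_freeBasis_aux {Γ : Subgroup SL(2, ℤ)} [Fintype (SL(2, ℤ) ⧸ Γ)]
    [DecidableEq (SL(2, ℤ) ⧸ Γ)]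
    (hpre : ∃ (J : Type) (wt : J → ℤ) (F : J → ℍ → ℂ), (∀ j, IsMF Γ (wt j) (F j)) ∧
      (∀ (k : ℤ) (f : ℍ → ℂ), IsMF Γ k f → ∃ (s : Finset J) (a : J → ℍ → ℂ),
        (∀ j, IsMF ⊤ (k - wt j) (a j)) ∧ f = ∑ j ∈ s, a j * F j) ∧
      (∀ (k : ℤ) (s : Finset J) (a : J → ℍ → ℂ), (∀ j, IsMF ⊤ (k - wt j) (a j)) →
        ∑ j ∈ s, a j * F j = 0 → ∀ j ∈ s, a j = 0))
    (hA4 : ∀ {J : Type} (wt : J → ℤ) (F : J → ℍ → ℂ), (∀ j, IsMF Γ (wt j) (F j)) →
      (∀ (k : ℤ) (s : Finset J) (a : J → ℍ → ℂ), (∀ j, IsMF ⊤ (k - wt j) (a j)) →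
        ∑ j ∈ s, a j * F j = 0 → ∀ j ∈ s, a j = 0) → ∀ s : Finset J, s.card ≤ Γ.index)
    (hA5 : ∀ {J : Type} [Fintype J] (wt : J → ℤ) (F : J → ℍ → ℂ),
      (∀ j, IsMF Γ (wt j) (F j)) →
      (∀ (k : ℤ) (f : ℍ → ℂ), IsMF Γ k f → ∃ (a : J → ℍ → ℂ),
        (∀ j, IsMF ⊤ (k - wt j) (a j)) ∧ f = ∑ j, a j * F j) →
      Fintype.card (SL(2, ℤ) ⧸ Γ) ≤ Fintype.card J ∧
      ∀ e : (SL(2, ℤ) ⧸ Γ) ≃ J,
        ∃ z : ℍ, (Matrix.of fun x j => comp Γ (wt (e j)) (F (e j)) x z).det ≠ 0) :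
    Nonempty (FreeBasis Γ) := by
  classical
  obtain ⟨J, wt, F, hmem, hspan, hind⟩ := hpre
  have hcard := hA4 wt F hmem hind
  have hfin : Finite J := by
    by_contra hinf
    rw [not_finite_iff_infinite] at hinf
    obtain ⟨s, hs⟩ := Infinite.exists_subset_card_eq J (Γ.index + 1)
    have := hcard s
    omega
  let _ : Fintype J := Fintype.ofFinite J
  have hspan' : ∀ (k : ℤ) (f : ℍ → ℂ), IsMF Γ k f → ∃ (a : J → ℍ → ℂ),
      (∀ j, IsMF ⊤ (k - wt j) (a j)) ∧ f = ∑ j, a j * F j := by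
    intro k f hf
    obtain ⟨s, a, ha, e⟩ := hspan k f hf
    refine ⟨fun j => if j ∈ s then a j else 0, fun j => ?_, ?_⟩
    · show IsMF ⊤ (k - wt j) (if j ∈ s then a j else 0)
      split_ifs
      · exact ha j
      · exact isMF_zero
    · show f = ∑ j, (if j ∈ s then a j else 0) * F j
      rw [e, ← Finset.sum_filter_add_sum_filter_not Finset.univ (fun j => j ∈ s)]
      have h2 : ∑ j ∈ Finset.univ.filter (fun j => ¬ j ∈ s),
          (if j ∈ s then a j else 0) * F j = 0 := by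
        refine Finset.sum_eq_zero fun j hj => ?_
        rw [if_neg (Finset.mem_filter.1 hj).2, zero_mul]
      rw [h2, add_zero, Finset.filter_mem_eq_inter, Finset.univ_inter]
      exact Finset.sum_congr rfl fun j hj => by rw [if_pos hj]
  obtain ⟨hle, hdet⟩ := hA5 wt F hmem hspan'
  have hge : Fintype.card J ≤ Fintype.card (SL(2, ℤ) ⧸ Γ) := by
    have := hcard Finset.univ
    rwa [Finset.card_univ, Subgroup.index_eq_card, Nat.card_eq_fintype_card] at this
  let e : (SL(2, ℤ) ⧸ Γ) ≃ J := Fintype.equivOfCardEq (le_antisymm hle hge)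
  refine ⟨⟨fun j => wt (e j), fun j => F (e j), fun j => hmem (e j), ?_, ?_, hdet e⟩⟩
  · intro k f hf
    obtain ⟨a, ha, h⟩ := hspan' k f hf
    refine ⟨fun j => a (e j), fun j => ha (e j), ?_⟩
    rw [h]
    exact (Equiv.sum_comp e (fun j => a j * F j)).symm
  · intro k a ha h0 j
    have h1 := hind k Finset.univ (fun i => a (e.symm i)) (fun i => by
      have := ha (e.symm i)
      rwa [Equiv.apply_symm_apply] at this) (by
      rw [← h0, ← Equiv.sum_comp e]
      simp) (e j) (Finset.mem_univ _)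
    simpa using h1

end Fermat.Agent.S21.PartA6

namespace Fermat.Agent.S21

open UpperHalfPlane ModularForm Filter CongruenceSubgroup
open scoped MatrixGroups Manifold Topology

/-- Part A6 : assembly of A', A0, A3, A4, A5. -/
theorem exists_freeBasis (N : ℕ) [NeZero N] [Fintype (SL(2, ℤ) ⧸ Gamma0 N)]
    [DecidableEq (SL(2, ℤ) ⧸ Gamma0 N)] : Nonempty (FreeBasis (Gamma0 N)) :=
  PartA6.exists_freeBasis_aux (exists_preBasis (Gamma0 N) (finiteDimensional_MF N))
    (fun wt F hmem hind s => card_le_index_of_indep N wt F hmem hind s)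
    (fun wt F hmem hspan => exists_det_ne_zero_of_span (exists_separating N) wt F hmem hspan)

end Fermat.Agent.S21
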