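import Fermat.Agent.S21.Defs
import Fermat.Agent.S21.PartA0
import Fermat.Agent.S21.PartA2

set_option autoImplicit false

/-!
# S21, Part C : behaviour at `i∞` of the inverse of the fundamental matrix
-/

namespace Fermat.Agent.S21

open UpperHalfPlane ModularForm Filter CongruenceSubgroup
open scoped MatrixGroups Manifold Topology Real

namespace PartC

/-! ### The exponentials `e^{2πi w/h}` -/

/-- `e^{2πi w/h}` -/
noncomputable def ee (h : ℕ) (w : ℂ) : ℂ := Complex.exp (2 * π * Complex.I * w / h)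

lemma ee_add (h : ℕ) (a b : ℂ) : ee h (a + b) = ee h a * ee h b := by
  unfold ee
  rw [← Complex.exp_add]
  congr 1
  ring

lemma ee_zero (h : ℕ) : ee h 0 = 1 := by simp [ee]

lemma ee_ne_zero (h : ℕ) (a : ℂ) : ee h a ≠ 0 := Complex.exp_ne_zero _

lemma ee_neg_mul (h : ℕ) (a : ℂ) : ee h (-a) * ee h a = 1 := by
  rw [← ee_add]; simp [ee_zero]

lemma ee_int_mul_self (h : ℕ) (hh : 0 < h) (n : ℤ) : ee h (n * h) = 1 := by
  unfold ee
  have hh' : (h : ℂ) ≠ 0 := by exact_mod_cast hh.ne'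
  rw [Complex.exp_eq_one_iff]
  exact ⟨n, by field_simp⟩

lemma ee_mul_nat (h : ℕ) (a : ℂ) (m : ℕ) : ee h (a * m) = ee h a ^ m := by
  unfold ee
  rw [← Complex.exp_nat_mul]
  congr 1
  ring

lemma norm_ee (h : ℕ) (w : ℂ) : ‖ee h w‖ = Real.exp (-2 * π * w.im / h) := by
  unfold ee
  rw [Complex.norm_exp]
  congr 1
  have : (2 * (π : ℂ) * Complex.I * w / h) = ((2 * π / h : ℝ) : ℂ) * (Complex.I * w) := by
    push_cast; ring
  rw [this, Complex.re_ofReal_mul]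
  simp
  ring

lemma ee_int_eq_one_iff (h : ℕ) (hh : 0 < h) (a : ℤ) : ee h a = 1 ↔ (h : ℤ) ∣ a := by
  unfold ee
  have hh' : (h : ℂ) ≠ 0 := by exact_mod_cast hh.ne'
  rw [Complex.exp_eq_one_iff]
  constructor
  · rintro ⟨n, hn⟩
    refine ⟨n, ?_⟩
    have h3 : (a : ℂ) = h * n := by
      field_simp at hn
      exact hn
    exact_mod_cast h3
  · rintro ⟨n, rfl⟩
    exact ⟨n, by push_cast; field_simp⟩

/-- orthogonality of characters of `ℤ/h` -/
lemma sum_ee (h : ℕ) (hh : 0 < h) (a : ℤ) (ha : ¬ (h : ℤ) ∣ a) :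
    ∑ m ∈ Finset.range h, ee h (a * m) = 0 := by
  simp_rw [ee_mul_nat]
  have h1 : ee h a ≠ 1 := fun h1 => ha ((ee_int_eq_one_iff h hh a).1 h1)
  have h2 : ee h a ^ h = 1 := by rw [← ee_mul_nat]; exact ee_int_mul_self h hh a
  have h3 := geom_sum_mul (ee h a) h
  rw [h2, sub_self] at h3
  exact (mul_eq_zero.1 h3).resolve_right (sub_ne_zero.2 h1)

lemma sum_ee_sub (h : ℕ) (hh : 0 < h) (a b : ℕ) (ha : a < h) (hb : b < h) :
    ∑ m ∈ Finset.range h, ee h (((a : ℂ) - b) * m) = if a = b then (h : ℂ) else 0 := by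
  split_ifs with hab
  · subst hab; simp [ee_zero]
  · have := sum_ee h hh ((a : ℤ) - b) (by
      intro hd
      have h1 : |(a : ℤ) - b| < h := by rw [abs_lt]; constructor <;> omega
      have := Int.eq_zero_of_abs_lt_dvd hd h1
      omega)
    simpa using this

/-! ### Periodic holomorphic functions on `ℍ` -/

lemma mdiff_ee (h : ℕ) (a b : ℂ) : MDiff (fun z : ℍ => ee h (a * z + b)) := by
  have h1 : Differentiable ℂ (fun w : ℂ => ee h (a * w + b)) := by
    unfold ee; fun_prop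
  exact h1.mdifferentiable.comp mdifferentiable_coe

lemma periodic_of_vadd {g : ℍ → ℂ} (hg : ∀ z : ℍ, g ((1 : ℝ) +ᵥ z) = g z) :
    Function.Periodic (g ∘ ofComplex) ((1 : ℝ) : ℂ) := by
  intro w
  by_cases! hw : 0 < w.im
  · have : 0 < (w + ((1 : ℝ) : ℂ)).im := by simp [hw]
    simp only [Function.comp_apply, ofComplex_apply_of_im_pos this, ofComplex_apply_of_im_pos hw]
    rw [← hg ⟨w, hw⟩]
    congr 1
    ext
    simp [add_comm]
  · have : (w + ((1 : ℝ) : ℂ)).im ≤ 0 := by simpa using hw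
    simp only [Function.comp_apply, ofComplex_apply_of_im_nonpos this,
      ofComplex_apply_of_im_nonpos hw]

lemma tendsto_of_periodic {g : ℍ → ℂ} (hol : MDiff g) (hper : ∀ z : ℍ, g ((1 : ℝ) +ᵥ z) = g z)
    (hb : IsBoundedAtImInfty g) : Tendsto g atImInfty (𝓝 (valueAtInfty g)) := by
  have hper' := periodic_of_vadd hper
  have hanal := analyticAt_cuspFunction_zero one_pos hper' hol hb
  rw [← cuspFunction_apply_zero one_pos hanal hper']
  exact (hanal.continuousAt.tendsto.comp (qParam_tendsto_atImInfty one_pos)).congr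
    (fun τ ↦ eq_cuspFunction τ one_ne_zero hper')

lemma isBigO_of_periodic {g : ℍ → ℂ} (hol : MDiff g) (hper : ∀ z : ℍ, g ((1 : ℝ) +ᵥ z) = g z)
    (h0 : Tendsto g atImInfty (𝓝 0)) :
    g =O[atImInfty] fun z : ℍ => Real.exp (-2 * π * z.im) := by
  have h0' : IsZeroAtImInfty g := h0
  have := h0'.exp_decay_atImInfty one_pos (periodic_of_vadd hper) hol h0'.boundedAtFilter
  simpa using this

lemma bdd_of_periodic {g : ℍ → ℂ} (hol : MDiff g) (hper : ∀ z : ℍ, g ((1 : ℝ) +ᵥ z) = g z)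
    (h0 : Tendsto (fun z : ℍ => ee 1 z * g z) atImInfty (𝓝 0)) : IsBoundedAtImInfty g := by
  have hol' : MDiff (fun z : ℍ => ee 1 z * g z) := by
    have := mdiff_ee 1 1 0
    simp only [one_mul, add_zero] at this
    exact this.mul hol
  have hper' : ∀ z : ℍ, (fun z : ℍ => ee 1 z * g z) ((1 : ℝ) +ᵥ z) = (fun z : ℍ => ee 1 z * g z) z := by
    intro z
    have h1 : ee 1 (((1 : ℝ) +ᵥ z : ℍ) : ℂ) = ee 1 z := by
      rw [coe_vadd, ee_add]
      have := ee_int_mul_self 1 one_pos 1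
      simp only [Int.cast_one, Nat.cast_one, mul_one] at this
      simp [this]
    simp only [h1, hper z]
  obtain ⟨C, hC⟩ := (isBigO_of_periodic hol' hper' h0).bound
  refine Asymptotics.IsBigO.of_bound C (hC.mono fun z hz => ?_)
  rw [norm_mul, norm_ee] at hz
  simp only [Nat.cast_one, div_one, Real.norm_eq_abs, Real.abs_exp] at hz
  have hpos := Real.exp_pos (-2 * π * (z : ℂ).im)
  have : ‖g z‖ ≤ C := by
    have h2 : Real.exp (-2 * π * (z : ℂ).im) * ‖g z‖ ≤ Real.exp (-2 * π * (z : ℂ).im) * C := by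
      rw [mul_comm _ C]; exact hz
    exact le_of_mul_le_mul_left h2 hpos
  simpa using this

lemma tendsto_ee_mul (h : ℕ) (hh : 0 < h) (c : ℝ) (hc : 0 < c) :
    Tendsto (fun z : ℍ => ee h (c * z)) atImInfty (𝓝 0) := by
  rw [tendsto_zero_iff_norm_tendsto_zero]
  simp_rw [norm_ee]
  refine Real.tendsto_exp_atBot.comp ?_
  have h1 : Tendsto (fun z : ℍ => z.im) atImInfty atTop := tendsto_comap
  have h2 : (fun z : ℍ => -2 * π * ((c : ℂ) * z).im / h) = fun z : ℍ => -(2 * π * c / h) * z.im := by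
    funext z
    simp only [Complex.im_ofReal_mul, coe_im]
    ring
  rw [h2]
  have hh' : (0 : ℝ) < h := by exact_mod_cast hh
  exact h1.const_mul_atTop_of_neg (by
    have : 0 < 2 * π * c / h := by positivity
    linarith)

/-! ### Vector valued functions, equivariant under translation -/

section VV

variable {𝒳 : Type*} (t : 𝒳 → 𝒳) (h : ℕ)

/-- twisted average: the part of `v` on which translation by `1` acts through `e^{2πi r/h}`,
divided by `e^{2πi r z/h}`. -/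
noncomputable def tw (r : ℕ) (v : 𝒳 → ℍ → ℂ) (x : 𝒳) (z : ℍ) : ℂ :=
  (h : ℂ)⁻¹ * ∑ s ∈ Finset.range h, ee h (-(r * ((z : ℂ) + s))) * v (t^[s] x) z

/-- holomorphic, bounded at `i∞`, translation-equivariant vector valued functions -/
structure IsVV (v : 𝒳 → ℍ → ℂ) : Prop where
  holo : ∀ x, MDiff (v x)
  bdd : ∀ x, IsBoundedAtImInfty (v x)
  equiv : ∀ x z, v x ((1 : ℝ) +ᵥ z) = v (t x) z

lemma sum_shift (a : ℕ → ℂ) (n : ℕ) (ha : a n = a 0) :
    ∑ s ∈ Finset.range n, a (s + 1) = ∑ s ∈ Finset.range n, a s := by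
  have h1 := Finset.sum_range_succ' a n
  have h2 := Finset.sum_range_succ a n
  rw [h1, ha] at h2
  exact add_right_cancel h2

variable {t h}

lemma tw_aux (hh : 0 < h) (ht : ∀ x, t^[h] x = x) (r : ℕ) (v : 𝒳 → ℍ → ℂ) (x : 𝒳) (z : ℍ) :
    ∑ s ∈ Finset.range h, ee h (-(r * ((z : ℂ) + (s + 1 : ℕ)))) * v (t^[s + 1] x) z
      = ∑ s ∈ Finset.range h, ee h (-(r * ((z : ℂ) + s))) * v (t^[s] x) z := by
  refine sum_shift (fun s => ee h (-(r * ((z : ℂ) + s))) * v (t^[s] x) z) h ?_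
  simp only [ht, Function.iterate_zero, id_eq, Nat.cast_zero, add_zero]
  congr 1
  have : -((r : ℂ) * ((z : ℂ) + h)) = -(r * (z : ℂ)) + ((-r : ℤ) : ℂ) * h := by push_cast; ring
  rw [this, ee_add, ee_int_mul_self h hh, mul_one]

lemma tw_vadd (hh : 0 < h) (ht : ∀ x, t^[h] x = x) (r : ℕ) {v : 𝒳 → ℍ → ℂ}
    (hv : ∀ x z, v x ((1 : ℝ) +ᵥ z) = v (t x) z) (x : 𝒳) (z : ℍ) :
    tw t h r v x ((1 : ℝ) +ᵥ z) = tw t h r v x z := by
  unfold tw
  rw [← tw_aux hh ht r v x z]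
  congr 1
  refine Finset.sum_congr rfl fun s _ => ?_
  rw [hv, Function.iterate_succ_apply', coe_vadd]
  congr 2
  push_cast
  ring

lemma tw_apply_t (hh : 0 < h) (ht : ∀ x, t^[h] x = x) (r : ℕ) (v : 𝒳 → ℍ → ℂ) (x : 𝒳) (z : ℍ) :
    tw t h r v (t x) z = ee h r * tw t h r v x z := by
  unfold tw
  rw [← tw_aux hh ht r v x z, mul_left_comm]
  congr 1
  rw [Finset.mul_sum]
  refine Finset.sum_congr rfl fun s _ => ?_
  rw [Function.iterate_succ_apply, ← mul_assoc, ← ee_add]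
  congr 2
  push_cast
  ring

lemma tw_iterate (hh : 0 < h) (ht : ∀ x, t^[h] x = x) (r : ℕ) (v : 𝒳 → ℍ → ℂ) (x : 𝒳) (z : ℍ)
    (m : ℕ) : tw t h r v (t^[m] x) z = ee h (r * m) * tw t h r v x z := by
  induction m with
  | zero => simp [ee_zero]
  | succ m ih =>
    rw [Function.iterate_succ_apply', tw_apply_t hh ht, ih, ← mul_assoc, ← ee_add]
    congr 2
    push_cast
    ring

/-- reconstruction of `v` from its twisted averages -/
lemma eq_sum_tw (hh : 0 < h) (v : 𝒳 → ℍ → ℂ) (x : 𝒳) (z : ℍ) :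
    v x z = ∑ r ∈ Finset.range h, ee h (r * z) * tw t h r v x z := by
  have hh' : (h : ℂ) ≠ 0 := by exact_mod_cast hh.ne'
  unfold tw
  have h1 : ∀ r ∈ Finset.range h, ee h (r * z) * ((h : ℂ)⁻¹ *
      ∑ s ∈ Finset.range h, ee h (-(r * ((z : ℂ) + s))) * v (t^[s] x) z)
      = ∑ s ∈ Finset.range h, (h : ℂ)⁻¹ * v (t^[s] x) z * ee h ((((0 : ℕ) : ℂ) - s) * r) := by
    intro r _
    rw [mul_left_comm, Finset.mul_sum, Finset.mul_sum]
    refine Finset.sum_congr rfl fun s _ => ?_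
    have : ee h ((((0 : ℕ) : ℂ) - s) * r) = ee h (r * z) * ee h (-(r * ((z : ℂ) + s))) := by
      rw [← ee_add]; congr 1; push_cast; ring
    rw [this]; ring
  rw [Finset.sum_congr rfl h1, Finset.sum_comm]
  simp_rw [← Finset.mul_sum]
  have h2 : ∀ s ∈ Finset.range h, (h : ℂ)⁻¹ * v (t^[s] x) z *
      ∑ r ∈ Finset.range h, ee h ((((0 : ℕ) : ℂ) - s) * r)
      = if 0 = s then v x z else 0 := by
    intro s hs
    rw [sum_ee_sub h hh 0 s hh (Finset.mem_range.1 hs)]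
    split_ifs with h0
    · subst h0; simp; field_simp
    · simp
  rw [Finset.sum_congr rfl h2, Finset.sum_ite_eq]
  simp [hh]

/-- isolation of one twisted average -/
lemma tw_eq_sum (hh : 0 < h) (ht : ∀ x, t^[h] x = x) (v : 𝒳 → ℍ → ℂ) (x : 𝒳) (z : ℍ)
    (r' : ℕ) (hr' : r' < h) :
    tw t h r' v x z = (h : ℂ)⁻¹ * ∑ m ∈ Finset.range h, ee h (-(r' * m)) *
      ∑ r ∈ Finset.range h, tw t h r v (t^[m] x) z := by
  have hh' : (h : ℂ) ≠ 0 := by exact_mod_cast hh.ne'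
  have h1 : ∀ m ∈ Finset.range h, ee h (-(r' * m)) * ∑ r ∈ Finset.range h, tw t h r v (t^[m] x) z
      = ∑ r ∈ Finset.range h, tw t h r v x z * ee h (((r : ℂ) - r') * m) := by
    intro m _
    rw [Finset.mul_sum]
    refine Finset.sum_congr rfl fun r _ => ?_
    rw [tw_iterate hh ht]
    have : ee h (((r : ℂ) - r') * m) = ee h (-(r' * m)) * ee h (r * m) := by
      rw [← ee_add]; congr 1; ring
    rw [this]; ring
  rw [Finset.sum_congr rfl h1, Finset.sum_comm]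
  simp_rw [← Finset.mul_sum]
  have h2 : ∀ r ∈ Finset.range h, tw t h r v x z * ∑ m ∈ Finset.range h, ee h (((r : ℂ) - r') * m)
      = if r' = r then tw t h r' v x z * h else 0 := by
    intro r hr
    rw [sum_ee_sub h hh r r' (Finset.mem_range.1 hr) hr']
    by_cases h0 : r = r'
    · subst h0; simp
    · rw [if_neg h0, if_neg (Ne.symm h0), mul_zero]
  rw [Finset.sum_congr rfl h2, Finset.sum_ite_eq]
  simp only [Finset.mem_range, hr', if_true]
  field_simp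

lemma mdiff_sum {ι : Type*} (s : Finset ι) (F : ι → ℍ → ℂ) (hF : ∀ i ∈ s, MDiff (F i)) :
    MDiff (fun z => ∑ i ∈ s, F i z) := by
  classical
  induction s using Finset.induction_on with
  | empty => simpa using (mdifferentiable_const : MDiff (fun _ : ℍ => (0 : ℂ)))
  | insert a s ha ih =>
    simp only [Finset.sum_insert ha]
    exact (hF a (Finset.mem_insert_self a s)).add (ih fun i hi => hF i (Finset.mem_insert_of_mem hi))

lemma tendsto_sum_zero {ι : Type*} (s : Finset ι) (F : ι → ℍ → ℂ)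
    (hF : ∀ i ∈ s, Tendsto (F i) atImInfty (𝓝 0)) :
    Tendsto (fun z => ∑ i ∈ s, F i z) atImInfty (𝓝 0) := by
  simpa using tendsto_finsetSum s hF

lemma IsVV.tw_holo {v : 𝒳 → ℍ → ℂ} (hv : IsVV t v) (r : ℕ) (x : 𝒳) : MDiff (tw t h r v x) := by
  unfold tw
  refine (mdifferentiable_const (c := (h : ℂ)⁻¹)).mul (mdiff_sum _ _ fun s _ => ?_)
  have h1 : (fun z : ℍ => ee h (-(r * ((z : ℂ) + s)))) = fun z : ℍ => ee h (-r * z + -(r * s)) := by
    funext z; congr 1; ring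
  have h2 : MDiff (fun z : ℍ => ee h (-(r * ((z : ℂ) + s)))) := h1 ▸ mdiff_ee h (-r) (-(r * s))
  exact h2.mul (hv.holo _)

lemma IsVV.tw_zero {v : 𝒳 → ℍ → ℂ} (hh : 0 < h) (hv : IsVV t v) (r : ℕ) (hr : r < h) (x : 𝒳) :
    Tendsto (fun z : ℍ => ee 1 z * tw t h r v x z) atImInfty (𝓝 0) := by
  have hh' : (h : ℂ) ≠ 0 := by exact_mod_cast hh.ne'
  have h1 : (fun z : ℍ => ee 1 z * tw t h r v x z) = fun z : ℍ => ∑ s ∈ Finset.range h,
      ee h (((h - r : ℕ) : ℝ) * z) * (((h : ℂ)⁻¹ * ee h (-(r * s))) * v (t^[s] x) z) := by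
    funext z
    unfold tw
    rw [mul_left_comm, Finset.mul_sum, Finset.mul_sum]
    refine Finset.sum_congr rfl fun s _ => ?_
    have h2 : ee 1 z * ee h (-(r * ((z : ℂ) + s))) = ee h (((h - r : ℕ) : ℝ) * z) * ee h (-(r * s)) := by
      have h3 : ee 1 z = ee h (h * z) := by
        unfold ee; congr 1; field_simp; simp
      rw [h3, ← ee_add, ← ee_add]
      congr 1
      rw [Nat.cast_sub hr.le]
      push_cast
      ring
    calc (h : ℂ)⁻¹ * (ee 1 z * (ee h (-(r * ((z : ℂ) + s))) * v (t^[s] x) z))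
        = (h : ℂ)⁻¹ * ((ee 1 z * ee h (-(r * ((z : ℂ) + s)))) * v (t^[s] x) z) := by ring
      _ = _ := by rw [h2]; ring
  rw [h1]
  refine tendsto_sum_zero _ _ fun s _ => ?_
  have h4 := tendsto_ee_mul h hh ((h - r : ℕ) : ℝ) (by exact_mod_cast Nat.sub_pos_of_lt hr)
  have h5 : IsBoundedAtImInfty (fun z => ((h : ℂ)⁻¹ * ee h (-(r * s))) * v (t^[s] x) z) :=
    (hv.bdd (t^[s] x)).const_mul_left _
  exact h4.zero_mul_isBoundedUnder_le h5.isBoundedUnder_le

lemma IsVV.tw_bdd {v : 𝒳 → ℍ → ℂ} (hh : 0 < h) (ht : ∀ x, t^[h] x = x) (hv : IsVV t v) (r : ℕ)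
    (hr : r < h) (x : 𝒳) : IsBoundedAtImInfty (tw t h r v x) :=
  bdd_of_periodic (hv.tw_holo r x) (tw_vadd hh ht r hv.equiv x) (hv.tw_zero hh r hr x)

lemma IsVV.tw_tendsto {v : 𝒳 → ℍ → ℂ} (hh : 0 < h) (ht : ∀ x, t^[h] x = x) (hv : IsVV t v) (r : ℕ)
    (hr : r < h) (x : 𝒳) :
    Tendsto (tw t h r v x) atImInfty (𝓝 (valueAtInfty (tw t h r v x))) :=
  tendsto_of_periodic (hv.tw_holo r x) (tw_vadd hh ht r hv.equiv x) (hv.tw_bdd hh ht r hr x)

/-- If the sums of all twisted averages tend to `0`, then `v` decays like `e^{-2πy}`. -/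
lemma IsVV.isBigO {v : 𝒳 → ℍ → ℂ} (hh : 0 < h) (ht : ∀ x, t^[h] x = x) (hv : IsVV t v)
    (h0 : ∀ x, Tendsto (fun z => ∑ r ∈ Finset.range h, tw t h r v x z) atImInfty (𝓝 0)) (x : 𝒳) :
    v x =O[atImInfty] fun z : ℍ => Real.exp (-2 * π * z.im) := by
  have h1 : ∀ r ∈ Finset.range h, Tendsto (tw t h r v x) atImInfty (𝓝 0) := by
    intro r hr
    have h2 : tw t h r v x = fun z => (h : ℂ)⁻¹ * ∑ m ∈ Finset.range h, ee h (-(r * m)) *
        ∑ r ∈ Finset.range h, tw t h r v (t^[m] x) z := by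
      funext z
      exact tw_eq_sum hh ht v x z r (Finset.mem_range.1 hr)
    rw [h2]
    have h3 : Tendsto (fun z => ∑ m ∈ Finset.range h, ee h (-(r * m)) *
        ∑ r ∈ Finset.range h, tw t h r v (t^[m] x) z) atImInfty (𝓝 0) :=
      tendsto_sum_zero _ _ fun m _ => by simpa using (h0 (t^[m] x)).const_mul (ee h (-(r * m)))
    simpa using h3.const_mul (h : ℂ)⁻¹
  have h4 : v x = fun z : ℍ => ∑ r ∈ Finset.range h, ee h (r * z) * tw t h r v x z := by
    funext z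
    exact eq_sum_tw hh v x z
  rw [h4]
  apply Asymptotics.IsBigO.fun_sum
  intro r hr
  have h5 := isBigO_of_periodic (hv.tw_holo r x) (tw_vadd hh ht r hv.equiv x) (h1 r hr)
  have h6 : (fun z : ℍ => ee h (r * z)) =O[atImInfty] fun _ : ℍ => (1 : ℝ) := by
    refine Asymptotics.IsBigO.of_bound 1 (Eventually.of_forall fun z => ?_)
    rw [norm_ee]
    simp only [norm_one, mul_one, Real.exp_le_one_iff]
    have h7 : ((r : ℂ) * z).im = r * z.im := by
      have : ((r : ℂ) * z) = ((r : ℝ) : ℂ) * z := by push_cast; rfl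
      rw [this, Complex.im_ofReal_mul, coe_im]
    rw [h7]
    have := z.im_pos
    have hpi := Real.pi_pos
    have hr0 : (0 : ℝ) ≤ r := Nat.cast_nonneg r
    have hh0 : (0 : ℝ) < h := by exact_mod_cast hh
    apply div_nonpos_of_nonpos_of_nonneg _ hh0.le
    have : 0 ≤ 2 * π * (r * z.im) := by positivity
    linarith
  simpa using h6.mul h5

end VV

/-! ### Components of modular forms as vector valued functions -/

section Comp

variable {Γ : Subgroup SL(2, ℤ)}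

/-- the action of `T⁻¹` on cosets -/
def tt (Γ : Subgroup SL(2, ℤ)) (x : SL(2, ℤ) ⧸ Γ) : SL(2, ℤ) ⧸ Γ := ModularGroup.T⁻¹ • x

lemma tt_iterate (n : ℕ) (x : SL(2, ℤ) ⧸ Γ) : (tt Γ)^[n] x = ModularGroup.T⁻¹ ^ n • x :=
  smul_iterate_apply _ _ _

lemma exists_period [Finite (SL(2, ℤ) ⧸ Γ)] : ∃ h : ℕ, 0 < h ∧ ∀ x, (tt Γ)^[h] x = x := by
  classical
  let σ := MulAction.toPermHom SL(2, ℤ) (SL(2, ℤ) ⧸ Γ) ModularGroup.T⁻¹
  refine ⟨orderOf σ, orderOf_pos σ, fun x => ?_⟩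
  rw [tt_iterate]
  have h1 : σ ^ orderOf σ = 1 := pow_orderOf_eq_one σ
  have h2 : (σ ^ orderOf σ) x = ModularGroup.T⁻¹ ^ orderOf σ • x := by
    rw [← map_pow]; rfl
  rw [← h2, h1]; rfl

lemma isVV_comp {k : ℤ} {f : ℍ → ℂ} (hf : IsMF Γ k f) : IsVV (tt Γ) (comp Γ k f) where
  holo := hf.comp_holo
  bdd := hf.comp_bdd
  equiv x z := by
    have h1 := comp_smul_apply hf.inv x ModularGroup.T z
    have h2 : denom (ModularGroup.T : SL(2, ℤ)) z = 1 := by
      simp [denom, ModularGroup.T]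
    rw [modular_T_smul, h2, one_zpow, one_mul] at h1
    exact h1

lemma comp_mul' {k l m : ℤ} (h : m = k + l) (f g : ℍ → ℂ) (x : SL(2, ℤ) ⧸ Γ) :
    comp Γ m (f * g) x = comp Γ k f x * comp Γ l g x := by
  subst h; exact comp_mul f g x

lemma comp_sum {ι : Type*} (s : Finset ι) (k : ℤ) (F : ι → ℍ → ℂ) (x : SL(2, ℤ) ⧸ Γ) :
    comp Γ k (∑ i ∈ s, F i) x = ∑ i ∈ s, comp Γ k (F i) x := by
  unfold comp
  exact SlashAction.sum_slash _ _

lemma comp_neg_one {k : ℤ} {f : ℍ → ℂ} (hf : ∀ γ ∈ Γ, f ∣[k] γ = f) (x : SL(2, ℤ) ⧸ Γ) (z : ℍ) :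
    comp Γ k f ((-1 : SL(2, ℤ)) • x) z = (-1) ^ k * comp Γ k f x z := by
  have h0 : ((-1 : SL(2, ℤ)))⁻¹ = -1 := by
    rw [inv_eq_iff_mul_eq_one]; simp
  have h := comp_smul_apply hf x (-1) z
  have h1 : ((-1 : SL(2, ℤ)) • z) = z := by simp
  have h2 : denom ((-1 : SL(2, ℤ)) : GL (Fin 2) ℝ) z = -1 := by simp [denom]
  rw [h1, h2, h0] at h
  rw [h, ← mul_assoc, ← mul_zpow]
  simp

end Comp

/-! ### The matrices `W = Q X`, and the limit `Λ` of `W` -/

lemma tw_sum_mul {𝒳 ι : Type*} (t : 𝒳 → 𝒳) (h r : ℕ) (S : Finset ι) (a : ι → ℍ → ℂ)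
    (v : ι → 𝒳 → ℍ → ℂ) (x : 𝒳) (z : ℍ) :
    tw t h r (fun x => ∑ j ∈ S, a j * v j x) x z = ∑ j ∈ S, a j z * tw t h r (v j) x z := by
  unfold tw
  simp only [Finset.sum_apply, Pi.mul_apply, Finset.mul_sum]
  rw [Finset.sum_comm]
  refine Finset.sum_congr rfl fun j _ => Finset.sum_congr rfl fun s _ => ?_
  ring

section Main

variable {Γ : Subgroup SL(2, ℤ)} [Fintype (SL(2, ℤ) ⧸ Γ)] [DecidableEq (SL(2, ℤ) ⧸ Γ)]

/-- `W(z) = Q(z) X(z)` -/
noncomputable def Wm (B : FreeBasis Γ) (h : ℕ) (z : ℍ) :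
    Matrix (SL(2, ℤ) ⧸ Γ) (SL(2, ℤ) ⧸ Γ) ℂ :=
  Matrix.of fun x j => ∑ r ∈ Finset.range h, tw (tt Γ) h r (comp Γ (B.wt j) (B.F j)) x z

/-- the matrix `Q(z)` -/
noncomputable def Qm (Γ : Subgroup SL(2, ℤ)) [DecidableEq (SL(2, ℤ) ⧸ Γ)] (h : ℕ) (z : ℍ) :
    Matrix (SL(2, ℤ) ⧸ Γ) (SL(2, ℤ) ⧸ Γ) ℂ :=
  Matrix.of fun x y => ∑ r ∈ Finset.range h, (h : ℂ)⁻¹ * ∑ s ∈ Finset.range h,
    ee h (-(r * ((z : ℂ) + s))) * (if (tt Γ)^[s] x = y then 1 else 0)

/-- the limit of `W` at `i∞` -/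
noncomputable def Lm (B : FreeBasis Γ) (h : ℕ) : Matrix (SL(2, ℤ) ⧸ Γ) (SL(2, ℤ) ⧸ Γ) ℂ :=
  Matrix.of fun x j => ∑ r ∈ Finset.range h,
    valueAtInfty (tw (tt Γ) h r (comp Γ (B.wt j) (B.F j)) x)

lemma Wm_eq (B : FreeBasis Γ) (h : ℕ) (z : ℍ) : Wm B h z = Qm Γ h z * B.mat z := by
  ext x j
  simp only [Wm, Qm, Matrix.mul_apply, Matrix.of_apply, FreeBasis.mat_apply, tw]
  simp only [Finset.sum_mul]
  rw [Finset.sum_comm]
  refine Finset.sum_congr rfl fun r _ => ?_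
  simp only [mul_assoc, ← Finset.mul_sum]
  congr 1
  simp only [Finset.sum_mul]
  rw [Finset.sum_comm]
  refine Finset.sum_congr rfl fun s _ => ?_
  simp only [mul_assoc, ← Finset.mul_sum]
  congr 1
  simp

lemma tendsto_Wm (B : FreeBasis Γ) {h : ℕ} (hh : 0 < h) (ht : ∀ x, (tt Γ)^[h] x = x)
    (x j : SL(2, ℤ) ⧸ Γ) : Tendsto (fun z => Wm B h z x j) atImInfty (𝓝 (Lm B h x j)) :=
  tendsto_finsetSum _ fun r hr =>
    (isVV_comp (B.mem j)).tw_tendsto hh ht r (Finset.mem_range.1 hr) x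

lemma discriminant_vadd (z : ℍ) : discriminant ((1 : ℝ) +ᵥ z) = discriminant z := by
  have h1 := (isVV_comp (Γ := ⊤) isCF_Delta.isMF).equiv ((1 : SL(2, ℤ)) : SL(2, ℤ) ⧸ (⊤ : Subgroup SL(2, ℤ))) z
  rwa [comp_of_top isCF_Delta.isMF, comp_of_top isCF_Delta.isMF] at h1

lemma tendsto_discriminant : Tendsto discriminant atImInfty (𝓝 0) := by
  have := isCF_Delta.zero 1
  rwa [SlashAction.slash_one] at this

lemma tendsto_discriminant_mul_ee {h : ℕ} (hh : 0 < h) (r : ℕ) (hr : r < h) (s : ℕ) :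
    Tendsto (fun z : ℍ => discriminant z * ee h (-(r * ((z : ℂ) + s)))) atImInfty (𝓝 0) := by
  have hh' : (h : ℂ) ≠ 0 := by exact_mod_cast hh.ne'
  have h1 : discriminant =O[atImInfty] fun z : ℍ => Real.exp (-2 * π * z.im) :=
    isBigO_of_periodic isCF_Delta.holo discriminant_vadd tendsto_discriminant
  have h2 : (fun z : ℍ => Real.exp (-2 * π * z.im)) =O[atImInfty] fun z : ℍ => ee 1 z := by
    refine Asymptotics.IsBigO.of_bound 1 (Eventually.of_forall fun z => ?_)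
    rw [norm_ee]; simp
  have h3 : (fun z : ℍ => discriminant z * ee h (-(r * ((z : ℂ) + s)))) =O[atImInfty]
      fun z : ℍ => ee 1 z * ee h (-(r * ((z : ℂ) + s))) :=
    (h1.trans h2).mul (Asymptotics.isBigO_refl _ _)
  refine h3.trans_tendsto ?_
  have h4 : (fun z : ℍ => ee 1 z * ee h (-(r * ((z : ℂ) + s))))
      = fun z : ℍ => ee h (((h - r : ℕ) : ℝ) * z) * ee h (-(r * s)) := by
    funext z
    have h3 : ee 1 z = ee h (h * z) := by
      unfold ee; congr 1; field_simp; simp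
    rw [h3, ← ee_add, ← ee_add]
    congr 1
    rw [Nat.cast_sub hr.le]
    push_cast
    ring
  rw [h4]
  simpa using (tendsto_ee_mul h hh ((h - r : ℕ) : ℝ)
    (by exact_mod_cast Nat.sub_pos_of_lt hr)).mul_const (ee h (-(r * s)))

omit [Fintype (SL(2, ℤ) ⧸ Γ)] in
lemma tendsto_Qm {h : ℕ} (hh : 0 < h) (x y : SL(2, ℤ) ⧸ Γ) :
    Tendsto (fun z => discriminant z * Qm Γ h z x y) atImInfty (𝓝 0) := by
  simp only [Qm, Matrix.of_apply, Finset.mul_sum]
  refine tendsto_sum_zero _ _ fun r hr => tendsto_sum_zero _ _ fun s _ => ?_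
  have h1 := (tendsto_discriminant_mul_ee hh r (Finset.mem_range.1 hr) s).mul_const
    ((h : ℂ)⁻¹ * (if (tt Γ)^[s] x = y then 1 else 0))
  rw [zero_mul] at h1
  refine h1.congr fun z => ?_
  ring

/-- The key step: saturation of the free basis at `i∞`. -/
lemma key (B : FreeBasis Γ) {h : ℕ} (hh : 0 < h) (ht : ∀ x, (tt Γ)^[h] x = x) (K : ℤ)
    (a : SL(2, ℤ) ⧸ Γ → ℍ → ℂ) (ha : ∀ j, IsMF ⊤ (K - B.wt j) (a j)) (c : SL(2, ℤ) ⧸ Γ → ℂ)
    (hac : ∀ j, Tendsto (a j) atImInfty (𝓝 (c j))) (hc : ∀ x, ∑ j, Lm B h x j * c j = 0) :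
    c = 0 := by
  set H : ℍ → ℂ := ∑ j, a j * B.F j with hHdef
  have hH : IsMF Γ K H :=
    IsMF.sum _ fun j _ => ((ha j).of_top.mul (B.mem j)).congr_wt (by ring)
  have hcomp : comp Γ K H = fun x => ∑ j, a j * comp Γ (B.wt j) (B.F j) x := by
    funext x
    rw [hHdef, comp_sum]
    refine Finset.sum_congr rfl fun j _ => ?_
    rw [comp_mul' (by ring : K = (K - B.wt j) + B.wt j), comp_of_top (ha j)]
  have h0 : ∀ x, Tendsto (fun z => ∑ r ∈ Finset.range h, tw (tt Γ) h r (comp Γ K H) x z)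
      atImInfty (𝓝 0) := by
    intro x
    have h1 : (fun z => ∑ r ∈ Finset.range h, tw (tt Γ) h r (comp Γ K H) x z)
        = fun z => ∑ j, a j z * Wm B h z x j := by
      funext z
      rw [hcomp]
      simp_rw [tw_sum_mul]
      rw [Finset.sum_comm]
      simp [Wm, Finset.mul_sum]
    rw [h1, ← hc x]
    refine tendsto_finsetSum _ fun j _ => ?_
    rw [mul_comm (Lm B h x j)]
    exact (hac j).mul (tendsto_Wm B hh ht x j)
  have hO := fun x => (isVV_comp hH).isBigO hh ht h0 x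
  have hdiv : IsMF Γ (K - 12) (fun z => H z / discriminant z) :=
    isMF_div_discriminant hH (fun g => by
      have := hO ((g⁻¹ : SL(2, ℤ)) : SL(2, ℤ) ⧸ Γ)
      rwa [comp_mk hH.inv, inv_inv] at this)
  obtain ⟨b, hb, hHb⟩ := B.span (K - 12) _ hdiv
  have hzero : ∑ j, (a j - discriminant * b j) * B.F j = 0 := by
    have h1 : ∑ j, (a j - discriminant * b j) * B.F j = H - discriminant * ∑ j, b j * B.F j := by
      rw [hHdef, Finset.mul_sum, ← Finset.sum_sub_distrib]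
      refine Finset.sum_congr rfl fun j _ => ?_
      ring
    rw [h1, ← hHb]
    funext z
    have := discriminant_ne_zero z
    simp only [Pi.sub_apply, Pi.mul_apply, Pi.zero_apply]
    field_simp
    ring
  have hind := B.indep K (fun j => a j - discriminant * b j)
    (fun j => (ha j).sub ((isCF_Delta.isMF.mul (hb j)).congr_wt (by ring))) hzero
  funext j
  have h1 : a j = discriminant * b j := sub_eq_zero.1 (hind j)
  have h2 : Tendsto (discriminant * b j) atImInfty (𝓝 0) := by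
    have h3 := (hb j).bdd 1
    rw [SlashAction.slash_one] at h3
    exact tendsto_discriminant.zero_mul_isBoundedUnder_le h3.isBoundedUnder_le
  exact tendsto_nhds_unique (hac j) (h1 ▸ h2)

omit [Fintype (SL(2, ℤ) ⧸ Γ)] [DecidableEq (SL(2, ℤ) ⧸ Γ)] in
lemma tt_iterate_neg_one (n : ℕ) (x : SL(2, ℤ) ⧸ Γ) :
    (tt Γ)^[n] ((-1 : SL(2, ℤ)) • x) = (-1 : SL(2, ℤ)) • (tt Γ)^[n] x := by
  rw [tt_iterate, tt_iterate, smul_smul, smul_smul]
  simp

lemma Wm_neg_one (B : FreeBasis Γ) (h : ℕ) (z : ℍ) (x j : SL(2, ℤ) ⧸ Γ) :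
    Wm B h z ((-1 : SL(2, ℤ)) • x) j = (-1) ^ (B.wt j) * Wm B h z x j := by
  simp only [Wm, Matrix.of_apply, tw, Finset.mul_sum]
  refine Finset.sum_congr rfl fun r _ => Finset.sum_congr rfl fun s _ => ?_
  rw [tt_iterate_neg_one, comp_neg_one (B.mem j).inv]
  ring

lemma Lm_neg_one (B : FreeBasis Γ) {h : ℕ} (hh : 0 < h) (ht : ∀ x, (tt Γ)^[h] x = x)
    (x j : SL(2, ℤ) ⧸ Γ) :
    Lm B h ((-1 : SL(2, ℤ)) • x) j = (-1) ^ (B.wt j) * Lm B h x j := by
  have h1 := tendsto_Wm B hh ht ((-1 : SL(2, ℤ)) • x) j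
  simp_rw [Wm_neg_one] at h1
  exact tendsto_nhds_unique h1 ((tendsto_Wm B hh ht x j).const_mul _)

lemma key2 (B : FreeBasis Γ) {h : ℕ} (hh : 0 < h) (ht : ∀ x, (tt Γ)^[h] x = x) (K : ℤ)
    (hK : ∀ j, 4 ≤ K - B.wt j) (c : SL(2, ℤ) ⧸ Γ → ℂ) (hc : ∀ x, ∑ j, Lm B h x j * c j = 0)
    (j : SL(2, ℤ) ⧸ Γ) (hj : Even (K - B.wt j)) : c j = 0 := by
  classical
  have hex : ∀ j, ∃ e : ℍ → ℂ, IsMF ⊤ (K - B.wt j) e ∧
      (Even (K - B.wt j) → Tendsto e atImInfty (𝓝 1)) := by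
    intro j
    by_cases hj : Even (K - B.wt j)
    · obtain ⟨e, he, he'⟩ := exists_isMF_top_tendsto_one hj (Or.inr (hK j))
      exact ⟨e, he, fun _ => he'⟩
    · exact ⟨0, isMF_zero, fun h => absurd h hj⟩
  choose e he he' using hex
  set c' : SL(2, ℤ) ⧸ Γ → ℂ := fun j => if Even (K - B.wt j) then c j else 0 with hc'def
  have hac : ∀ j, Tendsto (c' j • e j) atImInfty (𝓝 (c' j)) := by
    intro j
    by_cases hj : Even (K - B.wt j)
    · have h1 := (he' j hj).const_smul (c' j)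
      rw [smul_eq_mul, mul_one] at h1
      exact h1
    · have : c' j = 0 := by simp [hc'def, hj]
      rw [this, zero_smul]
      exact tendsto_const_nhds
  have hc' : ∀ x, ∑ j, Lm B h x j * c' j = 0 := by
    intro x
    have h1 : ∀ j, Lm B h x j * c' j = 2⁻¹ * (Lm B h x j * c j
        + (-1) ^ K * (Lm B h ((-1 : SL(2, ℤ)) • x) j * c j)) := by
      intro j
      rw [Lm_neg_one B hh ht]
      have h2 : ((-1 : ℂ)) ^ K * ((-1) ^ (B.wt j) * Lm B h x j * c j)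
          = (-1) ^ (K + B.wt j) * (Lm B h x j * c j) := by
        rw [zpow_add₀ (by norm_num : (-1 : ℂ) ≠ 0)]; ring
      rw [h2]
      by_cases hj : Even (K - B.wt j)
      · have h3 : Even (K + B.wt j) := by
          rw [Int.even_add]; rwa [Int.even_sub] at hj
        rw [h3.neg_one_zpow]
        simp only [hc'def, hj, if_true]
        ring
      · have h3 : Odd (K + B.wt j) := by
          rw [← Int.not_even_iff_odd, Int.even_add]; rwa [Int.even_sub] at hj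
        rw [h3.neg_one_zpow]
        simp only [hc'def, hj, if_false]
        ring
    simp_rw [h1]
    rw [← Finset.mul_sum, Finset.sum_add_distrib, ← Finset.mul_sum, hc x, hc]
    simp
  have := key B hh ht K (fun j => c' j • e j) (fun j => (he j).smul _) c' hac hc'
  have h2 := congrFun this j
  simpa [hc'def, hj] using h2

lemma det_Lm_ne_zero (B : FreeBasis Γ) {h : ℕ} (hh : 0 < h) (ht : ∀ x, (tt Γ)^[h] x = x) :
    (Lm B h).det ≠ 0 := by
  intro hdet
  obtain ⟨c, hc0, hc⟩ := Matrix.exists_mulVec_eq_zero_iff.2 hdet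
  apply hc0
  have hc' : ∀ x, ∑ j, Lm B h x j * c j = 0 := fun x => by
    have := congrFun hc x
    simpa [Matrix.mulVec, dotProduct] using this
  set K0 : ℤ := 4 + ∑ j, |B.wt j| with hK0
  have hle : ∀ j, B.wt j ≤ ∑ j, |B.wt j| := fun j =>
    (le_abs_self _).trans (Finset.single_le_sum (f := fun j => |B.wt j|)
      (fun i _ => abs_nonneg _) (Finset.mem_univ j))
  funext j
  rcases Int.even_or_odd (K0 - B.wt j) with hj | hj
  · exact key2 B hh ht K0 (fun j => by have := hle j; omega) c hc' j hj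
  · refine key2 B hh ht (K0 + 1) (fun j => by have := hle j; omega) c hc' j ?_
    have : K0 + 1 - B.wt j = (K0 - B.wt j) + 1 := by ring
    rw [this]
    exact hj.add_one

end Main

end PartC

set_option linter.unusedVariables false in
open PartC in
theorem FreeBasis.tendsto_discriminant_mul_inv {Γ : Subgroup SL(2, ℤ)} [Γ.FiniteIndex]
    [Fintype (SL(2, ℤ) ⧸ Γ)] [DecidableEq (SL(2, ℤ) ⧸ Γ)] (B : FreeBasis Γ)
    (hdet : ∀ z, (B.mat z).det ≠ 0) (j x : SL(2, ℤ) ⧸ Γ) :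
    Tendsto (fun z : ℍ => discriminant z * (B.mat z)⁻¹ j x) atImInfty (𝓝 0) := by
  obtain ⟨h, hh, ht⟩ := exists_period (Γ := Γ)
  have hL : (Lm B h).det ≠ 0 := det_Lm_ne_zero B hh ht
  have hW : Tendsto (fun z => Wm B h z) atImInfty (𝓝 (Lm B h)) :=
    tendsto_pi_nhds.2 fun x => tendsto_pi_nhds.2 fun j => tendsto_Wm B hh ht x j
  have hdetW : Tendsto (fun z => (Wm B h z).det) atImInfty (𝓝 (Lm B h).det) :=
    ((Continuous.matrix_det continuous_id).tendsto (Lm B h)).comp hW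
  have hadjW : Tendsto (fun z => (Wm B h z).adjugate) atImInfty (𝓝 (Lm B h).adjugate) :=
    ((Continuous.matrix_adjugate continuous_id).tendsto (Lm B h)).comp hW
  have hinv : Tendsto (fun z => (Wm B h z)⁻¹) atImInfty (𝓝 (Lm B h)⁻¹) := by
    simp only [Matrix.inv_def, Ring.inverse_eq_inv']
    exact (hdetW.inv₀ hL).smul hadjW
  have hinv' : ∀ y, Tendsto (fun z => (Wm B h z)⁻¹ j y) atImInfty (𝓝 ((Lm B h)⁻¹ j y)) :=
    fun y => tendsto_pi_nhds.1 (tendsto_pi_nhds.1 hinv j) y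
  have hev : ∀ᶠ z in atImInfty, (Wm B h z).det ≠ 0 := hdetW.eventually_ne hL
  have heq : ∀ᶠ z in atImInfty, ∑ y, (Wm B h z)⁻¹ j y * (discriminant z * Qm Γ h z y x)
      = discriminant z * (B.mat z)⁻¹ j x := by
    filter_upwards [hev] with z hz
    have h1 : (B.mat z)⁻¹ = (Wm B h z)⁻¹ * Qm Γ h z := by
      apply Matrix.inv_eq_left_inv
      rw [Matrix.mul_assoc, ← Wm_eq]
      exact Matrix.nonsing_inv_mul _ (isUnit_iff_ne_zero.2 hz)
    rw [h1, Matrix.mul_apply, Finset.mul_sum]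
    refine Finset.sum_congr rfl fun y _ => ?_
    ring
  refine Tendsto.congr' heq ?_
  refine tendsto_sum_zero _ _ fun y _ => ?_
  simpa using (hinv' y).mul (tendsto_Qm hh y x)

end Fermat.Agent.S21
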