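import Fermat.Agent.S21.Defs

set_option autoImplicit false

/-!
# S21, Part D : the dual basis consists of cusp forms
-/

namespace Fermat.Agent.S21

open UpperHalfPlane ModularForm Filter CongruenceSubgroup
open scoped MatrixGroups Manifold Topology

namespace PartD

variable {Γ : Subgroup SL(2, ℤ)} [Fintype (SL(2, ℤ) ⧸ Γ)] [DecidableEq (SL(2, ℤ) ⧸ Γ)]

/-- transformation law of the fundamental matrix -/
theorem mat_smul (B : FreeBasis Γ) (g : SL(2, ℤ)) (z : ℍ) (x j : SL(2, ℤ) ⧸ Γ) :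
    B.mat (g • z) x j = denom g z ^ B.wt j * B.mat z (g⁻¹ • x) j := by
  rw [FreeBasis.mat_apply, FreeBasis.mat_apply, comp_smul_apply (B.mem j).inv]

/-- transformation law of the inverse of the fundamental matrix -/
theorem inv_mat_smul (B : FreeBasis Γ) (hdet : ∀ z, (B.mat z).det ≠ 0) (g : SL(2, ℤ)) (z : ℍ)
    (j x : SL(2, ℤ) ⧸ Γ) :
    (B.mat (g • z))⁻¹ j x = denom g z ^ (-B.wt j) * (B.mat z)⁻¹ j (g⁻¹ • x) := by
  have hd : denom g z ≠ 0 := denom_ne_zero g z
  have key : (Matrix.of fun j x => denom g z ^ (-B.wt j) * (B.mat z)⁻¹ j (g⁻¹ • x)) *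
      B.mat (g • z) = 1 := by
    ext j l
    rw [Matrix.mul_apply]
    simp only [Matrix.of_apply, mat_smul]
    have h1 : ∀ x, denom g z ^ (-B.wt j) * (B.mat z)⁻¹ j (g⁻¹ • x) *
        (denom g z ^ B.wt l * B.mat z (g⁻¹ • x) l) =
        denom g z ^ (-B.wt j) * denom g z ^ B.wt l *
          ((B.mat z)⁻¹ j (g⁻¹ • x) * B.mat z (g⁻¹ • x) l) := fun x => by ring
    simp only [h1]
    rw [← Finset.mul_sum]
    have h2 : ∑ x, (B.mat z)⁻¹ j (g⁻¹ • x) * B.mat z (g⁻¹ • x) l =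
        ∑ y, (B.mat z)⁻¹ j y * B.mat z y l :=
      Equiv.sum_comp (MulAction.toPerm g⁻¹) (fun y => (B.mat z)⁻¹ j y * B.mat z y l)
    rw [h2, ← Matrix.mul_apply, Matrix.nonsing_inv_mul _ (Ne.isUnit (hdet z))]
    by_cases hjl : j = l
    · subst hjl
      rw [Matrix.one_apply_eq, mul_one, ← zpow_add₀ hd]
      simp
    · rw [Matrix.one_apply_ne hjl, mul_zero]
  rw [Matrix.inv_eq_left_inv key, Matrix.of_apply]

/-- the determinant of a matrix of holomorphic functions is holomorphic -/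
theorem mdiff_det {n : Type} [Fintype n] [DecidableEq n] (A : ℍ → Matrix n n ℂ)
    (hA : ∀ i j, MDiff (fun z => A z i j)) : MDiff (fun z => (A z).det) := by
  have : (fun z => (A z).det) = ∑ σ : Equiv.Perm n,
      (((Equiv.Perm.sign σ : ℤ) : ℂ)) • ∏ i, fun z => A z (σ i) i := by
    ext z
    rw [Matrix.det_apply]
    simp only [Finset.sum_apply, Pi.smul_apply, Finset.prod_apply, smul_eq_mul]
    refine Finset.sum_congr rfl fun σ _ => ?_
    rw [Units.smul_def, zsmul_eq_mul]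
  rw [this]
  apply MDifferentiable.sum
  intro σ _
  have h1 : MDiff (∏ i, fun z => A z (σ i) i) := MDifferentiable.prod fun i _ => hA (σ i) i
  exact h1.const_smul _

/-- entries of the inverse of an invertible matrix of holomorphic functions are holomorphic -/
theorem mdiff_inv {n : Type} [Fintype n] [DecidableEq n] (A : ℍ → Matrix n n ℂ)
    (hA : ∀ i j, MDiff (fun z => A z i j)) (hdet : ∀ z, (A z).det ≠ 0) (i j : n) :
    MDiff (fun z => (A z)⁻¹ i j) := by
  have : (fun z => (A z)⁻¹ i j) =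
      (fun z => ((A z).det)⁻¹) * fun z => ((A z).updateRow j (Pi.single i 1)).det := by
    ext z
    rw [Matrix.inv_def, Ring.inverse_eq_inv', Matrix.smul_apply, Matrix.adjugate_apply]
    rfl
  rw [this]
  refine ((mdiff_det A hA).inv hdet).mul (mdiff_det _ fun a b => ?_)
  by_cases h : a = j
  · subst h
    simp only [Matrix.updateRow_self]
    exact mdifferentiable_const
  · simp only [Matrix.updateRow_ne h]
    exact hA a b

theorem discriminant_smul (g : SL(2, ℤ)) (z : ℍ) :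
    discriminant (g • z) = discriminant z * denom g z ^ (12 : ℤ) := by
  have h := congrFun (isCF_Delta.inv g trivial) z
  rw [SL_slash_apply] at h
  have hd : denom g z ≠ 0 := denom_ne_zero g z
  rw [← h, mul_assoc, ← zpow_add₀ hd]
  simp

/-- slash action on `Δ · (X⁻¹)_{j,x}` -/
theorem slash_dualAt (B : FreeBasis Γ) (hdet : ∀ z, (B.mat z).det ≠ 0) (g : SL(2, ℤ))
    (j x : SL(2, ℤ) ⧸ Γ) :
    (fun z : ℍ => discriminant z * (B.mat z)⁻¹ j x) ∣[12 - B.wt j] g =
      fun z : ℍ => discriminant z * (B.mat z)⁻¹ j (g⁻¹ • x) := by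
  ext z
  have hd : denom g z ≠ 0 := denom_ne_zero g z
  rw [SL_slash_apply, discriminant_smul, inv_mat_smul B hdet]
  have : denom g z ^ (12 : ℤ) * denom g z ^ (-B.wt j) * denom g z ^ (-(12 - B.wt j)) = 1 := by
    rw [← zpow_add₀ hd, ← zpow_add₀ hd]
    have : (12 : ℤ) + -B.wt j + -(12 - B.wt j) = 0 := by ring
    rw [this, zpow_zero]
  linear_combination (discriminant z * (B.mat z)⁻¹ j (g⁻¹ • x)) * this

/-- a Laurent polynomial with infinitely many nonzero roots vanishes at all nonzero points -/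
theorem laurent_vanish {ι : Type*} [Fintype ι] (a : ι → ℂ) (k : ι → ℤ)
    (hinf : Set.Infinite {t : ℂ | t ≠ 0 ∧ ∑ j, a j * t ^ (-k j) = 0}) (t : ℂ) (ht : t ≠ 0) :
    ∑ j, a j * t ^ (-k j) = 0 := by
  classical
  set K : ℤ := ∑ j, |k j| with hK
  have hle : ∀ j, 0 ≤ K - k j := by
    intro j
    have h1 : |k j| ≤ K := Finset.single_le_sum (fun i _ => abs_nonneg (k i)) (Finset.mem_univ j)
    have h2 : k j ≤ |k j| := le_abs_self _
    omega
  let p : Polynomial ℂ := ∑ j, Polynomial.C (a j) * Polynomial.X ^ ((K - k j).toNat)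
  have heval : ∀ s : ℂ, s ≠ 0 → p.eval s = s ^ K * ∑ j, a j * s ^ (-k j) := by
    intro s hs
    simp only [p, Polynomial.eval_finsetSum, Polynomial.eval_mul, Polynomial.eval_C,
      Polynomial.eval_pow, Polynomial.eval_X]
    rw [Finset.mul_sum]
    refine Finset.sum_congr rfl fun j _ => ?_
    rw [← zpow_natCast, Int.toNat_of_nonneg (hle j), sub_eq_add_neg, zpow_add₀ hs]
    ring
  have hp : p = 0 := by
    apply Polynomial.eq_zero_of_infinite_isRoot
    refine hinf.mono ?_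
    rintro s ⟨hs, hs'⟩
    show p.eval s = 0
    rw [heval s hs, hs', mul_zero]
  have h1 := heval t ht
  rw [hp, Polynomial.eval_zero] at h1
  exact (mul_eq_zero.mp h1.symm).resolve_left (zpow_ne_zero _ ht)

/-- the lower unipotent matrix -/
def Lmat : SL(2, ℤ) := ⟨!![1, 0; 1, 1], by simp [Matrix.det_fin_two_of]⟩

theorem coe_Lmat_pow (n : ℕ) :
    ((Lmat ^ n : SL(2, ℤ)) : Matrix (Fin 2) (Fin 2) ℤ) = !![1, 0; (n : ℤ), 1] := by
  induction n with
  | zero =>
    ext i j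
    fin_cases i <;> fin_cases j <;> simp
  | succ n ih =>
    rw [pow_succ, Matrix.SpecialLinearGroup.coe_mul, ih]
    simp [Lmat]

theorem denom_Lmat_pow (n : ℕ) (w : ℍ) : denom (Lmat ^ n : SL(2, ℤ)) w = (n : ℂ) * w + 1 := by
  rw [ModularGroup.denom_apply, coe_Lmat_pow]
  simp

end PartD

section

variable {Γ : Subgroup SL(2, ℤ)} [Γ.FiniteIndex] [Fintype (SL(2, ℤ) ⧸ Γ)]
  [DecidableEq (SL(2, ℤ) ⧸ Γ)]

/-- `ψ_j = Δ · (X⁻¹)_{j, x₀}` -/
noncomputable def FreeBasis.dual (B : FreeBasis Γ) (j : SL(2, ℤ) ⧸ Γ) : ℍ → ℂ :=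
  fun z => discriminant z * (B.mat z)⁻¹ j ((1 : SL(2, ℤ)) : SL(2, ℤ) ⧸ Γ)

theorem FreeBasis.isCF_dual (B : FreeBasis Γ) (hdet : ∀ z, (B.mat z).det ≠ 0)
    (hC : ∀ j x, Tendsto (fun z : ℍ => discriminant z * (B.mat z)⁻¹ j x) atImInfty (𝓝 0))
    (j : SL(2, ℤ) ⧸ Γ) : IsCF Γ (12 - B.wt j) (B.dual j) := by
  refine ⟨?_, ?_, ?_⟩
  · exact isCF_Delta.holo.mul
      (PartD.mdiff_inv B.mat (fun x l => (B.mem l).comp_holo x) hdet j _)
  · intro γ hγ
    unfold FreeBasis.dual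
    rw [PartD.slash_dualAt B hdet]
    have : γ⁻¹ • ((1 : SL(2, ℤ)) : SL(2, ℤ) ⧸ Γ) = ((1 : SL(2, ℤ)) : SL(2, ℤ) ⧸ Γ) := by
      rw [MulAction.Quotient.smul_mk, QuotientGroup.eq]
      simpa using hγ
    rw [this]
  · intro g
    unfold FreeBasis.dual
    rw [PartD.slash_dualAt B hdet]
    exact hC j _

theorem FreeBasis.linearIndependent_dual (B : FreeBasis Γ) (hdet : ∀ z, (B.mat z).det ≠ 0) :
    LinearIndependent ℂ B.dual := by
  rw [Fintype.linearIndependent_iff]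
  intro c hc
  set x₀ : SL(2, ℤ) ⧸ Γ := ((1 : SL(2, ℤ)) : SL(2, ℤ) ⧸ Γ) with hx₀
  -- the relation at every point
  have h0 : ∀ w : ℍ, ∑ j, c j * (B.mat w)⁻¹ j x₀ = 0 := by
    intro w
    have h1 := congrFun hc w
    simp only [Finset.sum_apply, Pi.smul_apply, smul_eq_mul, Pi.zero_apply, FreeBasis.dual] at h1
    have h2 : discriminant w * ∑ j, c j * (B.mat w)⁻¹ j x₀ = 0 := by
      rw [Finset.mul_sum, ← h1]
      exact Finset.sum_congr rfl fun j _ => by ring
    exact (mul_eq_zero.mp h2).resolve_left (discriminant_ne_zero w)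
  -- a unipotent element in `Γ`
  obtain ⟨h, hpos, -, hmem⟩ :=
    Subgroup.exists_pow_mem_of_index_ne_zero (Subgroup.FiniteIndex.index_ne_zero (H := Γ))
      PartD.Lmat
  -- separation of weights
  have h1 : ∀ (w : ℍ) (t : ℂ), t ≠ 0 → ∑ j, (c j * (B.mat w)⁻¹ j x₀) * t ^ (-B.wt j) = 0 := by
    intro w
    apply PartD.laurent_vanish
    have hinj : Function.Injective (fun m : ℕ => ((h * m : ℕ) : ℂ) * (w : ℂ) + 1) := by
      intro m m' hmm
      simp only [add_left_inj] at hmm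
      have h2 := mul_right_cancel₀ (UpperHalfPlane.ne_zero w) hmm
      have h3 : h * m = h * m' := by exact_mod_cast h2
      exact Nat.eq_of_mul_eq_mul_left hpos h3
    refine (Set.infinite_range_of_injective hinj).mono ?_
    rintro _ ⟨m, rfl⟩
    have hγ : (PartD.Lmat ^ (h * m) : SL(2, ℤ)) ∈ Γ := by
      rw [pow_mul]; exact Γ.pow_mem hmem m
    have hden := PartD.denom_Lmat_pow (h * m) w
    simp only
    rw [← hden]
    refine ⟨denom_ne_zero _ w, ?_⟩
    have h2 := h0 ((PartD.Lmat ^ (h * m) : SL(2, ℤ)) • w)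
    have h3 : (PartD.Lmat ^ (h * m) : SL(2, ℤ))⁻¹ • x₀ = x₀ := by
      rw [hx₀, MulAction.Quotient.smul_mk, QuotientGroup.eq]
      simpa using hγ
    rw [← h2]
    refine Finset.sum_congr rfl fun j _ => ?_
    rw [PartD.inv_mat_smul B hdet, h3]
    ring
  -- the relation for all cosets
  have h2 : ∀ (z : ℍ) (x : SL(2, ℤ) ⧸ Γ), ∑ j, c j * (B.mat z)⁻¹ j x = 0 := by
    intro z x
    induction x using QuotientGroup.induction_on with
    | H a =>
      have hd : denom (a⁻¹ : SL(2, ℤ)) z ≠ 0 := denom_ne_zero _ z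
      have h3 := h1 ((a⁻¹ : SL(2, ℤ)) • z) (denom (a⁻¹ : SL(2, ℤ)) z)⁻¹ (inv_ne_zero hd)
      rw [← h3]
      refine Finset.sum_congr rfl fun j _ => ?_
      rw [PartD.inv_mat_smul B hdet, inv_inv, hx₀, MulAction.Quotient.smul_mk, smul_eq_mul, mul_one,
        inv_zpow, ← zpow_neg, neg_neg, mul_assoc, mul_assoc, mul_comm ((B.mat z)⁻¹ j _),
        ← mul_assoc (denom _ z ^ _), ← zpow_add₀ hd]
      simp
  intro j
  have h3 : Matrix.vecMul c (B.mat I)⁻¹ = 0 := by
    ext x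
    exact h2 I x
  have h4 : Matrix.vecMul (Matrix.vecMul c (B.mat I)⁻¹) (B.mat I) = c := by
    rw [Matrix.vecMul_vecMul, Matrix.nonsing_inv_mul _ (Ne.isUnit (hdet I)), Matrix.vecMul_one]
  rw [h3, Matrix.zero_vecMul] at h4
  rw [← h4]; rfl

end

end Fermat.Agent.S21
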