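import Fermat.Agent.S21.PartD

set_option autoImplicit false

/-!
# S21, Part E : eigenvalue count at the elliptic points `i` and `ρ`
-/

namespace Fermat.Agent.S21

open UpperHalfPlane ModularForm Filter CongruenceSubgroup
open scoped MatrixGroups Manifold Topology

namespace PartE

/-- counting lemma: a basis adapted to two disjoint subspaces -/
theorem card_filter_eq_finrank {X : Type*} [Fintype X]
    {V : Type*} [AddCommGroup V] [Module ℂ V] [FiniteDimensional ℂ V]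
    (hV : Module.finrank ℂ V = Fintype.card X)
    (v : X → V) (hv : LinearIndependent ℂ v) (A J : Submodule ℂ V) (hAJ : Disjoint A J)
    (p : X → Prop) [DecidablePred p] (hA : ∀ j, p j → v j ∈ A) (hJ : ∀ j, ¬ p j → v j ∈ J) :
    (Finset.univ.filter p).card = Module.finrank ℂ A := by
  have key : ∀ (q : X → Prop) [DecidablePred q] (W : Submodule ℂ V), (∀ j, q j → v j ∈ W) →
      (Finset.univ.filter q).card ≤ Module.finrank ℂ W := by
    intro q _ W hW
    rw [← Fintype.card_subtype]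
    let w : {j // q j} → W := fun j => ⟨v j.1, hW j.1 j.2⟩
    have hw : LinearIndependent ℂ w := by
      apply LinearIndependent.of_comp W.subtype
      exact hv.comp _ Subtype.val_injective
    exact hw.fintype_card_le_finrank
  have h1 := key p A hA
  have h2 := key (fun j => ¬ p j) J hJ
  have h3 := Submodule.finrank_add_finrank_le_of_disjoint hAJ
  have h4 := Finset.card_filter_add_card_filter_not (s := (Finset.univ : Finset X)) p
  rw [Finset.card_univ] at h4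
  omega

variable {Γ : Subgroup SL(2, ℤ)} [Fintype (SL(2, ℤ) ⧸ Γ)] [DecidableEq (SL(2, ℤ) ⧸ Γ)]

theorem linearIndependent_col (B : FreeBasis Γ) (hdet : ∀ z, (B.mat z).det ≠ 0) (z : ℍ) :
    LinearIndependent ℂ (fun j : SL(2, ℤ) ⧸ Γ => fun x => B.mat z x j) := by
  have h := (Matrix.linearIndependent_cols_iff_isUnit (A := B.mat z)).mpr
    ((Matrix.isUnit_iff_isUnit_det _).mpr (Ne.isUnit (hdet z)))
  exact h

/-- eigenvector property of the columns at a fixed point -/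
theorem col_smul (B : FreeBasis Γ) (g : SL(2, ℤ)) (z : ℍ) (hz : g • z = z)
    (x j : SL(2, ℤ) ⧸ Γ) : B.mat z (g • x) j = denom g z ^ B.wt j * B.mat z x j := by
  have h := PartD.mat_smul B g z (g • x) j
  rwa [hz, inv_smul_smul] at h

omit [Fintype (SL(2, ℤ) ⧸ Γ)] [DecidableEq (SL(2, ℤ) ⧸ Γ)] in
theorem neg_one_smul_coset (hneg : -1 ∈ Γ) (x : SL(2, ℤ) ⧸ Γ) : (-1 : SL(2, ℤ)) • x = x := by
  induction x using QuotientGroup.induction_on with
  | H a =>
    rw [MulAction.Quotient.smul_mk, QuotientGroup.eq]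
    have : ((-1 : SL(2, ℤ)) • a)⁻¹ * a = -1 := by
      rw [smul_eq_mul, mul_inv_rev, mul_assoc]
      have h1 : (-1 : SL(2, ℤ))⁻¹ * a = a * (-1) := by
        have : (-1 : SL(2, ℤ))⁻¹ = -1 := by
          rw [inv_eq_iff_mul_eq_one]; simp
        rw [this]; simp
      rw [h1, ← mul_assoc, inv_mul_cancel, one_mul]
    rw [this]; exact hneg

theorem wt_even (B : FreeBasis Γ) (hneg : -1 ∈ Γ) (hdet : ∀ z, (B.mat z).det ≠ 0)
    (j : SL(2, ℤ) ⧸ Γ) : Even (B.wt j) := by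
  by_contra hodd
  rw [Int.not_even_iff_odd] at hodd
  apply hdet I
  apply Matrix.det_eq_zero_of_column_eq_zero j
  intro x
  have h := col_smul B (-1) I (by simp) x j
  rw [neg_one_smul_coset hneg] at h
  have hd : denom (-1 : SL(2, ℤ)) I = -1 := by
    rw [ModularGroup.denom_apply]; simp
  rw [hd, hodd.neg_one_zpow] at h
  linear_combination (1 / 2 : ℂ) * h

theorem S_smul_I : ModularGroup.S • I = I := by
  rw [UpperHalfPlane.ext_iff, modular_S_smul, coe_mk]
  simp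

theorem Umat_smul_ρ : Umat • ρ = ρ := by
  unfold Umat
  rw [mul_smul, ← ModularGroup.SL_neg_smul ModularGroup.S, ← ModularGroup.S_inv, inv_smul_eq_iff, eq_comm,
    UpperHalfPlane.ext_iff, modular_S_smul, modular_T_smul, UpperHalfPlane.coe_mk, coe_vadd,
    ← mul_one (_ : ℂ)⁻¹, inv_mul_eq_iff_eq_mul₀ (neg_ne_zero.mpr ρ.ne_zero)]
  grind [ρ_sq, Complex.ofReal_one]

theorem denom_Umat_ρ : denom Umat ρ = (ρ : ℂ) + 1 := by
  rw [ModularGroup.denom_apply]
  simp [Umat, ModularGroup.coe_S, ModularGroup.coe_T]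

theorem I_zpow_of_mod_four_eq_two {k : ℤ} (hk : k % 4 = 2) : (Complex.I : ℂ) ^ k = -1 := by
  have h : k = 4 * (k / 4) + 2 := by omega
  rw [h, zpow_add₀ Complex.I_ne_zero, zpow_mul]
  have h4 : (Complex.I : ℂ) ^ (4 : ℤ) = 1 := by
    have : (Complex.I : ℂ) ^ (4 : ℤ) = Complex.I ^ (4 : ℕ) := by norm_cast
    rw [this, Complex.I_pow_four]
  have h2 : (Complex.I : ℂ) ^ (2 : ℤ) = -1 := by
    have : (Complex.I : ℂ) ^ (2 : ℤ) = Complex.I ^ (2 : ℕ) := by norm_cast
    rw [this, Complex.I_sq]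
  rw [h4, one_zpow, h2, one_mul]

theorem I_zpow_of_mod_four_eq_zero {k : ℤ} (hk : k % 4 = 0) : (Complex.I : ℂ) ^ k = 1 := by
  have h : k = 4 * (k / 4) := by omega
  rw [h, zpow_mul]
  have h4 : (Complex.I : ℂ) ^ (4 : ℤ) = 1 := by
    have : (Complex.I : ℂ) ^ (4 : ℤ) = Complex.I ^ (4 : ℕ) := by norm_cast
    rw [this, Complex.I_pow_four]
  rw [h4, one_zpow]

theorem xi_ne_zero : (ρ : ℂ) + 1 ≠ 0 := by
  rw [← denom_Umat_ρ]; exact denom_ne_zero _ _

theorem xi_sq : ((ρ : ℂ) + 1) ^ (2 : ℤ) = ρ := by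
  have : ((ρ : ℂ) + 1) ^ (2 : ℤ) = ((ρ : ℂ) + 1) ^ (2 : ℕ) := by norm_cast
  rw [this]
  linear_combination ρ_sq

theorem ρ_cube : (ρ : ℂ) ^ 3 = 1 := by
  linear_combination ((ρ : ℂ) - 1) * ρ_sq

theorem xi_pow_six : ((ρ : ℂ) + 1) ^ (6 : ℤ) = 1 := by
  have : ((ρ : ℂ) + 1) ^ (6 : ℤ) = (((ρ : ℂ) + 1) ^ (2 : ℤ)) ^ (3 : ℕ) := by
    rw [← zpow_natCast, ← zpow_mul]; norm_num
  rw [this, xi_sq, ρ_cube]

theorem xi_zpow_of_mod_six_eq_zero {k : ℤ} (hk : k % 6 = 0) : ((ρ : ℂ) + 1) ^ k = 1 := by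
  have h : k = 6 * (k / 6) := by omega
  rw [h, zpow_mul, xi_pow_six, one_zpow]

theorem xi_zpow_of_even {k : ℤ} (hk : Even k) (hk6 : k % 6 ≠ 0) :
    (((ρ : ℂ) + 1) ^ k) ^ 2 + ((ρ : ℂ) + 1) ^ k + 1 = 0 := by
  obtain ⟨m, hm⟩ := hk
  have h : k % 6 = 2 ∨ k % 6 = 4 := by omega
  rcases h with h | h
  · have h' : k = 6 * (k / 6) + 2 := by omega
    rw [h', zpow_add₀ xi_ne_zero, zpow_mul, xi_pow_six, one_zpow, xi_sq, one_mul]
    linear_combination ρ_sq
  · have h' : k = 6 * (k / 6) + 2 * 2 := by omega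
    rw [h', zpow_add₀ xi_ne_zero, zpow_mul, xi_pow_six, one_zpow, zpow_mul, xi_sq, one_mul]
    have : (ρ : ℂ) ^ (2 : ℤ) = (ρ : ℂ) ^ (2 : ℕ) := by norm_cast
    rw [this]
    linear_combination ((ρ : ℂ) ^ 2 - ρ + 1) * ρ_sq

/-- functions on cosets invariant under `g` -/
def Inv (Γ : Subgroup SL(2, ℤ)) (g : SL(2, ℤ)) : Submodule ℂ ((SL(2, ℤ) ⧸ Γ) → ℂ) where
  carrier := {u | ∀ x, u (g • x) = u x}
  add_mem' := by
    intro a b ha hb x
    simp only [Pi.add_apply, ha x, hb x]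
  zero_mem' := by intro x; simp
  smul_mem' := by
    intro c a ha x
    simp only [Pi.smul_apply, ha x]

omit [Fintype (SL(2, ℤ) ⧸ Γ)] [DecidableEq (SL(2, ℤ) ⧸ Γ)] in
theorem disjoint_AS_Inv : Disjoint (AS Γ) (Inv Γ ModularGroup.S) := by
  rw [Submodule.disjoint_def]
  intro u hA hI
  ext x
  have h1 := hA x
  have h2 := hI x
  rw [h2] at h1
  simp only [Pi.zero_apply]
  linear_combination (1 / 2 : ℂ) * h1

omit [Fintype (SL(2, ℤ) ⧸ Γ)] [DecidableEq (SL(2, ℤ) ⧸ Γ)] in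
theorem disjoint_AU_Inv : Disjoint (AU Γ) (Inv Γ Umat) := by
  rw [Submodule.disjoint_def]
  intro u hA hI
  ext x
  have h1 := hA x
  have h2 := hI x
  have h3 := hI (Umat • x)
  rw [h3, h2] at h1
  simp only [Pi.zero_apply]
  linear_combination (1 / 3 : ℂ) * h1

end PartE

section

variable {Γ : Subgroup SL(2, ℤ)} [Γ.FiniteIndex] [Fintype (SL(2, ℤ) ⧸ Γ)]
  [DecidableEq (SL(2, ℤ) ⧸ Γ)]

theorem FreeBasis.card_wt_mod_four (B : FreeBasis Γ) (hneg : -1 ∈ Γ)
    (hdet : ∀ z, (B.mat z).det ≠ 0) :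
    (Finset.univ.filter fun j => B.wt j % 4 = 2).card = Module.finrank ℂ (AS Γ) := by
  refine PartE.card_filter_eq_finrank (by simp) _ (PartE.linearIndependent_col B hdet I)
    (AS Γ) (PartE.Inv Γ ModularGroup.S) PartE.disjoint_AS_Inv _ ?_ ?_
  · intro j hj x
    simp only
    rw [PartE.col_smul B _ I PartE.S_smul_I, ModularGroup.denom_S, coe_I,
      PartE.I_zpow_of_mod_four_eq_two hj]
    ring
  · intro j hj x
    simp only
    have hev := PartE.wt_even B hneg hdet j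
    have h0 : B.wt j % 4 = 0 := by
      obtain ⟨m, hm⟩ := hev
      omega
    rw [PartE.col_smul B _ I PartE.S_smul_I, ModularGroup.denom_S, coe_I,
      PartE.I_zpow_of_mod_four_eq_zero h0, one_mul]

theorem FreeBasis.card_wt_mod_six (B : FreeBasis Γ) (hneg : -1 ∈ Γ)
    (hdet : ∀ z, (B.mat z).det ≠ 0) :
    (Finset.univ.filter fun j => B.wt j % 6 = 0).card + Module.finrank ℂ (AU Γ)
      = Fintype.card (SL(2, ℤ) ⧸ Γ) := by
  have h1 : (Finset.univ.filter fun j => ¬ B.wt j % 6 = 0).card = Module.finrank ℂ (AU Γ) := by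
    refine PartE.card_filter_eq_finrank (by simp) _ (PartE.linearIndependent_col B hdet ρ)
      (AU Γ) (PartE.Inv Γ Umat) PartE.disjoint_AU_Inv _ ?_ ?_
    · intro j hj x
      simp only
      rw [PartE.col_smul B _ ρ PartE.Umat_smul_ρ, PartE.col_smul B _ ρ PartE.Umat_smul_ρ,
        PartE.denom_Umat_ρ]
      linear_combination (B.mat ρ x j) *
        PartE.xi_zpow_of_even (PartE.wt_even B hneg hdet j) hj
    · intro j hj x
      simp only
      rw [not_not] at hj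
      rw [PartE.col_smul B _ ρ PartE.Umat_smul_ρ, PartE.denom_Umat_ρ,
        PartE.xi_zpow_of_mod_six_eq_zero hj, one_mul]
  rw [← h1, Finset.card_filter_add_card_filter_not, Finset.card_univ]

end

end Fermat.Agent.S21
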