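import Fermat.Agent.S21.Defs
import Fermat.Agent.S22P.Bol

set_option autoImplicit false

/-!
# S21, parts G1 and G3: primitives on the upper half plane and the period map on `M₂(Γ)`
-/

namespace Fermat.Agent.S21

open UpperHalfPlane ModularForm Filter CongruenceSubgroup
open scoped MatrixGroups Manifold Topology

namespace PartG1

/-- membership in the disc of radius `r` tangent to the real axis at `0`. -/
lemma mem_ball_iff {r : ℝ} (hr : 0 < r) (z : ℂ) :
    z ∈ Metric.ball ((r : ℂ) * Complex.I) r ↔ z.re ^ 2 + z.im ^ 2 < 2 * r * z.im := by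
  rw [Metric.mem_ball, dist_eq_norm, ← sq_lt_sq₀ (norm_nonneg _) hr.le, Complex.sq_norm,
    Complex.normSq_apply]
  simp only [Complex.sub_re, Complex.mul_re, Complex.ofReal_re, Complex.I_re, mul_zero,
    Complex.ofReal_im, Complex.I_im, mul_one, sub_self, sub_zero, Complex.sub_im, Complex.mul_im,
    add_zero]
  constructor <;> intro h <;> nlinarith

lemma im_pos_of_mem_ball {r : ℝ} (hr : 0 < r) {z : ℂ}
    (hz : z ∈ Metric.ball ((r : ℂ) * Complex.I) r) : 0 < z.im := by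
  rw [mem_ball_iff hr] at hz
  by_contra h
  push Not at h
  nlinarith [sq_nonneg z.re, sq_nonneg z.im]

lemma ball_mono {r s : ℝ} (hr : 0 < r) (hrs : r ≤ s) :
    Metric.ball ((r : ℂ) * Complex.I) r ⊆ Metric.ball ((s : ℂ) * Complex.I) s := by
  intro z hz
  have him := im_pos_of_mem_ball hr hz
  rw [mem_ball_iff hr] at hz
  rw [mem_ball_iff (hr.trans_le hrs)]
  nlinarith

lemma I_mem_ball {r : ℝ} (hr : 1 ≤ r) : Complex.I ∈ Metric.ball ((r : ℂ) * Complex.I) r := by
  rw [mem_ball_iff (by linarith)]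
  simp
  linarith

lemma exists_mem_ball {z : ℂ} (hz : 0 < z.im) :
    ∃ n : ℕ, z ∈ Metric.ball ((((n : ℝ) + 1 : ℝ) : ℂ) * Complex.I) ((n : ℝ) + 1) := by
  obtain ⟨n, hn⟩ := exists_nat_gt ((z.re ^ 2 + z.im ^ 2) / (2 * z.im))
  refine ⟨n, ?_⟩
  rw [mem_ball_iff (by positivity)]
  rw [div_lt_iff₀ (by positivity)] at hn
  nlinarith

/-- A holomorphic function on the open upper half plane has a primitive there. -/
theorem exists_primitive {g : ℂ → ℂ} (hg : DifferentiableOn ℂ g {z : ℂ | 0 < z.im}) :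
    ∃ G : ℂ → ℂ, ∀ z : ℂ, 0 < z.im → HasDerivAt G (g z) z := by
  classical
  set B : ℕ → Set ℂ := fun n => Metric.ball ((((n : ℝ) + 1 : ℝ) : ℂ) * Complex.I) ((n : ℝ) + 1)
    with hB
  have hpos : ∀ n : ℕ, (0 : ℝ) < (n : ℝ) + 1 := fun n => by positivity
  have hBsub : ∀ n, B n ⊆ {z : ℂ | 0 < z.im} := fun n z hz => im_pos_of_mem_ball (hpos n) hz
  have hBmono : ∀ n m, n ≤ m → B n ⊆ B m := fun n m h =>
    ball_mono (hpos n) (by exact_mod_cast Nat.succ_le_succ h)
  have hI : ∀ n, Complex.I ∈ B n := fun n => I_mem_ball (by simp)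
  have hex : ∀ n, ∃ G : ℂ → ℂ, G Complex.I = 0 ∧ ∀ z ∈ B n, HasDerivAt G (g z) z := fun n =>
    ((hg.mono (hBsub n)).isExactOn_ball).with_val_at Complex.I 0
  choose G hG0 hG using hex
  have hagree : ∀ n m, n ≤ m → ∀ z ∈ B n, G n z = G m z := by
    intro n m hnm
    have hd1 : DifferentiableOn ℂ (G n) (B n) := fun z hz =>
      (hG n z hz).differentiableAt.differentiableWithinAt
    have hd2 : DifferentiableOn ℂ (G m) (B n) := fun z hz =>
      (hG m z (hBmono n m hnm hz)).differentiableAt.differentiableWithinAt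
    have hder : Set.EqOn (deriv (G n)) (deriv (G m)) (B n) := fun z hz => by
      rw [(hG n z hz).deriv, (hG m z (hBmono n m hnm hz)).deriv]
    exact Metric.isOpen_ball.eqOn_of_deriv_eq (convex_ball _ _).isPreconnected hd1 hd2 hder
      (hI n) (by rw [hG0, hG0])
  have hagree' : ∀ n m, ∀ z ∈ B n, z ∈ B m → G n z = G m z := by
    intro n m z hn hm
    rcases le_total n m with h | h
    · exact hagree n m h z hn
    · exact (hagree m n h z hm).symm
  refine ⟨fun z => if h : 0 < z.im then G (exists_mem_ball h).choose z else 0, fun z hz => ?_⟩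
  obtain ⟨n, hn⟩ := exists_mem_ball hz
  refine (hG n z hn).congr_of_eventuallyEq ?_
  filter_upwards [Metric.isOpen_ball.mem_nhds hn] with w hw
  have hw' : 0 < w.im := hBsub n hw
  simp only [hw', dif_pos]
  exact hagree' _ _ w (exists_mem_ball hw').choose_spec hw

lemma isPrim_iff_isDer {f F : ℍ → ℂ} : IsPrim f F ↔ S22P.IsDer F f := Iff.rfl

end PartG1

/-- G1: every holomorphic function on `ℍ` has a primitive. -/
theorem exists_isPrim {f : ℍ → ℂ} (hf : MDiff f) : ∃ F : ℍ → ℂ, IsPrim f F := by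
  rw [UpperHalfPlane.mdifferentiable_iff] at hf
  obtain ⟨G, hG⟩ := PartG1.exists_primitive hf
  refine ⟨fun z => G z, ?_⟩
  refine S22P.isDer_of_hasDerivAt (φ := G) fun τ => ?_
  simpa using hG τ τ.im_pos

/-- G1: two primitives differ by a constant. -/
theorem IsPrim.eq_add_const {f F F' : ℍ → ℂ} (h : IsPrim f F) (h' : IsPrim f F') :
    ∃ c : ℂ, ∀ z, F z = F' z + c := by
  have h0 : S22P.IsDer (F - F') 0 := by
    have := S22P.IsDer.sub h h'
    rwa [sub_self] at this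
  refine ⟨F UpperHalfPlane.I - F' UpperHalfPlane.I, fun z => ?_⟩
  have := h0.const_of_zero z UpperHalfPlane.I
  simp only [Pi.sub_apply] at this
  linear_combination this

/-- G1: chain rule for Möbius transformations, weight 2. -/
theorem IsPrim.comp_smul {f F : ℍ → ℂ} (h : IsPrim f F) (g : SL(2, ℤ)) :
    IsPrim (f ∣[(2 : ℤ)] g) (fun z => F (g • z)) := by
  have hdet : (Matrix.SpecialLinearGroup.mapGL ℝ g).det.val = 1 := by simp
  have h1 := S22P.IsDer.comp_smul h (Matrix.SpecialLinearGroup.mapGL ℝ g) (by rw [hdet]; norm_num)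
  refine S22P.IsDer.congr h1 fun τ => ?_
  rw [hdet, SL_slash_apply]
  simp only [Complex.ofReal_one, one_div]
  rw [zpow_neg]
  rfl

namespace PartG1

lemma IsPrim.add {f f' F F' : ℍ → ℂ} (h : IsPrim f F) (h' : IsPrim f' F') :
    IsPrim (f + f') (F + F') := S22P.IsDer.add h h'

lemma IsPrim.const_smul {f F : ℍ → ℂ} (c : ℂ) (h : IsPrim f F) :
    IsPrim (c • f) (c • F) := S22P.IsDer.const_smul c h

/-- the period `F (γ z) - F z` does not depend on `z`, nor on the primitive. -/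
lemma period_indep {f F F' : ℍ → ℂ} (h : IsPrim f F) (h' : IsPrim f F') {γ : SL(2, ℤ)}
    (hγ : f ∣[(2 : ℤ)] γ = f) (z z' : ℍ) : F (γ • z) - F z = F' (γ • z') - F' z' := by
  obtain ⟨c, hc⟩ := h.eq_add_const h'
  have h2 := h'.comp_smul γ
  rw [hγ] at h2
  obtain ⟨d, hd⟩ := h2.eq_add_const h'
  have e1 : F' (γ • z) = F' z + d := hd z
  have e2 : F' (γ • z') = F' z' + d := hd z'
  rw [hc, hc, e1, e2]
  ring

/-- a chosen primitive -/
noncomputable def prim {Γ : Subgroup SL(2, ℤ)} (f : MF Γ 2) : ℍ → ℂ :=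
  (exists_isPrim f.2.holo).choose

lemma prim_spec {Γ : Subgroup SL(2, ℤ)} (f : MF Γ 2) : IsPrim f.1 (prim f) :=
  (exists_isPrim f.2.holo).choose_spec

/-- the period of `f` along `γ`. -/
noncomputable def per {Γ : Subgroup SL(2, ℤ)} (f : MF Γ 2) (γ : Γ) : ℂ :=
  prim f ((γ : SL(2, ℤ)) • UpperHalfPlane.I) - prim f UpperHalfPlane.I

lemma per_spec {Γ : Subgroup SL(2, ℤ)} (f : MF Γ 2) (F : ℍ → ℂ) (hF : IsPrim f.1 F) (γ : Γ)
    (z : ℍ) : per f γ = F ((γ : SL(2, ℤ)) • z) - F z :=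
  period_indep (prim_spec f) hF (f.2.inv γ γ.2) _ _

lemma per_mul {Γ : Subgroup SL(2, ℤ)} (f : MF Γ 2) (γ γ' : Γ) :
    per f (γ * γ') = per f γ + per f γ' := by
  rw [per_spec f _ (prim_spec f) (γ * γ') UpperHalfPlane.I,
    per_spec f _ (prim_spec f) γ ((γ' : SL(2, ℤ)) • UpperHalfPlane.I),
    per_spec f _ (prim_spec f) γ' UpperHalfPlane.I, Subgroup.coe_mul, mul_smul]
  ring

lemma per_add {Γ : Subgroup SL(2, ℤ)} (f g : MF Γ 2) (γ : Γ) :
    per (f + g) γ = per f γ + per g γ := by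
  rw [per_spec (f + g) _ (IsPrim.add (prim_spec f) (prim_spec g)) γ UpperHalfPlane.I,
    per_spec f _ (prim_spec f) γ UpperHalfPlane.I, per_spec g _ (prim_spec g) γ UpperHalfPlane.I]
  simp only [Pi.add_apply]
  ring

lemma per_smul {Γ : Subgroup SL(2, ℤ)} (c : ℂ) (f : MF Γ 2) (γ : Γ) :
    per (c • f) γ = c * per f γ := by
  rw [per_spec (c • f) _ (IsPrim.const_smul c (prim_spec f)) γ UpperHalfPlane.I,
    per_spec f _ (prim_spec f) γ UpperHalfPlane.I]
  simp only [Pi.smul_apply, smul_eq_mul]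
  ring

end PartG1

/-- G3: the period map on `M₂(Γ)`. -/
theorem exists_perLin (Γ : Subgroup SL(2, ℤ)) :
    ∃ P : MF Γ 2 →ₗ[ℂ] (Additive Γ →+ ℂ), ∀ (f : MF Γ 2) (F : ℍ → ℂ), IsPrim f.1 F →
      ∀ (γ : Γ) (z : ℍ), P f (Additive.ofMul γ) = F ((γ : SL(2, ℤ)) • z) - F z := by
  refine ⟨{ toFun := fun f => AddMonoidHom.mk' (fun γ => PartG1.per f (Additive.toMul γ))
              (fun a b => PartG1.per_mul f _ _)
            map_add' := fun f g => ?_
            map_smul' := fun c f => ?_ }, fun f F hF γ z => PartG1.per_spec f F hF γ z⟩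
  · ext γ
    exact PartG1.per_add f g _
  · ext γ
    exact PartG1.per_smul c f _

noncomputable def perLin (Γ : Subgroup SL(2, ℤ)) : MF Γ 2 →ₗ[ℂ] (Additive Γ →+ ℂ) :=
  (exists_perLin Γ).choose

theorem perLin_spec (Γ : Subgroup SL(2, ℤ)) (f : MF Γ 2) (F : ℍ → ℂ) (hF : IsPrim f.1 F)
    (γ : Γ) (z : ℍ) : perLin Γ f (Additive.ofMul γ) = F ((γ : SL(2, ℤ)) • z) - F z :=
  (exists_perLin Γ).choose_spec f F hF γ z

end Fermat.Agent.S21
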