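import Fermat.Agent.S21.PartG1
import Fermat.Agent.S21.PartG2
import Fermat.Prelude.Def_ModularCurve_PeriodHomPair

set_option autoImplicit false

/-!
# S21, Part G4: comparison of the Prelude's `periodMap` with `perLin`
-/

namespace Fermat.Agent.S21

open UpperHalfPlane ModularForm Filter CongruenceSubgroup
open scoped MatrixGroups Manifold Topology

namespace PartG4

lemma conj_T_zpow_mem_Gamma0 (N : ℕ) (δ : SL(2, ℤ)) :
    δ * ModularGroup.T ^ (N : ℤ) * δ⁻¹ ∈ Gamma0 N := by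
  have h1 : ModularGroup.T ^ (N : ℤ) ∈ Gamma N := by
    simpa using ModularGroup_T_pow_mem_Gamma (N : ℤ) (N : ℤ) dvd_rfl
  have h2 : δ * ModularGroup.T ^ (N : ℤ) * δ⁻¹ ∈ Gamma N := (Gamma_normal N).conj_mem _ h1 δ
  rw [Gamma_mem] at h2
  rw [Gamma0_mem]
  exact h2.2.2.1

lemma vadd_eq_T_zpow_smul (N : ℕ) (z : ℍ) :
    ((N : ℝ) +ᵥ z : ℍ) = ModularGroup.T ^ (N : ℤ) • z := by
  ext
  rw [ModularGroup.coe_T_zpow_smul_eq, coe_vadd]
  push_cast
  ring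

lemma denom_T_zpow (n : ℤ) (z : ℍ) : denom (ModularGroup.T ^ n : SL(2, ℤ)) z = 1 := by
  rw [ModularGroup.denom_apply]
  simp [ModularGroup.coe_T_zpow]

/-- every slash of a `Γ₀(N)`-invariant function is `N`-periodic. -/
lemma slash_periodic {N : ℕ} {k : ℤ} {f : ℍ → ℂ} (hinv : ∀ γ ∈ Gamma0 N, f ∣[k] γ = f)
    (δ : SL(2, ℤ)) (z : ℍ) : (f ∣[k] δ) ((N : ℝ) +ᵥ z) = (f ∣[k] δ) z := by
  have h1 : (f ∣[k] δ) ∣[k] (ModularGroup.T ^ (N : ℤ) : SL(2, ℤ)) = f ∣[k] δ := by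
    rw [← SlashAction.slash_mul]
    have : δ * ModularGroup.T ^ (N : ℤ) = (δ * ModularGroup.T ^ (N : ℤ) * δ⁻¹) * δ := by group
    rw [this, SlashAction.slash_mul, hinv _ (conj_T_zpow_mem_Gamma0 N δ)]
  have h2 := congrFun h1 z
  rw [SL_slash_apply, denom_T_zpow, one_zpow, mul_one] at h2
  rw [vadd_eq_T_zpow_smul, h2]

/-- a decaying primitive of each slash of a cusp form -/
lemma exists_isPrim_slash {N : ℕ} [NeZero N] {f : ℍ → ℂ} (hf : IsCF (Gamma0 N) 2 f)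
    (δ : SL(2, ℤ)) :
    ∃ F : ℍ → ℂ, IsPrim (f ∣[(2 : ℤ)] δ) F ∧ Tendsto F atImInfty (𝓝 0) := by
  have hholo : MDiff (f ∣[(2 : ℤ)] δ) := by
    rw [SL_slash]; exact hf.holo.slash _ _
  obtain ⟨a₀, F, ha, hF, hF0, -⟩ := exists_isPrim_tendsto hholo (Nat.pos_of_ne_zero (NeZero.ne N))
    (slash_periodic hf.inv δ) (hf.zero δ).boundedAtFilter
  have ha0 : a₀ = 0 := tendsto_nhds_unique ha (hf.zero δ)
  subst ha0
  refine ⟨F, ?_, hF0⟩
  simpa using hF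

/-- Existence of an equivariant primitive in the sense of the Prelude, given the
basic facts about primitives (G1) as hypotheses. -/
theorem exists_hasEquivariantPrimitive
    (hconst : ∀ {f F F' : ℍ → ℂ}, IsPrim f F → IsPrim f F' → ∃ c : ℂ, ∀ z, F z = F' z + c)
    (hcomp : ∀ {f F : ℍ → ℂ}, IsPrim f F → ∀ g : SL(2, ℤ),
      IsPrim (f ∣[(2 : ℤ)] g) (fun z => F (g • z)))
    (N : ℕ) [NeZero N] (f : CuspForm (Gamma0 N) 2) :
    ∃ F : ℍ → ℂ, ModularCurve.HasEquivariantPrimitive N f F := by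
  have hf : IsCF (Gamma0 N) 2 f := isCF_coe f
  obtain ⟨F, hF, hF0⟩ := exists_isPrim_slash hf 1
  rw [SlashAction.slash_one] at hF
  refine ⟨F, hF, hF0, ?_, ?_⟩
  · intro γ
    have h1 := hcomp hF (γ : SL(2, ℤ))
    rw [hf.inv _ γ.2] at h1
    obtain ⟨c, hc⟩ := hconst h1 hF
    exact ⟨c, fun z => by rw [hc z]; ring⟩
  · intro δ
    obtain ⟨G, hG, hG0⟩ := exists_isPrim_slash hf δ
    obtain ⟨c, hc⟩ := hconst (hcomp hF δ) hG
    refine ⟨c, ?_⟩
    have : (fun w : ℍ => F (δ • w)) = fun w => G w + c := funext hc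
    rw [this]
    simpa using hG0.add_const c

/-- The Prelude's `periodMap` computed with an arbitrary primitive. -/
theorem periodMap_apply
    (hconst : ∀ {f F F' : ℍ → ℂ}, IsPrim f F → IsPrim f F' → ∃ c : ℂ, ∀ z, F z = F' z + c)
    (hcomp : ∀ {f F : ℍ → ℂ}, IsPrim f F → ∀ g : SL(2, ℤ),
      IsPrim (f ∣[(2 : ℤ)] g) (fun z => F (g • z)))
    (N : ℕ) [NeZero N] (f : CuspForm (Gamma0 N) 2) (F : ℍ → ℂ) (hF : IsPrim f F)
    (γ : Gamma0 N) (z : ℍ) :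
    ModularCurve.periodMap N f (Additive.ofMul γ) = F ((γ : SL(2, ℤ)) • z) - F z := by
  obtain ⟨F₁, hF₁⟩ := exists_hasEquivariantPrimitive hconst hcomp N f
  obtain ⟨F₀, h₀, heq⟩ := ModularCurve.periodMap_def N f hF₁
  rw [heq, ModularCurve.Period.IsEquivariantPrimitive.periodHom_apply,
    ← h₀.2.2.1.sub_eq_period γ z]
  obtain ⟨c, hc⟩ := hconst hF h₀.1
  rw [hc, hc]
  ring

end PartG4

/-- G4: comparison with the Prelude's `periodMap`. -/
theorem periodMap_eq_perLin (N : ℕ) [NeZero N] (f : CuspForm (Gamma0 N) 2) :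
    ModularCurve.periodMap N f = perLin (Gamma0 N) ⟨f, (isCF_coe f).isMF⟩ := by
  obtain ⟨F, hF⟩ := exists_isPrim (f := f) f.holo'
  refine AddMonoidHom.ext fun γ => ?_
  obtain ⟨γ, rfl⟩ := Additive.ofMul.surjective γ
  rw [PartG4.periodMap_apply IsPrim.eq_add_const IsPrim.comp_smul N f F hF γ UpperHalfPlane.I,
    perLin_spec (Gamma0 N) ⟨f, (isCF_coe f).isMF⟩ F hF γ UpperHalfPlane.I]

end Fermat.Agent.S21
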