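import Fermat.Agent.S21.Defs

set_option autoImplicit false

/-!
# S21, parts G5/G6 : auxiliary lemmas (parabolic elements and periods)
-/

namespace Fermat.Agent.S21.PartG5

open UpperHalfPlane ModularForm Filter
open scoped MatrixGroups Manifold Topology

/-- A parabolic (or `± 1`) element of `SL(2,ℤ)` is conjugate to a translation, as far as the action
on `ℍ` is concerned. -/
lemma exists_conj (γ : SL(2, ℤ)) (htr : (γ : Matrix (Fin 2) (Fin 2) ℤ).trace ^ 2 = 4) :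
    ∃ (δ : SL(2, ℤ)) (m : ℤ), ∀ z : ℍ, γ • (δ • z) = δ • ((m : ℝ) +ᵥ z) := by
  have hdet : γ 0 0 * γ 1 1 - γ 0 1 * γ 1 0 = 1 := by
    have := γ.det_coe
    rwa [Matrix.det_fin_two] at this
  have htr' : (γ 0 0 + γ 1 1) ^ 2 = 4 := by
    rwa [Matrix.trace_fin_two] at htr
  -- a primitive eigenvector
  obtain ⟨p, q, hpq, hform⟩ : ∃ p q : ℤ, IsCoprime p q ∧
      γ 1 0 * p ^ 2 + (γ 1 1 - γ 0 0) * p * q - γ 0 1 * q ^ 2 = 0 := by
    by_cases hc : γ 1 0 = 0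
    · exact ⟨1, 0, isCoprime_one_left, by simp [hc]⟩
    · have hg : 0 < Int.gcd (γ 0 0 - γ 1 1) (2 * γ 1 0) := by
        apply Int.gcd_pos_of_ne_zero_right
        simpa using hc
      obtain ⟨p, q, h1, hp, hq⟩ := Int.exists_gcd_one hg
      refine ⟨p, q, Int.isCoprime_iff_gcd_eq_one.mpr h1, ?_⟩
      set g : ℤ := (Int.gcd (γ 0 0 - γ 1 1) (2 * γ 1 0) : ℤ) with hgdef
      have hg0 : g ≠ 0 := by
        rw [hgdef]; exact_mod_cast hg.ne'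
      have key : g ^ 2 * (γ 1 0 * p ^ 2 + (γ 1 1 - γ 0 0) * p * q - γ 0 1 * q ^ 2) = 0 := by
        have e : g ^ 2 * (γ 1 0 * p ^ 2 + (γ 1 1 - γ 0 0) * p * q - γ 0 1 * q ^ 2)
            = γ 1 0 * (p * g) ^ 2 + (γ 1 1 - γ 0 0) * (p * g) * (q * g) - γ 0 1 * (q * g) ^ 2 := by
          ring
        rw [e, ← hp, ← hq]
        linear_combination (-γ 1 0) * htr' + 4 * γ 1 0 * hdet
      exact (mul_eq_zero.mp key).resolve_left (pow_ne_zero 2 hg0)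
  obtain ⟨δ, hδ0, hδ1⟩ := hpq.exists_SL2_col 0
  have hc : (δ⁻¹ * γ * δ) 1 0 = 0 := by
    simp only [Matrix.SpecialLinearGroup.coe_mul, Matrix.SpecialLinearGroup.coe_inv,
      Matrix.adjugate_fin_two, Matrix.mul_apply, Fin.sum_univ_two, Matrix.of_apply,
      Matrix.cons_val_zero, Matrix.cons_val_one, Matrix.cons_val', hδ0, hδ1]
    linear_combination hform
  obtain ⟨n, hn⟩ := ModularGroup.exists_eq_T_zpow_of_c_eq_zero hc
  refine ⟨δ, n, fun z => ?_⟩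
  have := hn z
  rw [modular_T_zpow_smul] at this
  rw [← this, ← mul_smul, ← mul_smul]
  congr 1
  group

/-- Translations preserve the filter `atImInfty`. -/
lemma tendsto_vadd_atImInfty (x : ℝ) : Tendsto (fun z : ℍ => x +ᵥ z) atImInfty atImInfty := by
  unfold atImInfty
  rw [tendsto_comap_iff]
  have : (im ∘ fun z : ℍ => x +ᵥ z) = im := by
    funext z
    simp [vadd_im]
  rw [this]
  exact tendsto_comap

/-- The limit argument: the period along a translation of `a₀ z + F₀ z + C`, `F₀ → 0`. -/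
lemma period_eq {G F₀ : ℍ → ℂ} {a₀ C : ℂ} (hG : ∀ z : ℍ, G z = a₀ * (z : ℂ) + F₀ z + C)
    (hF₀ : Tendsto F₀ atImInfty (𝓝 0)) (m : ℤ) (c : ℂ)
    (hc : ∀ z : ℍ, G ((m : ℝ) +ᵥ z) - G z = c) : c = a₀ * m := by
  have h1 : ∀ z : ℍ, c = a₀ * m + (F₀ ((m : ℝ) +ᵥ z) - F₀ z) := by
    intro z
    rw [← hc z, hG, hG, coe_vadd]
    push_cast
    ring
  have h2 : Tendsto (fun z : ℍ => a₀ * m + (F₀ ((m : ℝ) +ᵥ z) - F₀ z)) atImInfty
      (𝓝 (a₀ * m + (0 - 0))) :=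
    tendsto_const_nhds.add ((hF₀.comp (tendsto_vadd_atImInfty (m : ℝ))).sub hF₀)
  have h3 : Tendsto (fun _ : ℍ => c) atImInfty (𝓝 (a₀ * m + (0 - 0))) :=
    h2.congr fun z => (h1 z).symm
  have := tendsto_nhds_unique tendsto_const_nhds h3
  simpa using this

/-- `f ∣[k] δ` is periodic, with a period `h` such that `δ T ^ h δ⁻¹ ∈ Γ`. -/
lemma exists_period {Γ : Subgroup SL(2, ℤ)} [Γ.FiniteIndex] {k : ℤ} {f : ℍ → ℂ}
    (hinv : ∀ γ ∈ Γ, f ∣[k] γ = f) (δ : SL(2, ℤ)) :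
    ∃ h : ℕ, 0 < h ∧ δ * ModularGroup.T ^ h * δ⁻¹ ∈ Γ ∧
      ∀ z : ℍ, (f ∣[k] δ) ((h : ℝ) +ᵥ z) = (f ∣[k] δ) z := by
  obtain ⟨h, hpos, -, hmem⟩ := Subgroup.exists_pow_mem_of_index_ne_zero
    (Subgroup.FiniteIndex.index_ne_zero (H := Γ)) (δ * ModularGroup.T * δ⁻¹)
  rw [conj_pow] at hmem
  refine ⟨h, hpos, hmem, fun z => ?_⟩
  have e1 : (f ∣[k] δ) ∣[k] (ModularGroup.T ^ h) = f ∣[k] δ := by
    rw [← SlashAction.slash_mul]
    have : δ * ModularGroup.T ^ h = (δ * ModularGroup.T ^ h * δ⁻¹) * δ := by group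
    rw [this, SlashAction.slash_mul, hinv _ hmem]
  have e2 := congrFun e1 z
  rw [SL_slash_apply] at e2
  have e3 : ModularGroup.T ^ h • z = (h : ℝ) +ᵥ z := by
    have := modular_T_zpow_smul z (h : ℤ)
    simpa using this
  have e4 : denom (ModularGroup.T ^ h : SL(2, ℤ)) z = 1 := by
    have : (ModularGroup.T ^ h : SL(2, ℤ)) = ModularGroup.T ^ (h : ℤ) := by simp
    rw [this, ModularGroup.denom_apply, ModularGroup.coe_T_zpow]
    simp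
  rw [e3, e4] at e2
  simpa using e2

/-- trace of a conjugate of a power of `T` -/
lemma trace_conj_T_pow (δ : SL(2, ℤ)) (h : ℕ) :
    ((δ * ModularGroup.T ^ h * δ⁻¹ : SL(2, ℤ)) : Matrix (Fin 2) (Fin 2) ℤ).trace ^ 2 = 4 := by
  have e : ((δ * ModularGroup.T ^ h * δ⁻¹ : SL(2, ℤ)) : Matrix (Fin 2) (Fin 2) ℤ).trace
      = ((ModularGroup.T ^ h : SL(2, ℤ)) : Matrix (Fin 2) (Fin 2) ℤ).trace := by
    rw [Matrix.SpecialLinearGroup.coe_mul, Matrix.trace_mul_comm,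
      ← Matrix.SpecialLinearGroup.coe_mul]
    congr 2
    group
  have : (ModularGroup.T ^ h : SL(2, ℤ)) = ModularGroup.T ^ (h : ℤ) := by simp
  rw [e, this, ModularGroup.coe_T_zpow, Matrix.trace_fin_two]
  simp

/-- The statements of G1 (uniqueness, chain rule) and G2 which are used below. -/
structure Inputs : Prop where
  eq_add_const : ∀ {f F F' : ℍ → ℂ}, IsPrim f F → IsPrim f F' → ∃ c : ℂ, ∀ z, F z = F' z + c
  comp_smul : ∀ {f F : ℍ → ℂ}, IsPrim f F → ∀ g : SL(2, ℤ),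
    IsPrim (f ∣[(2 : ℤ)] g) (fun z => F (g • z))
  tendsto : ∀ {f : ℍ → ℂ}, MDiff f → ∀ {h : ℕ}, 0 < h →
    (∀ z : ℍ, f ((h : ℝ) +ᵥ z) = f z) → IsBoundedAtImInfty f →
    ∃ (a₀ : ℂ) (F : ℍ → ℂ), Tendsto f atImInfty (𝓝 a₀) ∧
      IsPrim f (fun z => a₀ * (z : ℂ) + F z) ∧ Tendsto F atImInfty (𝓝 0) ∧
      ∀ z : ℍ, F ((h : ℝ) +ᵥ z) = F z

/-- The value `a₀` of `f ∣[2] δ` at `i∞` controls the periods along `δ T ^ m δ⁻¹`. -/
lemma core (H : Inputs) {Γ : Subgroup SL(2, ℤ)} [Γ.FiniteIndex] {f F : ℍ → ℂ} (hf : IsMF Γ 2 f)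
    (hF : IsPrim f F) (δ : SL(2, ℤ)) :
    ∃ a₀ : ℂ, Tendsto (f ∣[(2 : ℤ)] δ) atImInfty (𝓝 a₀) ∧
      ∀ (m : ℤ) (c : ℂ), (∀ z : ℍ, F (δ • ((m : ℝ) +ᵥ z)) - F (δ • z) = c) → c = a₀ * m := by
  obtain ⟨h, hpos, -, hper⟩ := exists_period hf.inv δ
  have hholo : MDiff (f ∣[(2 : ℤ)] δ) := by
    rw [SL_slash]; exact hf.holo.slash _ _
  obtain ⟨a₀, F₀, hlim, hprim, hF₀, -⟩ := H.tendsto hholo hpos hper (hf.bdd δ)
  obtain ⟨C, hC⟩ := H.eq_add_const (H.comp_smul hF δ) hprim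
  exact ⟨a₀, hlim, fun m c hc => period_eq (G := fun z => F (δ • z)) hC hF₀ m c hc⟩

/-- G5, in terms of a primitive. -/
lemma period_eq_zero_of_isCF (H : Inputs) {Γ : Subgroup SL(2, ℤ)} [Γ.FiniteIndex] {f F : ℍ → ℂ}
    (hf : IsCF Γ 2 f) (hF : IsPrim f F) (γ : SL(2, ℤ))
    (htr : (γ : Matrix (Fin 2) (Fin 2) ℤ).trace ^ 2 = 4) (c : ℂ)
    (hc : ∀ z : ℍ, F (γ • z) - F z = c) : c = 0 := by
  obtain ⟨δ, m, hδ⟩ := exists_conj γ htr
  obtain ⟨a₀, hlim, hper⟩ := core H hf.isMF hF δ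
  have ha₀ : a₀ = 0 := tendsto_nhds_unique hlim (hf.zero δ)
  have := hper m c fun z => by rw [← hδ z]; exact hc (δ • z)
  rw [this, ha₀, zero_mul]

/-- G6, in terms of a primitive. -/
lemma isCF_of_period_eq_zero (H : Inputs) {Γ : Subgroup SL(2, ℤ)} [Γ.FiniteIndex] {f F : ℍ → ℂ}
    (hf : IsMF Γ 2 f) (hF : IsPrim f F)
    (hpar : ∀ γ ∈ Γ, (γ : Matrix (Fin 2) (Fin 2) ℤ).trace ^ 2 = 4 →
      ∀ z : ℍ, F (γ • z) - F z = 0) : IsCF Γ 2 f := by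
  refine ⟨hf.holo, hf.inv, fun δ => ?_⟩
  obtain ⟨h, hpos, hmem, -⟩ := exists_period hf.inv δ
  obtain ⟨a₀, hlim, hper⟩ := core H hf hF δ
  have h0 := hper (h : ℤ) 0 fun z => by
    have := hpar _ hmem (trace_conj_T_pow δ h) (δ • z)
    rw [← this]
    congr 2
    rw [← mul_smul, inv_mul_cancel_right, mul_smul]
    congr 1
    have := modular_T_zpow_smul z (h : ℤ)
    rw [← this]
    simp
  have ha₀ : a₀ = 0 := by
    have hh : ((h : ℤ) : ℂ) ≠ 0 := by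
      exact_mod_cast hpos.ne'
    exact (mul_eq_zero.mp h0.symm).resolve_right hh
  rw [ha₀] at hlim
  exact hlim

end Fermat.Agent.S21.PartG5
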