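import Fermat.Agent.S21.PartG1
import Fermat.Agent.S21.PartG2
import Fermat.Agent.S21.PartG5_Aux
import Fermat.Prelude.Def_ModularCurve_PeriodMap

set_option autoImplicit false

/-!
# S21, parts G5 and G6 : a weight 2 form is a cusp form iff its periods are parabolic
-/

namespace Fermat.Agent.S21

open UpperHalfPlane ModularForm Filter
open scoped MatrixGroups Manifold Topology

lemma PartG5.inputs : PartG5.Inputs :=
  ⟨fun h h' => h.eq_add_const h', fun h g => h.comp_smul g,
    fun hf _ hh hper hb => exists_isPrim_tendsto hf hh hper hb⟩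

/-- G5: periods of cusp forms are parabolic. -/
theorem perLin_mem_parabolicHoms {Γ : Subgroup SL(2, ℤ)} [Γ.FiniteIndex] (f : MF Γ 2)
    (hf : IsCF Γ 2 f.1) : perLin Γ f ∈ ModularCurve.Period.parabolicHoms ℂ Γ ℂ := by
  rw [ModularCurve.Period.mem_parabolicHoms_iff]
  intro γ htr
  obtain ⟨F, hF⟩ := exists_isPrim hf.holo
  exact PartG5.period_eq_zero_of_isCF PartG5.inputs hf hF γ htr _
    fun z => (perLin_spec Γ f F hF γ z).symm

/-- G6: a weight 2 form whose periods are parabolic is a cusp form. -/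
theorem isCF_of_perLin_mem_parabolicHoms {Γ : Subgroup SL(2, ℤ)} [Γ.FiniteIndex] (f : MF Γ 2)
    (hf : perLin Γ f ∈ ModularCurve.Period.parabolicHoms ℂ Γ ℂ) : IsCF Γ 2 f.1 := by
  rw [ModularCurve.Period.mem_parabolicHoms_iff] at hf
  have hMF : IsMF Γ 2 f.1 := f.2
  obtain ⟨F, hF⟩ := exists_isPrim hMF.holo
  refine PartG5.isCF_of_period_eq_zero PartG5.inputs hMF hF fun γ hγ htr z => ?_
  rw [← hf ⟨γ, hγ⟩ htr]
  exact (perLin_spec Γ f F hF ⟨γ, hγ⟩ z).symm

end Fermat.Agent.S21
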