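import Fermat.Agent.S21.PartG7a
import Fermat.Agent.S21.PartG1
import Fermat.Agent.S21.PartG2
import Fermat.Prelude.Def_ModularCurve_PeriodHomPair

set_option autoImplicit false

namespace Fermat.Agent.S21.PartG7

open UpperHalfPlane ModularForm Filter Function Complex CongruenceSubgroup ModularCurve.Period
open scoped MatrixGroups Manifold Topology Real ComplexConjugate

lemma IsPrim.mdiff {f F : ℍ → ℂ} (h : IsPrim f F) : MDiff F := by
  rw [UpperHalfPlane.mdifferentiable_iff]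
  intro z hz
  exact (h ⟨z, hz⟩).differentiableAt.differentiableWithinAt

/-- If `Re K` is `Γ`-invariant and `K` is periodic with a limit at every cusp, then `K' = 0`. -/
theorem eq_zero_of_re_invariant (Γ : Subgroup SL(2, ℤ)) [Γ.FiniteIndex] {k K : ℍ → ℂ}
    (hK : IsPrim k K) (hinv : ∀ γ ∈ Γ, ∀ z : ℍ, (K (γ • z)).re = (K z).re)
    {h : ℝ} (hh : 0 < h)
    (hper : ∀ (δ : SL(2, ℤ)) (z : ℍ), K (δ • (h +ᵥ z)) = K (δ • z))
    (hlim : ∀ δ : SL(2, ℤ), ∃ L : ℂ, Tendsto (fun z : ℍ => K (δ • z)) atImInfty (𝓝 L)) :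
    k = 0 := by
  have hE : MDiff (fun z => Complex.exp (K z)) := by
    rw [UpperHalfPlane.mdifferentiable_iff]
    intro z hz
    exact (hK ⟨z, hz⟩).cexp.differentiableAt.differentiableWithinAt
  obtain ⟨c, hc⟩ := exists_eq_const_of_norm_invariant Γ (fun z => Complex.exp (K z)) hE
    (fun γ hγ z => by simp only [Complex.norm_exp, hinv γ hγ z]) hh
    (fun δ z => by simp only [hper δ z])
    (fun δ => by
      obtain ⟨L, hL⟩ := hlim δ
      exact ((Complex.continuous_exp.tendsto L).comp hL).isBigO_one ℝ)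
  funext τ
  have h1 : HasDerivAt (fun w => Complex.exp ((K ∘ ofComplex) w)) (Complex.exp (K τ) * k τ) τ := by
    have := (hK τ).cexp
    simpa using this
  have h2 : HasDerivAt (fun w => Complex.exp ((K ∘ ofComplex) w)) 0 τ := by
    have : (fun w => Complex.exp ((K ∘ ofComplex) w)) = fun _ => c := by
      funext w; exact hc _
    rw [this]; exact hasDerivAt_const _ _
  have := h1.unique h2
  simpa [Complex.exp_ne_zero] using this


lemma T_pow_smul (n : ℕ) (z : ℍ) : (ModularGroup.T ^ n) • z = ((n : ℝ) +ᵥ z : ℍ) := by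
  ext
  have := ModularGroup.coe_T_zpow_smul_eq z (n := (n : ℤ))
  rw [zpow_natCast] at this
  rw [this]
  simp [add_comm]

lemma slash_T_pow (f : ℍ → ℂ) (k : ℤ) (n : ℕ) (z : ℍ) :
    (f ∣[k] (ModularGroup.T ^ n)) z = f ((n : ℝ) +ᵥ z) := by
  rw [SL_slash_apply, T_pow_smul]
  have : denom ((ModularGroup.T ^ n : SL(2, ℤ))) z = 1 := by
    have h := ModularGroup.coe_T_zpow (n : ℤ)
    rw [zpow_natCast] at h
    rw [ModularGroup.denom_apply, h]
    simp
  rw [this]; simp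

lemma conj_T_pow_mem_Gamma0 (N : ℕ) (δ : SL(2, ℤ)) :
    δ * ModularGroup.T ^ N * δ⁻¹ ∈ Gamma0 N := by
  have h1 : ModularGroup.T ^ N ∈ CongruenceSubgroup.Gamma N := by
    have := ModularGroup_T_pow_mem_Gamma (N : ℤ) (N : ℤ) dvd_rfl
    simpa using this
  have h2 : δ * ModularGroup.T ^ N * δ⁻¹ ∈ CongruenceSubgroup.Gamma N := (Gamma_normal N).conj_mem _ h1 δ
  rw [Gamma_mem] at h2
  rw [Gamma0_mem]
  exact h2.2.2.1

/-- Behaviour of a primitive of a weight 2 cusp form at all cusps. -/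
theorem prim_cusp {Γ : Subgroup SL(2, ℤ)} {f F : ℍ → ℂ} (hf : IsCF Γ 2 f) (hF : IsPrim f F)
    {h : ℕ} (hh : 0 < h) (hΓ : ∀ δ : SL(2, ℤ), δ * ModularGroup.T ^ h * δ⁻¹ ∈ Γ) (δ : SL(2, ℤ)) :
    (∀ z : ℍ, F (δ • ((h : ℝ) +ᵥ z)) = F (δ • z)) ∧
      ∃ L : ℂ, Tendsto (fun z : ℍ => F (δ • z)) atImInfty (𝓝 L) := by
  have hholo : MDiff (f ∣[(2 : ℤ)] δ) := by rw [SL_slash]; exact hf.holo.slash _ _
  have hper : ∀ z : ℍ, (f ∣[(2 : ℤ)] δ) ((h : ℝ) +ᵥ z) = (f ∣[(2 : ℤ)] δ) z := by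
    intro z
    rw [← slash_T_pow (f ∣[(2 : ℤ)] δ) 2, ← SlashAction.slash_mul]
    have : δ * ModularGroup.T ^ h = (δ * ModularGroup.T ^ h * δ⁻¹) * δ := by group
    rw [this, SlashAction.slash_mul, hf.inv _ (hΓ δ)]
  obtain ⟨a₀, G, ha₀, hG, hG0, hGper⟩ :=
    exists_isPrim_tendsto hholo hh hper (hf.zero δ).boundedAtFilter
  have ha : a₀ = 0 := tendsto_nhds_unique ha₀ (hf.zero δ)
  subst ha
  obtain ⟨c, hc⟩ := (hF.comp_smul δ).eq_add_const hG
  simp only [zero_mul, zero_add] at hc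
  refine ⟨fun z => by rw [hc, hc, hGper], c, ?_⟩
  have : (fun z : ℍ => F (δ • z)) = fun z => G z + c := funext hc
  rw [this]
  simpa using hG0.add_const c


/-- the reflection `z ↦ -z̄` of the upper half plane -/
noncomputable def cc (z : ℍ) : ℍ := ⟨-conj (z : ℂ), by simpa using z.im_pos⟩

@[simp] lemma coe_cc (z : ℍ) : ((cc z : ℍ) : ℂ) = -conj (z : ℂ) := rfl

@[simp] lemma cc_cc (z : ℍ) : cc (cc z) = z := by ext; simp

lemma im_cc (z : ℍ) : (cc z).im = z.im := by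
  change ((cc z : ℍ) : ℂ).im = _
  simp

lemma tendsto_cc : Tendsto cc atImInfty atImInfty := by
  rw [atImInfty, tendsto_comap_iff]
  have : UpperHalfPlane.im ∘ cc = UpperHalfPlane.im := funext im_cc
  rw [this]
  exact tendsto_comap

lemma cc_vadd (h : ℝ) (z : ℍ) : cc (h +ᵥ z) = (-h) +ᵥ cc z := by
  ext; simp [add_comm]

lemma cc_smul (γ : SL(2, ℤ)) (z : ℍ) : cc (γ • z) = jConjSL γ • cc z := by
  ext
  rw [coe_cc, coe_specialLinearGroup_apply, coe_specialLinearGroup_apply]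
  simp only [jConjSL_coe, coe_cc, map_div₀, map_add, map_mul]
  simp only [algebraMap_int_eq, eq_intCast, jConjMat_apply_zero_zero, jConjMat_apply_zero_one,
    jConjMat_apply_one_zero, jConjMat_apply_one_one, Int.cast_neg, ofReal_neg, ofReal_intCast,
    map_intCast]
  rw [← neg_div]
  congr 1 <;> ring

lemma IsPrim.add {f g F G : ℍ → ℂ} (hF : IsPrim f F) (hG : IsPrim g G) :
    IsPrim (f + g) (F + G) := fun τ => (hF τ).add (hG τ)

lemma IsPrim.sub {f g F G : ℍ → ℂ} (hF : IsPrim f F) (hG : IsPrim g G) :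
    IsPrim (f - g) (F - G) := fun τ => (hF τ).sub (hG τ)

lemma IsPrim.const_mul (c : ℂ) {f F : ℍ → ℂ} (hF : IsPrim f F) :
    IsPrim (fun z => c * f z) (fun z => c * F z) := fun τ => (hF τ).const_mul c

lemma IsPrim.conj_cc {v F : ℍ → ℂ} (hF : IsPrim v F) :
    IsPrim (fun z => -conj (v (cc z))) (fun z => conj (F (cc z))) := by
  intro τ
  have h1 : HasDerivAt (F ∘ ofComplex) (v (cc τ)) (-(conj (τ : ℂ))) := hF (cc τ)
  have h2 : HasDerivAt (fun w : ℂ => (F ∘ ofComplex) (-w)) (-(v (cc τ))) (conj (τ : ℂ)) := by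
    have := HasDerivAt.comp (conj (τ : ℂ)) h1 (hasDerivAt_neg (conj (τ : ℂ)))
    simpa [Function.comp_def] using this
  have h3 := h2.conj_conj
  rw [Complex.conj_conj] at h3
  have h4 : (conj (-(v (cc τ)))) = -conj (v (cc τ)) := by simp
  rw [h4] at h3
  refine h3.congr_of_eventuallyEq ?_
  have hopen : ∀ᶠ w : ℂ in 𝓝 (τ : ℂ), 0 < w.im :=
    (isOpen_lt continuous_const Complex.continuous_im).mem_nhds τ.im_pos
  filter_upwards [hopen] with w hw
  simp only [comp_apply]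
  rw [ofComplex_apply_of_im_pos hw]
  have hw' : 0 < (-conj w).im := by simpa using hw
  rw [ofComplex_apply_of_im_pos hw']
  rfl


end Fermat.Agent.S21.PartG7

namespace Fermat.Agent.S21

open UpperHalfPlane ModularForm Filter Function Complex CongruenceSubgroup ModularCurve.Period
open scoped MatrixGroups Manifold Topology Real ComplexConjugate
open PartG7

/-- G7: injectivity (maximum modulus principle). -/
theorem perLin_injectivity (N : ℕ) [NeZero N] (u v : MF (Gamma0 N) 2)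
    (hu : IsCF (Gamma0 N) 2 u.1) (hv : IsCF (Gamma0 N) 2 v.1)
    (h : perLin (Gamma0 N) u + ModularCurve.Period.charInvolution N ℂ ℂ (perLin (Gamma0 N) v) = 0) :
    u = 0 ∧ v = 0 := by
  obtain ⟨Fu, hFu⟩ := exists_isPrim hu.holo
  obtain ⟨Fv, hFv⟩ := exists_isPrim hv.holo
  have hN : 0 < N := Nat.pos_of_ne_zero (NeZero.ne N)
  have hNr : (0 : ℝ) < (N : ℝ) := by exact_mod_cast hN
  -- the relation between periods
  have hrel : ∀ γ : Gamma0 N, perLin (Gamma0 N) u (Additive.ofMul γ)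
      + perLin (Gamma0 N) v (Additive.ofMul (jConjGamma0 N γ)) = 0 := by
    intro γ
    have := DFunLike.congr_fun h (Additive.ofMul γ)
    simpa using this
  have hPu : ∀ (γ : Gamma0 N) (z : ℍ), Fu ((γ : SL(2, ℤ)) • z) = Fu z
      + perLin (Gamma0 N) u (Additive.ofMul γ) := fun γ z => by
    rw [perLin_spec _ u Fu hFu γ z]; ring
  have hPv : ∀ (γ : Gamma0 N) (z : ℍ), Fv ((γ : SL(2, ℤ)) • z) = Fv z
      + perLin (Gamma0 N) v (Additive.ofMul γ) := fun γ z => by
    rw [perLin_spec _ v Fv hFv γ z]; ring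
  set Fc : ℍ → ℂ := fun z => conj (Fv (cc z)) with hFc
  set vs : ℍ → ℂ := fun z => -conj (v.1 (cc z)) with hvs
  have hFcP : IsPrim vs Fc := PartG7.IsPrim.conj_cc hFv
  have hFc_inv : ∀ (γ : Gamma0 N) (z : ℍ), Fc ((γ : SL(2, ℤ)) • z) = Fc z
      + conj (perLin (Gamma0 N) v (Additive.ofMul (jConjGamma0 N γ))) := by
    intro γ z
    simp only [hFc]
    rw [cc_smul, ← jConjGamma0_coe, hPv, map_add]
  have hcu := fun δ => prim_cusp hu hFu hN (conj_T_pow_mem_Gamma0 N) δ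
  have hcv := fun δ => prim_cusp hv hFv hN (conj_T_pow_mem_Gamma0 N) δ
  have hFc_per : ∀ (δ : SL(2, ℤ)) (z : ℍ), Fc (δ • ((N : ℝ) +ᵥ z)) = Fc (δ • z) := by
    intro δ z
    simp only [hFc]
    rw [cc_smul, cc_smul, cc_vadd]
    have := (hcv (jConjSL δ)).1 ((-(N : ℝ)) +ᵥ cc z)
    rw [← this]
    congr 3
    rw [vadd_vadd]; simp
  have hFc_lim : ∀ δ : SL(2, ℤ), ∃ L : ℂ, Tendsto (fun z : ℍ => Fc (δ • z)) atImInfty (𝓝 L) := by
    intro δ
    obtain ⟨L, hL⟩ := (hcv (jConjSL δ)).2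
    refine ⟨conj L, ?_⟩
    have h1 : (fun z : ℍ => Fc (δ • z)) = fun z => conj (Fv (jConjSL δ • cc z)) := by
      funext z; simp only [hFc]; rw [cc_smul]
    rw [h1]
    exact (Complex.continuous_conj.tendsto L).comp (hL.comp tendsto_cc)
  -- first function
  have e1 : u.1 + vs = 0 := by
    refine eq_zero_of_re_invariant (Gamma0 N) (PartG7.IsPrim.add hFu hFcP) ?_ hNr ?_ ?_
    · intro γ hγ z
      have a1 := hPu ⟨γ, hγ⟩ z
      have a2 := hFc_inv ⟨γ, hγ⟩ z
      have a3 := hrel ⟨γ, hγ⟩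
      simp only [Pi.add_apply] at *
      rw [a1, a2, eq_neg_of_add_eq_zero_left a3]
      simp
      ring
    · intro δ z
      simp only [Pi.add_apply]
      rw [(hcu δ).1 z, hFc_per δ z]
    · intro δ
      obtain ⟨L1, hL1⟩ := (hcu δ).2
      obtain ⟨L2, hL2⟩ := hFc_lim δ
      exact ⟨L1 + L2, hL1.add hL2⟩
  have e2 : (fun z => Complex.I * (u.1 - vs) z) = 0 := by
    refine eq_zero_of_re_invariant (Gamma0 N) (PartG7.IsPrim.const_mul Complex.I (PartG7.IsPrim.sub hFu hFcP)) ?_ hNr ?_ ?_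
    · intro γ hγ z
      have a1 := hPu ⟨γ, hγ⟩ z
      have a2 := hFc_inv ⟨γ, hγ⟩ z
      have a3 := hrel ⟨γ, hγ⟩
      simp only [Pi.sub_apply] at *
      rw [a1, a2, eq_neg_of_add_eq_zero_left a3]
      simp
    · intro δ z
      simp only [Pi.sub_apply]
      rw [(hcu δ).1 z, hFc_per δ z]
    · intro δ
      obtain ⟨L1, hL1⟩ := (hcu δ).2
      obtain ⟨L2, hL2⟩ := hFc_lim δ
      exact ⟨Complex.I * (L1 - L2), (hL1.sub hL2).const_mul _⟩
  have e2' : u.1 - vs = 0 := by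
    funext z
    have := congrFun e2 z
    simpa [Complex.I_ne_zero] using this
  have hu0 : u.1 = 0 := by
    have : (2 : ℂ) • u.1 = 0 := by
      have := congrArg₂ (· + ·) e1 e2'
      simp only [add_zero] at this
      rw [two_smul]
      rw [← this]; abel
    exact (smul_eq_zero.mp this).resolve_left two_ne_zero
  have hvs0 : vs = 0 := by rw [hu0, zero_add] at e1; exact e1
  have hv0 : v.1 = 0 := by
    funext z
    have := congrFun hvs0 (cc z)
    simpa [hvs] using this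
  exact ⟨Subtype.ext hu0, Subtype.ext hv0⟩

end Fermat.Agent.S21
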