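import Fermat.Agent.S21.PartA0
import Fermat.Agent.S21.PartA1
import Fermat.Agent.S21.PartA6
import Fermat.Agent.S21.PartB
import Fermat.Agent.S21.PartC
import Fermat.Agent.S21.PartD
import Fermat.Agent.S21.PartE
import Fermat.Agent.S21.PartF
import Fermat.Agent.S21.PartG1
import Fermat.Agent.S21.PartG2
import Fermat.Agent.S21.PartG4
import Fermat.Agent.S21.PartG5
import Fermat.Agent.S21.PartG7
import Fermat.Prelude.Def_ModularCurve_PeriodHomPair

set_option autoImplicit false
open ModularCurve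

namespace Fermat.Agent.S21

open UpperHalfPlane ModularForm Filter CongruenceSubgroup ModularCurve.Period
open scoped MatrixGroups Manifold Topology

namespace PartH

variable (N : ℕ) [NeZero N]

/-- inclusion of bundled cusp forms in `MF`. -/
noncomputable def cuspToMF : CuspForm (Gamma0 N) 2 →ₗ[ℂ] MF (Gamma0 N) 2 where
  toFun f := ⟨f, (isCF_coe f).isMF⟩
  map_add' _ _ := rfl
  map_smul' _ _ := rfl

lemma cuspToMF_isCF (f : CuspForm (Gamma0 N) 2) : IsCF (Gamma0 N) 2 (cuspToMF N f).1 := isCF_coe f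

lemma cuspToMF_injective : Function.Injective (cuspToMF N) := by
  intro f g h
  have : (f : ℍ → ℂ) = g := congrArg Subtype.val h
  exact DFunLike.coe_injective this

lemma existsPeriodMapLinear : ExistsPeriodMapLinear N :=
  ⟨perLin (Gamma0 N) ∘ₗ cuspToMF N, fun f => (periodMap_eq_perLin N f).symm⟩

lemma periodHomPair_apply (f g : CuspForm (Gamma0 N) 2) :
    periodHomPair N (f, g) = perLin (Gamma0 N) (cuspToMF N (f + g))
      + charInvolution N ℂ ℂ (perLin (Gamma0 N) (cuspToMF N (f - g))) := by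
  obtain ⟨pml, hpml, hdef⟩ := periodHomPair_def N (existsPeriodMapLinear N)
  have h1 : ∀ f, pml f = perLin (Gamma0 N) (cuspToMF N f) := fun f => by
    rw [hpml, periodMap_eq_perLin]; rfl
  rw [hdef]
  simp only [LinearMap.coprod_apply, LinearMap.comp_apply, LinearMap.add_apply, LinearMap.sub_apply,
    LinearMap.id_apply, h1, map_add, map_sub]
  abel

lemma injective_periodHomPair : Function.Injective (periodHomPair N) := by
  rw [injective_iff_map_eq_zero]
  rintro ⟨f, g⟩ h
  rw [periodHomPair_apply] at h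
  obtain ⟨h1, h2⟩ := perLin_injectivity N _ _ (cuspToMF_isCF N _) (cuspToMF_isCF N _) h
  have h1' : f + g = 0 := cuspToMF_injective N (by rw [h1, map_zero])
  have h2' : f - g = 0 := cuspToMF_injective N (by rw [h2, map_zero])
  have hfg : f = g := sub_eq_zero.mp h2'
  subst hfg
  have hf : f = 0 := by
    have : (2 : ℂ) • f = 0 := by rw [two_smul]; exact h1'
    exact (smul_eq_zero.mp this).resolve_left two_ne_zero
  simp [hf]

lemma range_le : LinearMap.range (periodHomPair N) ≤ parabolicHoms ℂ (Gamma0 N) ℂ := by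
  rintro _ ⟨⟨f, g⟩, rfl⟩
  rw [periodHomPair_apply]
  exact Submodule.add_mem _ (perLin_mem_parabolicHoms _ (cuspToMF_isCF N _))
    (charInvolution_mem_parabolicHoms N ℂ ℂ (perLin_mem_parabolicHoms _ (cuspToMF_isCF N _)))

/-- inclusion `CF ≤ MF` -/
lemma CF_le_MF (Γ : Subgroup SL(2, ℤ)) (k : ℤ) : CF Γ k ≤ MF Γ k := fun _ h => IsCF.isMF h

/-- The extended map `Θ(u, v) = P u + ι P v` on `M₂ × S₂`. -/
noncomputable def Theta : (MF (Gamma0 N) 2 × CF (Gamma0 N) 2) →ₗ[ℂ] (Additive (Gamma0 N) →+ ℂ) :=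
  LinearMap.coprod (perLin (Gamma0 N))
    (charInvolution N ℂ ℂ ∘ₗ perLin (Gamma0 N) ∘ₗ Submodule.inclusion (CF_le_MF _ _))

lemma Theta_apply (u : MF (Gamma0 N) 2) (v : CF (Gamma0 N) 2) :
    Theta N (u, v) = perLin (Gamma0 N) u
      + charInvolution N ℂ ℂ (perLin (Gamma0 N) (Submodule.inclusion (CF_le_MF _ _) v)) := rfl

lemma isCF_of_Theta_mem {u : MF (Gamma0 N) 2} {v : CF (Gamma0 N) 2}
    (h : Theta N (u, v) ∈ parabolicHoms ℂ (Gamma0 N) ℂ) : IsCF (Gamma0 N) 2 u.1 := by
  apply isCF_of_perLin_mem_parabolicHoms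
  have h2 : charInvolution N ℂ ℂ (perLin (Gamma0 N) (Submodule.inclusion (CF_le_MF _ _) v))
      ∈ parabolicHoms ℂ (Gamma0 N) ℂ :=
    charInvolution_mem_parabolicHoms N ℂ ℂ (perLin_mem_parabolicHoms _ v.2)
  have := Submodule.sub_mem _ h h2
  rwa [Theta_apply, add_sub_cancel_right] at this

lemma injective_Theta : Function.Injective (Theta N) := by
  rw [injective_iff_map_eq_zero]
  rintro ⟨u, v⟩ h
  have hu : IsCF (Gamma0 N) 2 u.1 := isCF_of_Theta_mem N (by rw [h]; exact Submodule.zero_mem _)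
  rw [Theta_apply] at h
  obtain ⟨h1, h2⟩ := perLin_injectivity N u (Submodule.inclusion (CF_le_MF _ _) v) hu v.2 h
  have : v = 0 := by
    apply Subtype.ext
    exact congrArg (fun w : MF (Gamma0 N) 2 => w.1) h2
  simp [h1, this]

section count

variable {Γ : Subgroup SL(2, ℤ)} [Γ.FiniteIndex] [Fintype (SL(2, ℤ) ⧸ Γ)]
  [DecidableEq (SL(2, ℤ) ⧸ Γ)]

lemma wt_lt_twelve (B : FreeBasis Γ) (j : SL(2, ℤ) ⧸ Γ) : B.wt j < 12 := by
  by_contra hlt
  have hdet := B.det_ne_zero
  have hcf := B.isCF_dual hdet (B.tendsto_discriminant_mul_inv hdet) j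
  have h0 : B.dual j = 0 := isCF_eq_zero_of_nonpos (by omega) hcf
  exact (B.linearIndependent_dual hdet).ne_zero j h0

lemma wt_cases (B : FreeBasis Γ) (hneg : -1 ∈ Γ) (j : SL(2, ℤ) ⧸ Γ) :
    B.wt j = 0 ∨ B.wt j = 2 ∨ B.wt j = 4 ∨ B.wt j = 6 ∨ B.wt j = 8 ∨ B.wt j = 10 := by
  have h1 := wt_lt_twelve B j
  have h2 := B.wt_nonneg j
  obtain ⟨r, hr⟩ := B.wt_even hneg j
  omega

/-- number of generators of weight `k` -/
def m (B : FreeBasis Γ) (k : ℤ) : ℕ := (Finset.univ.filter fun j => B.wt j = k).card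

lemma count_main (B : FreeBasis Γ) (hneg : -1 ∈ Γ) :
    m B 2 + m B 10 + Fintype.card (SL(2, ℤ) ⧸ Γ)
      = Module.finrank ℂ (AS Γ) + Module.finrank ℂ (AU Γ) + 1 := by
  have hdet := B.det_ne_zero
  have h4 := B.card_wt_mod_four hneg hdet
  have h6 := B.card_wt_mod_six hneg hdet
  have h0 : m B 0 = 1 := B.card_wt_zero
  have e4 : (Finset.univ.filter fun j => B.wt j % 4 = 2).card = m B 2 + m B 6 + m B 10 := by
    simp only [m, Finset.card_filter, ← Finset.sum_add_distrib]
    refine Finset.sum_congr rfl fun j _ => ?_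
    rcases wt_cases B hneg j with h | h | h | h | h | h <;> simp [h]
  have e6 : (Finset.univ.filter fun j => B.wt j % 6 = 0).card = m B 0 + m B 6 := by
    simp only [m, Finset.card_filter, ← Finset.sum_add_distrib]
    refine Finset.sum_congr rfl fun j _ => ?_
    rcases wt_cases B hneg j with h | h | h | h | h | h <;> simp [h]
  omega

lemma m_two_le (B : FreeBasis Γ) [FiniteDimensional ℂ (MF Γ 2)] :
    m B 2 ≤ Module.finrank ℂ (MF Γ 2) := by
  have hli := B.linearIndependent_wt 2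
  have hli' : LinearIndependent ℂ
      (fun j : {j // B.wt j = 2} => (⟨B.F j.1, (B.mem j.1).congr_wt j.2⟩ : MF Γ 2)) := by
    apply LinearIndependent.of_comp (MF Γ 2).subtype
    exact hli
  have := hli'.fintype_card_le_finrank
  rwa [Fintype.card_subtype] at this

lemma m_ten_le (B : FreeBasis Γ) [FiniteDimensional ℂ (CF Γ 2)] :
    m B 10 ≤ Module.finrank ℂ (CF Γ 2) := by
  have hdet := B.det_ne_zero
  have hli := (B.linearIndependent_dual hdet).comp (fun j : {j // B.wt j = 10} => j.1)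
    Subtype.val_injective
  have hmem : ∀ j : {j // B.wt j = 10}, IsCF Γ 2 (B.dual j.1) := fun j =>
    (B.isCF_dual hdet (B.tendsto_discriminant_mul_inv hdet) j.1).congr_wt (by rw [j.2]; norm_num)
  have hli' : LinearIndependent ℂ
      (fun j : {j // B.wt j = 10} => (⟨B.dual j.1, hmem j⟩ : CF Γ 2)) := by
    apply LinearIndependent.of_comp (CF Γ 2).subtype
    exact hli
  have := hli'.fintype_card_le_finrank
  rwa [Fintype.card_subtype] at this

end count

lemma neg_one_mem_Gamma0 : (-1 : SL(2, ℤ)) ∈ Gamma0 N := by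
  rw [Gamma0_mem]; simp

lemma surjective_Theta : Function.Surjective (Theta N) := by
  classical
  have : Fintype (SL(2, ℤ) ⧸ Gamma0 N) := Fintype.ofFinite _
  obtain ⟨B⟩ := exists_freeBasis N
  have := finiteDimensional_MF N 2
  have : FiniteDimensional ℂ (CF (Gamma0 N) 2) :=
    Submodule.finiteDimensional_of_le (CF_le_MF _ _)
  have := finiteDimensional_hom (Gamma0 N)
  have hneg := neg_one_mem_Gamma0 N
  have h1 := count_main B hneg
  have h2 := m_two_le B
  have h3 := m_ten_le B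
  have h4 := finrank_hom_add_card_le (Γ := Gamma0 N) hneg
  have hdim : Module.finrank ℂ (Additive (Gamma0 N) →+ ℂ)
      ≤ Module.finrank ℂ (MF (Gamma0 N) 2 × CF (Gamma0 N) 2) := by
    rw [Module.finrank_prod]; omega
  have hinj := injective_Theta N
  have hle := LinearMap.finrank_le_finrank_of_injective hinj
  exact (LinearMap.injective_iff_surjective_of_finrank_eq_finrank (le_antisymm hle hdim)).mp hinj

lemma le_range : parabolicHoms ℂ (Gamma0 N) ℂ ≤ LinearMap.range (periodHomPair N) := by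
  intro φ hφ
  obtain ⟨⟨u, v⟩, rfl⟩ := surjective_Theta N φ
  have hu := isCF_of_Theta_mem N hφ
  let u' : CuspForm (Gamma0 N) 2 := hu.toCuspForm
  let v' : CuspForm (Gamma0 N) 2 := IsCF.toCuspForm v.2
  refine ⟨((1 / 2 : ℂ) • (u' + v'), (1 / 2 : ℂ) • (u' - v')), ?_⟩
  rw [periodHomPair_apply, Theta_apply]
  have e1 : (1 / 2 : ℂ) • (u' + v') + (1 / 2 : ℂ) • (u' - v') = u' := by
    rw [← smul_add, add_add_sub_cancel, ← two_smul ℂ, smul_smul]; norm_num
  have e2 : (1 / 2 : ℂ) • (u' + v') - (1 / 2 : ℂ) • (u' - v') = v' := by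
    rw [← smul_sub, add_sub_sub_cancel, ← two_smul ℂ, smul_smul]; norm_num
  rw [e1, e2]
  rfl

end PartH

end Fermat.Agent.S21
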