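import Fermat.Agent.S21.Defs

set_option autoImplicit false

namespace Fermat.Agent.S21.PartG7

open UpperHalfPlane ModularForm Filter Function Complex
open scoped MatrixGroups Manifold Topology Real

local notation "𝕢" => Periodic.qParam

/-- periodicity on `ℍ` gives periodicity of `f ∘ ofComplex` on `ℂ`. -/
lemma periodic_comp_ofComplex {f : ℍ → ℂ} {h : ℝ} (hper : ∀ z : ℍ, f (h +ᵥ z) = f z) :
    Periodic (f ∘ ofComplex) h := by
  intro w
  by_cases hw : 0 < im w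
  · have hw' : 0 < im (w + h) := by simpa using hw
    simp only [comp_apply, ofComplex_apply_of_im_pos hw', ofComplex_apply_of_im_pos hw]
    rw [← hper ⟨w, hw⟩]
    congr 1
    ext
    simp [add_comm]
  · have hw1 : im w ≤ 0 := not_lt.mp hw
    have hw' : im (w + h) ≤ 0 := by simpa using hw1
    simp [ofComplex_apply_of_im_nonpos hw', ofComplex_apply_of_im_nonpos hw1]

/-- **Maximum principle on `Γ \ ℍ*`.** -/
theorem exists_eq_const_of_norm_invariant (Γ : Subgroup SL(2, ℤ)) [Γ.FiniteIndex] (E : ℍ → ℂ)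
    (hE : MDiff E) (hinv : ∀ γ ∈ Γ, ∀ z : ℍ, ‖E (γ • z)‖ = ‖E z‖)
    {h : ℝ} (hh : 0 < h)
    (hper : ∀ (δ : SL(2, ℤ)) (z : ℍ), E (δ • (h +ᵥ z)) = E (δ • z))
    (hbd : ∀ δ : SL(2, ℤ), IsBoundedAtImInfty (fun z : ℍ => E (δ • z))) :
    ∃ c : ℂ, ∀ z, E z = c := by
  classical
  -- the translated functions
  set Ed : SL(2, ℤ) → ℍ → ℂ := fun δ z => E (δ • z) with hEd
  have hEd_slash : ∀ δ, Ed δ = E ∣[(0 : ℤ)] δ := by
    intro δ; ext z; simp [hEd, SL_slash_apply]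
  have hEd_holo : ∀ δ, MDiff (Ed δ) := by
    intro δ; rw [hEd_slash, SL_slash]; exact hE.slash _ _
  have hEd_per : ∀ δ, Periodic (Ed δ ∘ ofComplex) h := fun δ => periodic_comp_ofComplex (hper δ)
  set c : SL(2, ℤ) → ℂ → ℂ := fun δ => cuspFunction h (Ed δ) with hc
  have hc_diff : ∀ δ, DifferentiableOn ℂ (c δ) (Metric.ball 0 1) := fun δ =>
    differentiableOn_cuspFunction_ball hh (hEd_per δ) (hEd_holo δ) (hbd δ)
  have hc_eq : ∀ δ (z : ℍ), c δ (𝕢 h z) = E (δ • z) := fun δ z =>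
    eq_cuspFunction z hh.ne' (hEd_per δ)
  set r : ℝ := Real.exp (-π / h) with hr
  have hr0 : 0 ≤ r := (Real.exp_pos _).le
  have hr1 : r < 1 := by
    rw [hr, Real.exp_lt_one_iff]
    exact div_neg_of_neg_of_pos (neg_lt_zero.mpr Real.pi_pos) hh
  -- maxima on the closed ball
  have hmax : ∀ δ, ∃ q ∈ Metric.closedBall (0 : ℂ) r, IsMaxOn (fun q => ‖c δ q‖) (Metric.closedBall 0 r) q :=
    fun δ => (isCompact_closedBall (0 : ℂ) r).exists_isMaxOn (Metric.nonempty_closedBall.mpr hr0)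
      ((hc_diff δ).continuousOn.mono (Metric.closedBall_subset_ball hr1)).norm
  choose qm hqm_mem hqm_max using hmax
  have : Fintype (SL(2, ℤ) ⧸ Γ) := Fintype.ofFinite _
  obtain ⟨x0, -, hx0⟩ := Finset.exists_max_image (Finset.univ : Finset (SL(2, ℤ) ⧸ Γ))
    (fun x => ‖c (x.out)⁻¹ (qm (x.out)⁻¹)‖) ⟨((1 : SL(2, ℤ)) : SL(2, ℤ) ⧸ Γ), Finset.mem_univ _⟩
  set δ0 : SL(2, ℤ) := (x0.out)⁻¹ with hδ0
  set M : ℝ := ‖c δ0 (qm δ0)‖ with hM
  -- global bound
  have hbound : ∀ z : ℍ, ‖E z‖ ≤ M := by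
    intro z
    obtain ⟨g, hg⟩ := ModularGroup.exists_one_half_le_im_smul z
    set x : SL(2, ℤ) ⧸ Γ := QuotientGroup.mk (g : SL(2, ℤ)) with hx
    obtain ⟨γ, hγ⟩ := QuotientGroup.mk_out_eq_mul Γ g
    -- x.out = g * γ
    have hz : z = (γ : SL(2, ℤ)) • ((x.out)⁻¹ • (g • z)) := by
      rw [hx, hγ, ← mul_smul, ← mul_smul]; simp
    have h1 : ‖E z‖ = ‖c (x.out)⁻¹ (𝕢 h (g • z : ℍ))‖ := by
      rw [hc_eq]
      conv_lhs => rw [hz]
      exact hinv _ γ.2 _
    have h2 : 𝕢 h (g • z : ℍ) ∈ Metric.closedBall (0 : ℂ) r := by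
      rw [mem_closedBall_zero_iff, Periodic.norm_qParam, hr]
      apply Real.exp_le_exp.mpr
      rw [div_le_div_iff_of_pos_right hh]
      have : (1 / 2 : ℝ) ≤ ((g • z : ℍ) : ℂ).im := hg
      nlinarith [Real.pi_pos]
    rw [h1]
    exact (hqm_max _ h2).trans (hx0 x (Finset.mem_univ _))
  -- `c δ0` attains its max on the open ball
  have hmaxball : IsMaxOn (norm ∘ c δ0) (Metric.ball 0 1) (qm δ0) := by
    intro q hq
    simp only [Set.mem_ofPred_eq, comp_apply]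
    have hq1 : ‖q‖ < 1 := mem_ball_zero_iff.mp hq
    have key : ∀ q : ℂ, ‖q‖ < 1 → q ≠ 0 → ‖c δ0 q‖ ≤ M := by
      intro q hq1 hq0
      have him := Periodic.im_invQParam_pos_of_norm_lt_one hh hq1 hq0
      have := hc_eq δ0 ⟨_, him⟩
      rw [UpperHalfPlane.coe_mk, Periodic.qParam_right_inv hh.ne' hq0] at this
      rw [this]; exact hbound _
    rcases eq_or_ne q 0 with rfl | hq0
    · -- continuity at zero
      have hcont : ContinuousAt (c δ0) 0 :=
        ((hc_diff δ0).differentiableAt (Metric.ball_mem_nhds 0 one_pos)).continuousAt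
      have hT : Tendsto (fun q => ‖c δ0 q‖) (𝓝[≠] 0) (𝓝 ‖c δ0 0‖) :=
        (hcont.norm.tendsto).mono_left nhdsWithin_le_nhds
      refine le_of_tendsto hT ?_
      have : ∀ᶠ q in 𝓝[≠] (0 : ℂ), q ∈ Metric.ball (0 : ℂ) 1 :=
        mem_nhdsWithin_of_mem_nhds (Metric.ball_mem_nhds 0 one_pos)
      filter_upwards [this, self_mem_nhdsWithin] with q hq hq0
      exact key q (mem_ball_zero_iff.mp hq) hq0
    · exact key q hq1 hq0
  have hconst := Complex.eq_const_of_exists_max (hc_diff δ0)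
    (Metric.closedBall_subset_ball hr1 (hqm_mem δ0)) hmaxball
  refine ⟨c δ0 (qm δ0), fun z => ?_⟩
  have hz : z = δ0 • (δ0⁻¹ • z) := by simp
  rw [hz, ← hc_eq]
  exact hconst (mem_ball_zero_iff.mpr (Periodic.norm_qParam_lt_one hh (δ0⁻¹ • z).im_pos))

end Fermat.Agent.S21.PartG7
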